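import Fermat.Agent.ModEq.PrimeLevel

/-!
# Primitive triples and their children
-/

set_option autoImplicit false

noncomputable section

open HahnSeries ModularCurve Polynomial

namespace FLTAgent.ModEq

/-- A primitive triple `(a, b, d)` of level `N`: the matrix `(a b; 0 d)`. -/
def IsPrim (N : ℕ) (t : ℕ × ℕ × ℕ) : Prop :=
  t.1 * t.2.2 = N ∧ t.2.1 < t.2.2 ∧
    ∀ r : ℕ, r.Prime → r ∣ t.1 → r ∣ t.2.1 → ¬ r ∣ t.2.2

/-- The primitive triples of level `N`. -/
def primTriples (N : ℕ) : Finset (ℕ × ℕ × ℕ) :=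
  haveI := Classical.decPred (IsPrim N)
  (Finset.range (N + 1) ×ˢ Finset.range (N + 1) ×ˢ Finset.range (N + 1)).filter (IsPrim N)

theorem mem_primTriples {N : ℕ} [NeZero N] {t : ℕ × ℕ × ℕ} :
    t ∈ primTriples N ↔ IsPrim N t := by
  simp only [primTriples, Finset.mem_filter, Finset.mem_product, Finset.mem_range]
  refine ⟨fun h => h.2, fun h => ⟨?_, h⟩⟩
  obtain ⟨h1, h2, -⟩ := h
  have hN : 0 < N := Nat.pos_of_ne_zero (NeZero.ne N)
  have ha : t.1 ∣ N := ⟨_, h1.symm⟩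
  have hd : t.2.2 ∣ N := ⟨t.1, by rw [← h1, mul_comm]⟩
  have := Nat.le_of_dvd hN ha
  have := Nat.le_of_dvd hN hd
  omega

theorem IsPrim.pos {N : ℕ} [NeZero N] {t : ℕ × ℕ × ℕ} (h : IsPrim N t) :
    0 < t.1 ∧ 0 < t.2.2 := by
  refine ⟨Nat.pos_of_ne_zero fun h0 => ?_, Nat.lt_of_le_of_lt (Nat.zero_le _) h.2.1⟩
  have := h.1
  rw [h0, zero_mul] at this
  exact NeZero.ne N this.symm

theorem IsPrim.dvd {N : ℕ} {t : ℕ × ℕ × ℕ} (h : IsPrim N t) : t.2.2 ∣ N :=
  ⟨t.1, by rw [← h.1, mul_comm]⟩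

theorem isPrim_top (N : ℕ) : IsPrim N (N, 0, 1) :=
  ⟨mul_one N, one_pos, fun r hr _ _ h => hr.ne_one (Nat.dvd_one.mp h)⟩

theorem isPrim_bot (N : ℕ) [NeZero N] : IsPrim N (1, 0, N) :=
  ⟨one_mul N, Nat.pos_of_ne_zero (NeZero.ne N),
    fun r hr h _ _ => hr.ne_one (Nat.dvd_one.mp h)⟩

theorem primTriples_one : primTriples 1 = {(1, 0, 1)} := by
  ext ⟨a, b, d⟩
  rw [mem_primTriples, Finset.mem_singleton]
  constructor
  · rintro ⟨h1, h2, -⟩
    simp only at h1 h2
    obtain ⟨rfl, rfl⟩ := mul_eq_one.mp h1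
    obtain rfl : b = 0 := by omega
    rfl
  · rintro h; cases h; exact isPrim_top 1

section Series

variable {K : Type*} [CommRing K] (ζ : Kˣ) (n : ℕ)

/-- The series `j(ζ_n^{b n/d} t^{a n/d})`, i.e. `j((aτ+b)/d)`. -/
def tSer (t : ℕ × ℕ × ℕ) : LaurentSeries K :=
  jAt (ζ ^ (t.2.1 * (n / t.2.2))) (t.1 * (n / t.2.2))

theorem tSer_def (a b d : ℕ) : tSer ζ n (a, b, d) = jAt (ζ ^ (b * (n / d))) (a * (n / d)) := rfl

theorem tSer_mod (hζ : ζ ^ n = 1) {a b d : ℕ} (hd : d ∣ n) :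
    tSer ζ n (a, b % d, d) = tSer ζ n (a, b, d) := by
  simp only [tSer_def]
  congr 1
  conv_rhs => rw [← Nat.mod_add_div b d, add_mul, _root_.pow_add,
    show d * (b / d) * (n / d) = (d * (n / d)) * (b / d) by ring, Nat.mul_div_cancel' hd, pow_mul ζ n,
    hζ, one_pow, mul_one]

theorem tSer_scale {e a b d : ℕ} [NeZero n] (h : e * d ∣ n) :
    tSer ζ n (e * a, e * b, e * d) = tSer ζ n (a, b, d) := by
  obtain ⟨k, rfl⟩ := h
  have hn := NeZero.ne (e * d * k)
  have he : 0 < e := Nat.pos_of_ne_zero fun h0 => hn (by simp [h0])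
  have hd : 0 < d := Nat.pos_of_ne_zero fun h0 => hn (by simp [h0])
  simp only [tSer_def]
  rw [Nat.mul_div_cancel_left _ (Nat.mul_pos he hd),
    show e * d * k / d = e * k by
      rw [show e * d * k = d * (e * k) by ring, Nat.mul_div_cancel_left _ hd]]
  congr 1 <;> ring_nf

theorem tSer_inj [Nontrivial K] [NeZero n] (hζ : IsPrimitiveRoot ζ n) {a b d a' b' d' : ℕ}
    (hd : d ∣ n) (hd' : d' ∣ n) (ha : 0 < a) (ha' : 0 < a')
    (h : tSer ζ n (a, b, d) = tSer ζ n (a', b', d')) :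
    a * d' = a' * d ∧ b * d' ≡ b' * d [MOD d * d'] := by
  have hn := Nat.pos_of_ne_zero (NeZero.ne n)
  obtain ⟨k, hk⟩ := hd
  obtain ⟨k', hk'⟩ := hd'
  have hd0 : 0 < d := Nat.pos_of_ne_zero fun h0 => by simp [h0] at hk; omega
  have hd0' : 0 < d' := Nat.pos_of_ne_zero fun h0 => by simp [h0] at hk'; omega
  have hk0 : 0 < k := Nat.pos_of_ne_zero fun h0 => by simp [h0] at hk; omega
  have hk0' : 0 < k' := Nat.pos_of_ne_zero fun h0 => by simp [h0] at hk'; omega
  have e1 : n / d = k := by rw [hk, Nat.mul_div_cancel_left _ hd0]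
  have e2 : n / d' = k' := by rw [hk', Nat.mul_div_cancel_left _ hd0']
  simp only [tSer_def, e1, e2] at h
  obtain ⟨hm, hu⟩ := jAt_injective (Nat.mul_pos ha hk0).ne' (Nat.mul_pos ha' hk0').ne' h
  refine ⟨?_, ?_⟩
  · apply Nat.eq_of_mul_eq_mul_left hn
    calc n * (a * d') = (a * k) * (d * d') := by rw [hk]; ring
      _ = (a' * k') * (d * d') := by rw [hm]
      _ = n * (a' * d) := by rw [hk']; ring
  · have hmod : b * k ≡ b' * k' [MOD n] := by
      have hu' := pow_eq_pow_iff_modEq.mp hu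
      rwa [← hζ.eq_orderOf] at hu'
    have h2 : n * (b * d') ≡ n * (b' * d) [MOD n * (d * d')] := by
      have h3 := hmod.mul_right' (d * d')
      have e3 : b * k * (d * d') = n * (b * d') := by rw [hk]; ring
      have e4 : b' * k' * (d * d') = n * (b' * d) := by rw [hk']; ring
      rwa [e3, e4] at h3
    exact Nat.ModEq.mul_left_cancel' hn.ne' h2

theorem tSer_inj_level [Nontrivial K] [NeZero n] (hζ : IsPrimitiveRoot ζ n) {N : ℕ} [NeZero N]
    (hN : N ∣ n) {t t' : ℕ × ℕ × ℕ} (h1 : t.1 * t.2.2 = N) (h1' : t'.1 * t'.2.2 = N)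
    (h2 : t.2.1 < t.2.2) (h2' : t'.2.1 < t'.2.2) (h : tSer ζ n t = tSer ζ n t') : t = t' := by
  obtain ⟨a, b, d⟩ := t
  obtain ⟨a', b', d'⟩ := t'
  simp only at h1 h1' h2 h2'
  have hN0 := Nat.pos_of_ne_zero (NeZero.ne N)
  have ha : 0 < a := Nat.pos_of_ne_zero fun h0 => by simp [h0] at h1; omega
  have ha' : 0 < a' := Nat.pos_of_ne_zero fun h0 => by simp [h0] at h1'; omega
  obtain ⟨h3, h4⟩ := tSer_inj ζ n hζ ((Dvd.intro_left a h1).trans hN)
    ((Dvd.intro_left a' h1').trans hN) ha ha' h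
  have hdd : d' * d' = d * d := by
    apply Nat.eq_of_mul_eq_mul_left hN0
    calc N * (d' * d') = (a * d') * (d * d') := by rw [← h1]; ring
      _ = (a' * d) * (d * d') := by rw [h3]
      _ = N * (d * d) := by rw [← h1']; ring
  obtain rfl : d' = d := Nat.mul_self_inj.mp hdd
  obtain rfl : a = a' := Nat.eq_of_mul_eq_mul_right (by omega) h3
  obtain rfl : b = b' := Nat.ModEq.eq_of_lt_of_lt
    (Nat.ModEq.mul_right_cancel' (by omega) h4) h2 h2'
  rfl

theorem pow_congr_mod {w : Kˣ} {m i j : ℕ} (hw : w ^ m = 1) (h : i % m = j % m) :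
    w ^ i = w ^ j := by
  rw [pow_eq_pow_mod i hw, pow_eq_pow_mod j hw, h]

end Series

section Children

variable (p : ℕ) [Fact p.Prime]

/-- The `p + 1` children of a triple. -/
def childTriple (t : ℕ × ℕ × ℕ) : HIdx p → ℕ × ℕ × ℕ
  | none => (t.1 * p, (t.2.1 * p) % t.2.2, t.2.2)
  | some c => (t.1, t.2.1 + c.val * t.2.2, t.2.2 * p)

variable {p}

theorem childTriple_level {M : ℕ} {t : ℕ × ℕ × ℕ} (h1 : t.1 * t.2.2 = M) (h2 : t.2.1 < t.2.2)
    (i : HIdx p) :
    (childTriple p t i).1 * (childTriple p t i).2.2 = M * p ∧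
      (childTriple p t i).2.1 < (childTriple p t i).2.2 := by
  cases i with
  | none => exact ⟨by simp only [childTriple]; rw [← h1]; ring, Nat.mod_lt _ (by omega)⟩
  | some c =>
    refine ⟨by simp only [childTriple]; rw [← h1]; ring, ?_⟩
    simp only [childTriple]
    have hc : c.val + 1 ≤ p := c.val_lt
    nlinarith

theorem childTriple_prime_dvd {M : ℕ} {t : ℕ × ℕ × ℕ} (ht : IsPrim M t) {i : HIdx p} {r : ℕ}
    (hr : r.Prime) (h1 : r ∣ (childTriple p t i).1) (h2 : r ∣ (childTriple p t i).2.1)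
    (h3 : r ∣ (childTriple p t i).2.2) : r = p := by
  have hp : p.Prime := Fact.out
  by_contra hne
  have hrp : ¬ r ∣ p := fun h => hne ((Nat.prime_dvd_prime_iff_eq hr hp).mp h)
  cases i with
  | none =>
    simp only [childTriple] at h1 h2 h3
    rw [Nat.dvd_mod_iff h3] at h2
    exact ht.2.2 r hr ((hr.dvd_mul.mp h1).resolve_right hrp) ((hr.dvd_mul.mp h2).resolve_right hrp) h3
  | some c =>
    simp only [childTriple] at h1 h2 h3
    have h3' := (hr.dvd_mul.mp h3).resolve_right hrp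
    exact ht.2.2 r hr h1 ((Nat.dvd_add_left (h3'.mul_left _)).mp h2) h3'

theorem isPrim_child_iff {M : ℕ} {t : ℕ × ℕ × ℕ} (ht : IsPrim M t) (i : HIdx p) :
    IsPrim (M * p) (childTriple p t i) ↔
      ¬ (p ∣ (childTriple p t i).1 ∧ p ∣ (childTriple p t i).2.1 ∧
        p ∣ (childTriple p t i).2.2) := by
  constructor
  · rintro h ⟨h1, h2, h3⟩
    exact h.2.2 p Fact.out h1 h2 h3
  · intro h
    obtain ⟨e1, e2⟩ := childTriple_level (p := p) ht.1 ht.2.1 i
    refine ⟨e1, e2, fun r hr h1 h2 h3 => ?_⟩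
    obtain rfl := childTriple_prime_dvd ht hr h1 h2 h3
    exact h ⟨h1, h2, h3⟩

theorem isPrim_child_of_not_dvd {M : ℕ} (hM : ¬ p ∣ M) {t : ℕ × ℕ × ℕ} (ht : IsPrim M t)
    (i : HIdx p) : IsPrim (M * p) (childTriple p t i) := by
  rw [isPrim_child_iff ht]
  rintro ⟨h1, -, h3⟩
  cases i with
  | none => exact hM (h3.trans ht.dvd)
  | some c => exact hM (h1.trans ⟨_, ht.1.symm⟩)

theorem existsUnique_nonprim {M : ℕ} (hM : p ∣ M) {t : ℕ × ℕ × ℕ} (ht : IsPrim M t) :
    ∃! i : HIdx p, ¬ IsPrim (M * p) (childTriple p t i) := by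
  have hp : p.Prime := Fact.out
  simp only [isPrim_child_iff ht, not_not]
  by_cases hd : p ∣ t.2.2
  · refine ⟨none, ⟨dvd_mul_left _ _, (Nat.dvd_mod_iff hd).mpr (dvd_mul_left _ _), hd⟩, ?_⟩
    rintro (_ | c) ⟨h1, h2, -⟩
    · rfl
    · exact absurd hd (ht.2.2 p hp h1 ((Nat.dvd_add_left (hd.mul_left _)).mp h2))
  · have ha : p ∣ t.1 := by
      rw [← ht.1] at hM
      exact (hp.dvd_mul.mp hM).resolve_right hd
    have hd' : (t.2.2 : ZMod p) ≠ 0 := by rwa [ne_eq, ZMod.natCast_eq_zero_iff]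
    refine ⟨some (-(t.2.1 : ZMod p) / (t.2.2 : ZMod p)), ⟨ha, ?_, dvd_mul_left _ _⟩, ?_⟩
    · simp only [childTriple]
      rw [← ZMod.natCast_eq_zero_iff]
      push_cast [ZMod.natCast_zmod_val]
      field_simp
      ring
    · rintro (_ | c) ⟨-, h2, h3⟩
      · exact absurd h3 hd
      · simp only [childTriple] at h2
        rw [← ZMod.natCast_eq_zero_iff] at h2
        push_cast [ZMod.natCast_zmod_val] at h2
        congr 1
        field_simp
        linear_combination h2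

theorem child_injOn {M : ℕ} {t t' : ℕ × ℕ × ℕ} (ht : IsPrim M t) (ht' : IsPrim M t')
    {i i' : HIdx p} (hi : IsPrim (M * p) (childTriple p t i))
    (h : childTriple p t i = childTriple p t' i') : t = t' ∧ i = i' := by
  have hp : p.Prime := Fact.out
  obtain ⟨a, b, d⟩ := t
  obtain ⟨a', b', d'⟩ := t'
  have hb : b < d := ht.2.1
  have hb' : b' < d' := ht'.2.1
  have hnp : ∀ x : ℕ × ℕ × ℕ, x = childTriple p (a, b, d) i → p ∣ x.1 → p ∣ x.2.1 →
      p ∣ x.2.2 → False := fun x hx h1 h2 h3 => by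
    subst hx; exact hi.2.2 p hp h1 h2 h3
  match i, i' with
  | none, none =>
    simp only [childTriple, Prod.mk.injEq] at h
    obtain ⟨h1, h2, h3⟩ := h
    subst h3
    obtain rfl := Nat.eq_of_mul_eq_mul_right hp.pos h1
    by_cases hd : p ∣ d
    · exact (hnp _ rfl (dvd_mul_left _ _) ((Nat.dvd_mod_iff hd).mpr (dvd_mul_left _ _)) hd).elim
    · have hco : Nat.gcd d p = 1 := Nat.Coprime.symm (hp.coprime_iff_not_dvd.mpr hd)
      obtain rfl := Nat.ModEq.eq_of_lt_of_lt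
        (Nat.ModEq.cancel_right_of_coprime hco h2) hb hb'
      exact ⟨rfl, rfl⟩
  | some c, some c' =>
    simp only [childTriple, Prod.mk.injEq] at h
    obtain ⟨rfl, h2, h3⟩ := h
    obtain rfl := Nat.eq_of_mul_eq_mul_right hp.pos h3
    have hd0 : 0 < d := by omega
    have e := congrArg (· % d) h2
    simp only [Nat.add_mul_mod_self_right, Nat.mod_eq_of_lt hb, Nat.mod_eq_of_lt hb'] at e
    subst e
    have hc : c.val = c'.val := Nat.eq_of_mul_eq_mul_right hd0 (by omega)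
    exact ⟨rfl, by rw [ZMod.val_injective p hc]⟩
  | none, some c' =>
    simp only [childTriple, Prod.mk.injEq] at h
    obtain ⟨h1, h2, h3⟩ := h
    have hd : p ∣ d := ⟨d', by rw [h3, mul_comm]⟩
    exact (hnp _ rfl (dvd_mul_left _ _) ((Nat.dvd_mod_iff hd).mpr (dvd_mul_left _ _)) hd).elim
  | some c, none =>
    simp only [childTriple, Prod.mk.injEq] at h
    obtain ⟨h1, h2, h3⟩ := h
    refine (hnp _ rfl ?_ ?_ (dvd_mul_left _ _)).elim
    · simp only [childTriple]; exact ⟨a', by rw [h1, mul_comm]⟩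
    · simp only [childTriple]
      rw [h2]
      exact (Nat.dvd_mod_iff ⟨d, by rw [← h3, mul_comm]⟩).mpr (dvd_mul_left _ _)

theorem exists_parent {M : ℕ} [NeZero M] {s : ℕ × ℕ × ℕ} (hs : IsPrim (M * p) s) :
    ∃ (t : ℕ × ℕ × ℕ) (i : HIdx p), IsPrim M t ∧ childTriple p t i = s := by
  have hp : p.Prime := Fact.out
  obtain ⟨A, B, D⟩ := s
  obtain ⟨e, hBD, hg⟩ := hs
  simp only at e hBD hg
  by_cases hD : p ∣ D
  · obtain ⟨d, rfl⟩ := hD
    have hd : 0 < d := Nat.pos_of_ne_zero fun h0 => by simp [h0] at hBD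
    have hc : B / d < p := Nat.div_lt_of_lt_mul (by rw [mul_comm]; exact hBD)
    refine ⟨(A, B % d, d), some ((B / d : ℕ) : ZMod p), ⟨?_, Nat.mod_lt _ hd, ?_⟩, ?_⟩
    · simp only
      exact Nat.eq_of_mul_eq_mul_right hp.pos (by rw [← e]; ring)
    · intro r hr h1 h2 h3
      exact hg r hr h1 ((Nat.dvd_mod_iff h3).mp h2) (h3.mul_left p)
    · simp only [childTriple, ZMod.val_cast_of_lt hc, Prod.mk.injEq, true_and]
      exact ⟨by rw [mul_comm (B / d)]; exact Nat.mod_add_div B d, mul_comm _ _⟩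
  · have hA : p ∣ A := (hp.dvd_mul.mp (e ▸ dvd_mul_left p M)).resolve_right hD
    obtain ⟨a, rfl⟩ := hA
    have hD0 : 0 < D := by omega
    obtain ⟨q, hq⟩ : ∃ q : ℕ, q * p ≡ 1 [MOD D] := by
      obtain ⟨q, -, hq⟩ := Nat.exists_mul_mod_eq_of_coprime (k := D) 1
        (hp.coprime_iff_not_dvd.mpr hD) hD0.ne'
      exact ⟨q, by rw [Nat.ModEq, mul_comm]; exact hq⟩
    have hkey : ((B * q) % D) * p ≡ B [MOD D] := by
      calc ((B * q) % D) * p ≡ (B * q) * p [MOD D] := (Nat.mod_modEq _ _).mul_right p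
        _ = B * (q * p) := by ring
        _ ≡ B * 1 [MOD D] := hq.mul_left B
        _ = B := mul_one B
    refine ⟨(a, (B * q) % D, D), none, ⟨?_, Nat.mod_lt _ hD0, ?_⟩, ?_⟩
    · simp only
      exact Nat.eq_of_mul_eq_mul_right hp.pos (by rw [← e]; ring)
    · intro r hr h1 h2 h3
      exact hg r hr (h1.mul_left p) ((hkey.dvd_iff h3).mp (h2.mul_right p)) h3
    · simp only [childTriple, Prod.mk.injEq]
      refine ⟨mul_comm _ _, ?_, trivial⟩
      rw [hkey]
      exact Nat.mod_eq_of_lt hBD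

end Children

section Psi

theorem squarefree_dvd_of_dvd_mul_prime {p M e : ℕ} (hp : p.Prime) (hM : p ∣ M)
    (he : Squarefree e) (h : e ∣ M * p) : e ∣ M := by
  by_cases hpe : p ∣ e
  · obtain ⟨e', rfl⟩ := hpe
    have hco : Nat.Coprime p e' := (Nat.squarefree_mul_iff.mp he).1
    have : e' ∣ M := hco.symm.dvd_of_dvd_mul_right ((dvd_mul_left e' p).trans h)
    exact hco.mul_dvd_of_dvd_of_dvd hM this
  · exact ((hp.coprime_iff_not_dvd.mpr hpe).symm).dvd_of_dvd_mul_right h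

theorem dedekindPsi_mul_prime_of_dvd {p M : ℕ} (hp : p.Prime) (hM : p ∣ M) :
    dedekindPsi (M * p) = p * dedekindPsi M := by
  rcases eq_or_ne M 0 with rfl | hM0
  · simp [dedekindPsi]
  rw [dedekindPsi, dedekindPsi, Finset.mul_sum]
  refine Finset.sum_congr ?_ fun e he => ?_
  · ext e
    simp only [Finset.mem_filter, Nat.mem_divisors, ne_eq, mul_eq_zero, hM0, hp.ne_zero, or_self,
      not_false_eq_true, and_true]
    exact ⟨fun h => ⟨squarefree_dvd_of_dvd_mul_prime hp hM h.2 h.1, h.2⟩,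
      fun h => ⟨h.1.trans (dvd_mul_right _ _), h.2⟩⟩
  · simp only [Finset.mem_filter, Nat.mem_divisors] at he
    rw [mul_comm p, Nat.mul_comm M p, Nat.mul_div_assoc p he.1.1, mul_comm]

theorem dedekindPsi_mul_prime_of_not_dvd {p M : ℕ} (hp : p.Prime) (hM : ¬ p ∣ M) :
    dedekindPsi (M * p) = (p + 1) * dedekindPsi M := by
  have hM0 : M ≠ 0 := fun h => hM (h ▸ dvd_zero p)
  have hco : Nat.Coprime p M := hp.coprime_iff_not_dvd.mpr hM
  rw [dedekindPsi, dedekindPsi]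
  set S := M.divisors.filter Squarefree
  have hdisj : Disjoint S (S.image (p * ·)) := by
    rw [Finset.disjoint_left]
    intro e he he'
    simp only [S, Finset.mem_image, Finset.mem_filter, Nat.mem_divisors] at he he'
    obtain ⟨e', -, rfl⟩ := he'
    exact hM ((dvd_mul_right p e').trans he.1.1)
  have hset : (M * p).divisors.filter Squarefree = S ∪ S.image (p * ·) := by
    ext e
    simp only [S, Finset.mem_filter, Nat.mem_divisors, Finset.mem_union, Finset.mem_image]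
    constructor
    · rintro ⟨⟨h1, -⟩, h2⟩
      by_cases hpe : p ∣ e
      · obtain ⟨e', rfl⟩ := hpe
        refine Or.inr ⟨e', ⟨⟨?_, hM0⟩, h2.of_mul_right⟩, rfl⟩
        exact (Nat.squarefree_mul_iff.mp h2).1.symm.dvd_of_dvd_mul_right
          ((dvd_mul_left e' p).trans h1)
      · exact Or.inl ⟨⟨((hp.coprime_iff_not_dvd.mpr hpe).symm).dvd_of_dvd_mul_right h1, hM0⟩, h2⟩
    · rintro (⟨⟨h1, -⟩, h2⟩ | ⟨e', ⟨⟨h1, -⟩, h2⟩, rfl⟩)
      · exact ⟨⟨h1.trans (dvd_mul_right _ _), mul_ne_zero hM0 hp.ne_zero⟩, h2⟩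
      · exact ⟨⟨by rw [mul_comm M]; exact mul_dvd_mul_left p h1, mul_ne_zero hM0 hp.ne_zero⟩,
          Nat.squarefree_mul_iff.mpr ⟨hco.coprime_dvd_right h1, hp.squarefree, h2⟩⟩
  rw [hset, Finset.sum_union hdisj,
    Finset.sum_image (fun x _ y _ h => Nat.eq_of_mul_eq_mul_left hp.pos h), add_one_mul,
    Finset.mul_sum]
  congr 1
  · refine Finset.sum_congr rfl fun e he => ?_
    simp only [S, Finset.mem_filter, Nat.mem_divisors] at he
    rw [Nat.mul_comm M p, Nat.mul_div_assoc p he.1.1]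
  · refine Finset.sum_congr rfl fun e he => ?_
    rw [Nat.mul_comm M p, Nat.mul_div_mul_left _ _ hp.pos]

end Psi

end FLTAgent.ModEq
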