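import Fermat.Agent.ModEq.Poly

/-!
# Separability and the `ψ(N)` embeddings of `K(j, j_N)`
-/

set_option autoImplicit false

noncomputable section

open HahnSeries ModularCurve Polynomial IntermediateField

set_option maxHeartbeats 800000

namespace FLTAgent.ModEq

variable {K : Type*} [Field K] {N : ℕ} [NeZero N]

theorem modularPolynomial_separable (hN : (N : K) ≠ 0) (data : ModularPolynomialData N) :
    (data.Φ.map (evalAt (jElt K))).Separable := by
  classical
  set K' := AlgebraicClosure K
  have hN' : (N : K') ≠ 0 := by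
    rw [← map_natCast (algebraMap K K')]; exact (_root_.map_ne_zero _).mpr hN
  obtain ⟨ζ, hζ⟩ := exists_isPrimitiveRoot_units N hN'
  set f : jField K →+* LaurentSeries K' := ((substHom (1 : K'ˣ) N).comp
    (coeffMap (algebraMap K K'))).comp (algebraMap (jField K) (LaurentSeries K))
  rw [← Polynomial.separable_map f, Polynomial.map_map, comp_evalAt,
    show f (jElt K) = jAt (1 : K'ˣ) N by
      show substHom (1 : K'ˣ) N (coeffMap (algebraMap K K') (jqModC K)) = _
      rw [coeffMap_jqModC, jAt_eq],
    map_evalAt_modularPolynomial hζ dvd_rfl data]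
  refine Polynomial.separable_prod_X_sub_C_iff'.mpr fun x hx y hy h => ?_
  rw [mem_primTriples] at hx hy
  exact tSer_inj_level ζ N hζ dvd_rfl hx.1 hy.1 hx.2.1 hy.2.1 h

theorem isSeparable_jqN (hN : (N : K) ≠ 0) :
    IsSeparable (jField K) (jqNModC K N) := by
  show (minpoly (jField K) (jqNModC K N)).Separable
  rw [minpoly_jqN hN (modularPolynomialData N)]
  exact modularPolynomial_separable hN _

theorem isSeparable_adjoin_jqN (hN : (N : K) ≠ 0) :
    Algebra.IsSeparable (jField K) (jField K)⟮jqNModC K N⟯ :=
  IntermediateField.isSeparable_adjoin_simple_iff_isSeparable _ _ |>.mpr (isSeparable_jqN hN)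

/-- `[K(j_d : d ∣ N) : K(j)] = ψ(N)`. -/
theorem finrank_fullC (hN : (N : K) ≠ 0) (h : jField K ≤ modularFunctionFieldFullC K N) :
    Module.finrank (jField K) (IntermediateField.extendScalars h) = dedekindPsi N := by
  rw [← finrank_jqN N hN]
  have he : IntermediateField.extendScalars h = (jField K)⟮jqNModC K N⟯ := by
    apply IntermediateField.restrictScalars_injective K
    rw [IntermediateField.extendScalars_restrictScalars, modularFunctionFieldFullC_eq N hN,
      modularFunctionFieldC_eq_restrictScalars]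
  rw [he]

/-- The embedding of `K(j, j_N)` into `K((q^{1/n}))` at each primitive triple. -/
theorem exists_cusp_embedding {n : ℕ} [NeZero n] {ζ : Kˣ} (hζ : IsPrimitiveRoot ζ n)
    (hNn : N ∣ n) {t : ℕ × ℕ × ℕ} (ht : IsPrim N t) :
    ∃ τ : modularFunctionFieldC K N →ₐ[K] LaurentSeries K,
      τ ⟨jqModC K, jqModC_mem K N⟩ = jAt (1 : Kˣ) n ∧
      τ ⟨jqNModC K N, jqNModC_mem K N⟩ = tSer ζ n t := by
  have hG := good_of_dvd hζ N hNn
  set s := substAlg (1 : Kˣ) n
  set E := (baseField K n)⟮xS K n N⟯
  obtain ⟨σ, hσ⟩ := hG.exists_embedding ht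
  have hmap : ∀ z ∈ modularFunctionFieldC K N, s z ∈ E := by
    intro z hz
    have h : (modularFunctionFieldC K N).map s = E.restrictScalars K := by
      rw [modularFunctionFieldC, adjoin_map, Set.image_pair, scale_jq,
        show s (jqNModC K N) = xS K n N from scale_jqN n N, ← Set.singleton_union]
      exact (adjoin_adjoin_left K {jAt (1 : Kˣ) n} {xS K n N}).symm
    have h' : s z ∈ E.restrictScalars K := h ▸ ⟨z, hz, rfl⟩
    exact h'
  let e : modularFunctionFieldC K N →ₐ[K] E :=
    { toFun := fun z => ⟨s z, hmap z z.2⟩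
      map_one' := Subtype.ext (map_one s)
      map_mul' := fun _ _ => Subtype.ext (map_mul s _ _)
      map_zero' := Subtype.ext (map_zero s)
      map_add' := fun _ _ => Subtype.ext (map_add s _ _)
      commutes' := fun c => Subtype.ext (s.commutes c) }
  refine ⟨(σ.restrictScalars K).comp e, ?_, ?_⟩
  · have : e ⟨jqModC K, jqModC_mem K N⟩ =
        algebraMap (baseField K n) E ⟨jAt (1 : Kˣ) n, mem_adjoin_simple_self K _⟩ :=
      Subtype.ext (scale_jq n)
    show σ (e _) = _
    rw [this, AlgHom.commutes]
    rfl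
  · have : e ⟨jqNModC K N, jqNModC_mem K N⟩ = AdjoinSimple.gen (baseField K n) (xS K n N) :=
      Subtype.ext (scale_jqN n N)
    show σ (e _) = _
    rw [this, hσ]

end FLTAgent.ModEq
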