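import Mathlib
import Fermat.Prelude.Def_ModularCurve_X0ModL

/-!
# Substitutions `f(q) ↦ f(u t^m)` on Laurent series and the series `j(u t^m)`
-/

set_option autoImplicit false

noncomputable section

open HahnSeries ModularCurve

namespace FLTAgent.ModEq

section Twist

variable {R S : Type*} [CommRing R] [CommRing S]

/-- `f(t) ↦ f(u t)`. -/
def twist (u : Rˣ) : LaurentSeries R →+* LaurentSeries R where
  toFun f :=
    { coeff := fun k => ((u ^ k : Rˣ) : R) * f.coeff k
      isPWO_support' := f.isPWO_support.mono (by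
        intro k hk h0
        exact hk (by simp [h0])) }
  map_one' := by
    ext k
    by_cases hk : k = 0
    · subst hk; simp
    · simp [HahnSeries.coeff_one, hk]
  map_zero' := by ext k; simp
  map_add' f g := by ext k; simp [mul_add]
  map_mul' f g := by
    ext k
    set f' : LaurentSeries R :=
      { coeff := fun k => ((u ^ k : Rˣ) : R) * f.coeff k
        isPWO_support' := f.isPWO_support.mono (fun k hk h0 => hk (by simp [h0])) }
    set g' : LaurentSeries R :=
      { coeff := fun k => ((u ^ k : Rˣ) : R) * g.coeff k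
        isPWO_support' := g.isPWO_support.mono (fun k hk h0 => hk (by simp [h0])) }
    show ((u ^ k : Rˣ) : R) * (f * g).coeff k = (f' * g').coeff k
    have hsub : g'.support ⊆ g.support := fun i hi h0 => hi (by simp [g', h0])
    have hsub' : f'.support ⊆ f.support := fun i hi h0 => hi (by simp [f', h0])
    rw [coeff_mul_right' g.isPWO_support hsub, coeff_mul, Finset.mul_sum]
    symm
    refine Finset.sum_subset_zero_on_sdiff ?_ ?_ ?_
    · intro x hx
      simp only [Finset.mem_antidiagonal] at hx ⊢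
      exact ⟨hsub' hx.1, hx.2.1, hx.2.2⟩
    · intro x hx
      simp only [Finset.mem_sdiff, Finset.mem_antidiagonal, HahnSeries.mem_support] at hx
      obtain ⟨⟨_, h2, h3⟩, h4⟩ := hx
      have hf0 : f'.coeff x.1 = 0 := by
        by_contra h
        exact h4 ⟨h, h2, h3⟩
      have : f.coeff x.1 = 0 := by
        have h := congrArg (fun z : R => ((u ^ (-x.1) : Rˣ) : R) * z) hf0
        simpa [f', ← mul_assoc, ← Units.val_mul, ← zpow_add] using h
      simp [this]
    · intro x hx
      simp only [Finset.mem_antidiagonal] at hx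
      simp only [f', g', ← hx.2.2, zpow_add, Units.val_mul]
      ring

@[simp] theorem twist_coeff (u : Rˣ) (f : LaurentSeries R) (k : ℤ) :
    (twist u f).coeff k = ((u ^ k : Rˣ) : R) * f.coeff k := rfl

theorem twist_one (f : LaurentSeries R) : twist 1 f = f := by ext k; simp

theorem twist_twist (u v : Rˣ) (f : LaurentSeries R) : twist u (twist v f) = twist (u * v) f := by
  ext k; simp [mul_zpow, mul_assoc]

theorem twist_qExpand (u : Rˣ) (m : ℕ) [NeZero m] (f : LaurentSeries R) :
    twist u (qExpand R m f) = qExpand R m (twist (u ^ m) f) := by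
  ext k
  by_cases hk : (m : ℤ) ∣ k
  · obtain ⟨c, rfl⟩ := hk
    simp [zpow_mul]
  · simp [qExpand_coeff_of_not_dvd m _ hk]

theorem coeffMap_twist (φ : R →+* S) (u : Rˣ) (f : LaurentSeries R) :
    coeffMap φ (twist u f) = twist (Units.map φ.toMonoidHom u) (coeffMap φ f) := by
  ext k
  simp [← map_zpow]

/-- `f(q) ↦ f(u t^m)`. -/
def substHom (u : Rˣ) (m : ℕ) [NeZero m] : LaurentSeries R →+* LaurentSeries R :=
  (qExpand R m).comp (twist u)

theorem substHom_apply (u : Rˣ) (m : ℕ) [NeZero m] (f : LaurentSeries R) :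
    substHom u m f = qExpand R m (twist u f) := rfl

theorem substHom_coeff_mul (u : Rˣ) (m : ℕ) [NeZero m] (f : LaurentSeries R) (k : ℤ) :
    (substHom u m f).coeff ((m : ℤ) * k) = ((u ^ k : Rˣ) : R) * f.coeff k := by
  simp [substHom_apply]

theorem substHom_coeff_of_not_dvd (u : Rˣ) (m : ℕ) [NeZero m] (f : LaurentSeries R) {k : ℤ}
    (hk : ¬ (m : ℤ) ∣ k) : (substHom u m f).coeff k = 0 :=
  qExpand_coeff_of_not_dvd m _ hk

theorem substHom_one (m : ℕ) [NeZero m] : substHom (1 : Rˣ) m = qExpand R m := by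
  ext1 f; simp [substHom_apply, twist_one]

theorem substHom_injective (u : Rˣ) (m : ℕ) [NeZero m] : Function.Injective (substHom u m) := by
  intro f g h
  ext k
  have h' := congrArg (fun z : LaurentSeries R => z.coeff ((m : ℤ) * k)) h
  simpa [substHom_coeff_mul] using h'

theorem substHom_substHom (u v : Rˣ) (m l : ℕ) [NeZero m] [NeZero l] (f : LaurentSeries R) :
    substHom u m (substHom v l f) =
      (haveI : NeZero (m * l) := ⟨Nat.mul_ne_zero (NeZero.ne m) (NeZero.ne l)⟩;
        substHom (v * u ^ l) (m * l) f) := by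
  simp only [substHom_apply, twist_qExpand, qExpand_qExpand, twist_twist, mul_comm v]

theorem coeffMap_substHom (φ : R →+* S) (u : Rˣ) (m : ℕ) [NeZero m] (f : LaurentSeries R) :
    coeffMap φ (substHom u m f) = substHom (Units.map φ.toMonoidHom u) m (coeffMap φ f) := by
  simp [substHom_apply, coeffMap_qExpand, coeffMap_twist]

theorem coeffMap_injective (φ : R →+* S) (hφ : Function.Injective φ) :
    Function.Injective (coeffMap φ) := by
  intro f g h
  ext k
  exact hφ (by simpa using congrArg (fun z : LaurentSeries S => z.coeff k) h)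

/-- The series `j(u t^m)`; the junk value at `m = 0` is `0`. -/
def jAt (u : Rˣ) (m : ℕ) : LaurentSeries R :=
  if h : m = 0 then 0 else haveI : NeZero m := ⟨h⟩; substHom u m (jqModC R)

theorem jAt_eq (u : Rˣ) (m : ℕ) [NeZero m] : jAt u m = substHom u m (jqModC R) := by
  simp [jAt, NeZero.ne m]

theorem jAt_one_left (m : ℕ) [NeZero m] : jAt (1 : Rˣ) m = jqNModC R m := by
  rw [jAt_eq, substHom_one]; rfl

theorem jAt_one_one : jAt (1 : Rˣ) 1 = jqModC R := by
  rw [jAt_one_left, jqNModC_one]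

theorem substHom_jAt (u v : Rˣ) (m l : ℕ) [NeZero m] [NeZero l] :
    substHom u m (jAt v l) = jAt (v * u ^ l) (m * l) := by
  haveI : NeZero (m * l) := ⟨Nat.mul_ne_zero (NeZero.ne m) (NeZero.ne l)⟩
  rw [jAt_eq, jAt_eq, substHom_substHom]

theorem qExpand_jAt (u : Rˣ) (m l : ℕ) [NeZero m] [NeZero l] :
    qExpand R m (jAt u l) = jAt u (m * l) := by
  rw [← substHom_one, substHom_jAt, one_pow, mul_one]

theorem twist_jAt (w u : Rˣ) (l : ℕ) [NeZero l] : twist w (jAt u l) = jAt (u * w ^ l) l := by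
  rw [jAt_eq, jAt_eq, substHom_apply, twist_qExpand, twist_twist, substHom_apply, mul_comm]

theorem coeffMap_jAt (φ : R →+* S) (u : Rˣ) (m : ℕ) :
    coeffMap φ (jAt u m) = jAt (Units.map φ.toMonoidHom u) m := by
  rcases eq_or_ne m 0 with rfl | hm
  · simp [jAt]
  · haveI : NeZero m := ⟨hm⟩
    rw [jAt_eq, jAt_eq, coeffMap_substHom, coeffMap_jqModC]

theorem jAt_coeff_neg (u : Rˣ) (m : ℕ) [NeZero m] :
    (jAt u m).coeff (-(m : ℤ)) = ((u⁻¹ : Rˣ) : R) := by
  rw [jAt_eq, show -(m : ℤ) = (m : ℤ) * (-1) by ring, substHom_coeff_mul, coeff_jqModC_neg_one]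
  simp

theorem jAt_coeff_of_lt (u : Rˣ) (m : ℕ) [NeZero m] {k : ℤ} (hk : k < -(m : ℤ)) :
    (jAt u m).coeff k = 0 := by
  rw [jAt_eq]
  by_cases hd : (m : ℤ) ∣ k
  · obtain ⟨c, rfl⟩ := hd
    have hm : (0 : ℤ) < m := by exact_mod_cast Nat.pos_of_ne_zero (NeZero.ne m)
    have hc : c < -1 := by nlinarith
    rw [substHom_coeff_mul, coeff_jqModC_of_lt R hc, mul_zero]
  · exact substHom_coeff_of_not_dvd u m _ hd

theorem jAt_injective [Nontrivial R] {u v : Rˣ} {m l : ℕ} (hm : m ≠ 0) (hl : l ≠ 0)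
    (h : jAt u m = jAt v l) : m = l ∧ u = v := by
  haveI : NeZero m := ⟨hm⟩
  haveI : NeZero l := ⟨hl⟩
  rcases lt_trichotomy m l with hlt | rfl | hlt
  · have h' := jAt_coeff_neg v l
    rw [← h, jAt_coeff_of_lt u m (by omega)] at h'
    exact absurd h'.symm v⁻¹.ne_zero
  · refine ⟨rfl, ?_⟩
    have h' := jAt_coeff_neg v m
    rw [← h, jAt_coeff_neg] at h'
    exact inv_injective (Units.ext h')
  · have h' := jAt_coeff_neg u m
    rw [h, jAt_coeff_of_lt v l (by omega)] at h'
    exact absurd h'.symm u⁻¹.ne_zero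

theorem jAt_ne_zero [Nontrivial R] (u : Rˣ) (m : ℕ) [NeZero m] : jAt u m ≠ 0 := by
  intro h
  have h' := jAt_coeff_neg u m
  rw [h] at h'
  exact u⁻¹.ne_zero (by simpa using h'.symm)

end Twist

section Order

variable {R : Type*} [CommRing R]

/-- No coefficient below `a`. -/
def GeOrd (f : LaurentSeries R) (a : ℤ) : Prop := ∀ k, k < a → f.coeff k = 0

theorem GeOrd.mono {f : LaurentSeries R} {a b : ℤ} (h : GeOrd f a) (hb : b ≤ a) : GeOrd f b :=
  fun k hk => h k (lt_of_lt_of_le hk hb)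

theorem geOrd_zero (a : ℤ) : GeOrd (0 : LaurentSeries R) a := fun _ _ => by simp

theorem geOrd_one : GeOrd (1 : LaurentSeries R) 0 := fun k hk => by
  simp [HahnSeries.coeff_one, hk.ne]

theorem GeOrd.add {f g : LaurentSeries R} {a : ℤ} (hf : GeOrd f a) (hg : GeOrd g a) :
    GeOrd (f + g) a := fun k hk => by simp [hf k hk, hg k hk]

theorem GeOrd.sum {ι : Type*} (s : Finset ι) (f : ι → LaurentSeries R) {a : ℤ}
    (hf : ∀ i ∈ s, GeOrd (f i) a) : GeOrd (∑ i ∈ s, f i) a := fun k hk => by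
  rw [HahnSeries.coeff_sum]
  exact Finset.sum_eq_zero fun i hi => hf i hi k hk

theorem GeOrd.mul {f g : LaurentSeries R} {a b : ℤ} (hf : GeOrd f a) (hg : GeOrd g b) :
    GeOrd (f * g) (a + b) := fun k hk => by
  rw [coeff_mul]
  refine Finset.sum_eq_zero fun x hx => ?_
  simp only [Finset.mem_antidiagonal] at hx
  by_cases h1 : x.1 < a
  · simp [hf _ h1]
  · have : x.2 < b := by omega
    simp [hg _ this]

theorem GeOrd.coeff_mul_add {f g : LaurentSeries R} {a b : ℤ} (hf : GeOrd f a) (hg : GeOrd g b) :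
    (f * g).coeff (a + b) = f.coeff a * g.coeff b := by
  rw [coeff_mul]
  refine Finset.sum_eq_single (a, b) ?_ ?_
  · intro x hx hne
    simp only [Finset.mem_antidiagonal] at hx
    by_cases h1 : x.1 < a
    · simp [hf _ h1]
    · have h2 : x.2 < b := by
        by_contra h2
        apply hne
        ext <;> simp only <;> omega
      simp [hg _ h2]
  · intro hx
    simp only [Finset.mem_antidiagonal, HahnSeries.mem_support, and_true, not_and_or, not_not] at hx
    rcases hx with hx | hx <;> simp [hx]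

theorem GeOrd.pow {f : LaurentSeries R} {a : ℤ} (hf : GeOrd f a) (n : ℕ) :
    GeOrd (f ^ n) (n * a) := by
  induction n with
  | zero => simpa using geOrd_one
  | succ n ih => rw [pow_succ]; exact (ih.mul hf).mono (by push_cast; ring_nf; rfl)

theorem GeOrd.coeff_pow {f : LaurentSeries R} {a : ℤ} (hf : GeOrd f a) (n : ℕ) :
    (f ^ n).coeff (n * a) = f.coeff a ^ n := by
  induction n with
  | zero => simp
  | succ n ih =>
    rw [pow_succ, pow_succ, show ((n + 1 : ℕ) : ℤ) * a = n * a + a by push_cast; ring,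
      (hf.pow n).coeff_mul_add hf, ih]

theorem geOrd_jAt (u : Rˣ) (m : ℕ) [NeZero m] : GeOrd (jAt u m) (-(m : ℤ)) :=
  fun _ hk => jAt_coeff_of_lt u m hk

theorem geOrd_jAt_pow (u : Rˣ) (m : ℕ) [NeZero m] (n : ℕ) :
    GeOrd (jAt u m ^ n) (-((n : ℤ) * m)) :=
  ((geOrd_jAt u m).pow n).mono (by ring_nf; rfl)

theorem jAt_pow_coeff (u : Rˣ) (m : ℕ) [NeZero m] (n : ℕ) :
    (jAt u m ^ n).coeff (-((n : ℤ) * m)) = ((u⁻¹ ^ n : Rˣ) : R) := by
  rw [show -((n : ℤ) * m) = n * (-(m : ℤ)) by ring, (geOrd_jAt u m).coeff_pow, jAt_coeff_neg,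
    Units.val_pow_eq_pow_val]

theorem geOrd_eval_jAt {A : Type*} [CommRing A] (φ : A →+* LaurentSeries R)
    (hφ : ∀ c, GeOrd (φ c) 0) (P : Polynomial A) (u : Rˣ) (m : ℕ) [NeZero m] :
    GeOrd (P.eval₂ φ (jAt u m)) (-((P.natDegree : ℤ) * m)) := by
  rw [Polynomial.eval₂_eq_sum_range]
  refine GeOrd.sum _ _ fun i hi => ((hφ _).mul (geOrd_jAt_pow u m i)).mono ?_
  have : i ≤ P.natDegree := Nat.lt_succ_iff.mp (Finset.mem_range.mp hi)
  have : (i : ℤ) * m ≤ P.natDegree * m := by gcongr
  omega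

theorem eval_jAt_coeff {A : Type*} [CommRing A] (φ : A →+* LaurentSeries R)
    (hφ : ∀ c, GeOrd (φ c) 0) (P : Polynomial A) (u : Rˣ) (m : ℕ) [NeZero m] :
    (P.eval₂ φ (jAt u m)).coeff (-((P.natDegree : ℤ) * m)) =
      (φ P.leadingCoeff).coeff 0 * ((u⁻¹ ^ P.natDegree : Rˣ) : R) := by
  rw [Polynomial.eval₂_eq_sum_range, HahnSeries.coeff_sum]
  rw [Finset.sum_eq_single P.natDegree]
  · have h := (hφ P.leadingCoeff).coeff_mul_add (geOrd_jAt_pow u m P.natDegree)
    rwa [zero_add, jAt_pow_coeff] at h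
  · intro i hi hne
    have : i < P.natDegree := lt_of_le_of_ne (Nat.lt_succ_iff.mp (Finset.mem_range.mp hi)) hne
    have hm : 0 < m := Nat.pos_of_ne_zero (NeZero.ne m)
    have h2 : (i : ℤ) * m < P.natDegree * m := by gcongr
    exact (hφ _).mul (geOrd_jAt_pow u m i) _ (by omega)
  · simp

theorem geOrd_C (c : R) : GeOrd (HahnSeries.C c : LaurentSeries R) 0 := fun k hk => by
  simp [HahnSeries.C_apply, HahnSeries.coeff_single_of_ne hk.ne]

theorem eval_jAt_eq_zero [IsDomain R] {A : Type*} [CommRing A] (ι : A →+* R)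
    (hι : Function.Injective ι) (P : Polynomial A) (u : Rˣ) (m : ℕ) [NeZero m]
    (h : P.eval₂ (HahnSeries.C.comp ι) (jAt u m) = 0) : P = 0 := by
  have h' := eval_jAt_coeff (HahnSeries.C.comp ι) (fun c => geOrd_C _) P u m
  rw [h] at h'
  simp only [HahnSeries.coeff_zero, RingHom.comp_apply, HahnSeries.C_apply,
    HahnSeries.coeff_single_same] at h'
  rw [eq_comm, mul_eq_zero] at h'
  rcases h' with h' | h'
  · exact Polynomial.leadingCoeff_eq_zero.mp (hι (by simpa using h'))
  · exact absurd h' (Units.ne_zero _)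

theorem coeff_eval_eq_zero_of_pos {A : Type*} [CommRing A] [IsDomain R] (ι : A →+* R)
    (hι : Function.Injective ι) (P : Polynomial A) (u : Rˣ) (m : ℕ) [NeZero m]
    (h : GeOrd (P.eval₂ (HahnSeries.C.comp ι) (jAt u m)) 1) : P = 0 := by
  have h' := eval_jAt_coeff (HahnSeries.C.comp ι) (fun c => geOrd_C _) P u m
  have hle : -((P.natDegree : ℤ) * m) < 1 := by
    have : (0:ℤ) ≤ (P.natDegree : ℤ) * m := by positivity
    omega
  rw [h _ hle] at h'
  simp only [RingHom.comp_apply, HahnSeries.C_apply, HahnSeries.coeff_single_same] at h'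
  rw [eq_comm, mul_eq_zero] at h'
  rcases h' with h' | h'
  · exact Polynomial.leadingCoeff_eq_zero.mp (hι (by simpa using h'))
  · exact absurd h' (Units.ne_zero _)

end Order

end FLTAgent.ModEq
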