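import Fermat.Agent.ModEq.Basic

/-!
# Laurent expansions of functions on the upper half plane at `i∞`

`HasExp n g G` says that, for `Im τ` large enough, `g τ = ∑ k, G_k exp (2πikτ/n)`.
-/

set_option autoImplicit false

noncomputable section

open HahnSeries ModularCurve Filter Topology UpperHalfPlane Function
open scoped Real MatrixGroups

namespace FLTAgent.ModEq

/-- The parameter `exp (2πiτ/n)`. -/
def qp (n : ℕ) (τ : ℍ) : ℂ := Periodic.qParam (n : ℝ) τ

theorem qp_ne_zero (n : ℕ) (τ : ℍ) : qp n τ ≠ 0 := Periodic.qParam_ne_zero _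

theorem qp_tendsto (n : ℕ) [NeZero n] : Tendsto (qp n) atImInfty (𝓝 0) :=
  qParam_tendsto_atImInfty (by exact_mod_cast Nat.pos_of_ne_zero (NeZero.ne n))

theorem qp_zpow (n : ℕ) (τ : ℍ) (k : ℤ) :
    qp n τ ^ k = Complex.exp (k * (2 * π * Complex.I * τ / n)) := by
  rw [qp, Periodic.qParam, ← Complex.exp_int_mul]
  simp

/-- `g τ = ∑ k, G_k q^k` for `Im τ` large, with `q = exp (2πiτ/n)`. -/
def HasExp (n : ℕ) (g : ℍ → ℂ) (G : LaurentSeries ℂ) : Prop :=
  ∀ᶠ τ in atImInfty, HasSum (fun k : ℤ => G.coeff k * qp n τ ^ k) (g τ)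

variable {n : ℕ}

theorem HasExp.zero : HasExp n 0 0 := Eventually.of_forall fun τ => by
  simpa using (hasSum_zero (α := ℂ) (β := ℤ))

theorem HasExp.single (a : ℤ) (c : ℂ) :
    HasExp n (fun τ => c * qp n τ ^ a) (HahnSeries.single a c) :=
  Eventually.of_forall fun τ => by
    have h := hasSum_single (f := fun k : ℤ => (HahnSeries.single a c).coeff k * qp n τ ^ k) a
      (fun b hb => by simp [HahnSeries.coeff_single_of_ne hb])
    simpa using h

theorem HasExp.one : HasExp n 1 1 := by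
  have h := HasExp.single (n := n) 0 1
  rw [← HahnSeries.single_zero_one]
  convert h using 1
  ext τ
  simp

theorem HasExp.const (c : ℂ) : HasExp n (fun _ => c) (HahnSeries.C c) := by
  rw [HahnSeries.C_apply]
  have h := HasExp.single (n := n) 0 c
  convert h using 1
  ext τ
  simp

theorem HasExp.add {f g : ℍ → ℂ} {F G : LaurentSeries ℂ} (hf : HasExp n f F) (hg : HasExp n g G) :
    HasExp n (f + g) (F + G) := by
  filter_upwards [hf, hg] with τ h1 h2
  simpa [add_mul] using h1.add h2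

theorem HasExp.neg {f : ℍ → ℂ} {F : LaurentSeries ℂ} (hf : HasExp n f F) :
    HasExp n (-f) (-F) := by
  filter_upwards [hf] with τ h1
  simpa [neg_mul] using h1.neg

theorem HasExp.mul {f g : ℍ → ℂ} {F G : LaurentSeries ℂ} (hf : HasExp n f F) (hg : HasExp n g G) :
    HasExp n (f * g) (F * G) := by
  filter_upwards [hf, hg] with τ h1 h2
  set a : ℤ → ℂ := fun k => F.coeff k * qp n τ ^ k
  set b : ℤ → ℂ := fun k => G.coeff k * qp n τ ^ k
  have hs : Summable fun x : ℤ × ℤ => a x.1 * b x.2 :=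
    summable_mul_of_summable_norm (summable_norm_iff.mpr h1.summable)
      (summable_norm_iff.mpr h2.summable)
  have hmul : HasSum (fun x : ℤ × ℤ => a x.1 * b x.2) (f τ * g τ) := h1.mul h2 hs
  have he := (Equiv.sigmaFiberEquiv fun x : ℤ × ℤ => x.1 + x.2).hasSum_iff.mpr hmul
  refine HasSum.sigma he fun k => ?_
  set s := Finset.antidiagonal F.isPWO_support G.isPWO_support k
  have hF : ∀ x : {x : ℤ × ℤ // x.1 + x.2 = k},
      a x.1.1 * b x.1.2 = F.coeff x.1.1 * G.coeff x.1.2 * qp n τ ^ k := by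
    intro x
    have hx := x.2
    simp only [a, b]
    rw [mul_mul_mul_comm, ← zpow_add₀ (qp_ne_zero n τ), hx]
  simp only [Function.comp_apply, Equiv.sigmaFiberEquiv, Equiv.coe_fn_mk]
  simp only [hF]
  rw [HahnSeries.coeff_mul, Finset.sum_mul]
  have hsum := hasSum_sum_of_ne_finset_zero (s := s.subtype fun x => x.1 + x.2 = k)
    (f := fun x : {x : ℤ × ℤ // x.1 + x.2 = k} =>
      F.coeff x.1.1 * G.coeff x.1.2 * qp n τ ^ k) (L := SummationFilter.unconditional _) ?_
  · rwa [Finset.sum_subtype_of_mem (f := fun x : ℤ × ℤ => F.coeff x.1 * G.coeff x.2 * qp n τ ^ k)]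
      at hsum
    intro x hx
    simp only [s, Finset.mem_antidiagonal] at hx
    exact hx.2.2
  · intro x hx
    simp only [Finset.mem_subtype, s, Finset.mem_antidiagonal, HahnSeries.mem_support] at hx
    by_cases h1 : F.coeff x.1.1 = 0
    · simp [h1]
    · have : G.coeff x.1.2 = 0 := by
        by_contra h2
        exact hx ⟨h1, h2, x.2⟩
      simp [this]

theorem HasExp.congr {f g : ℍ → ℂ} {F : LaurentSeries ℂ} (hf : HasExp n f F)
    (h : ∀ᶠ τ in atImInfty, f τ = g τ) : HasExp n g F := by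
  filter_upwards [hf, h] with τ h1 h2
  rwa [← h2]

theorem HasExp.mul_single {f : ℍ → ℂ} {F : LaurentSeries ℂ} (hf : HasExp n f F) (a : ℤ) :
    HasExp n (fun τ => qp n τ ^ a * f τ) (HahnSeries.single a 1 * F) := by
  have h := (HasExp.single (n := n) a 1).mul hf
  convert h using 1
  ext τ
  simp

/-- A `ℕ`-indexed expansion as a `HasExp`. -/
theorem HasExp.of_nat {f : ℍ → ℂ} {P : PowerSeries ℂ}
    (h : ∀ᶠ τ in atImInfty, HasSum (fun k : ℕ => PowerSeries.coeff k P * qp n τ ^ k) (f τ)) :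
    HasExp n f (HahnSeries.ofPowerSeries ℤ ℂ P) := by
  filter_upwards [h] with τ h1
  have hinj : Function.Injective (Nat.cast : ℕ → ℤ) := Nat.cast_injective
  refine (hinj.hasSum_iff ?_).mp ?_
  · intro k hk
    have : k < 0 := by
      by_contra hk'
      exact hk ⟨k.toNat, by omega⟩
    simp [ofPowerSeries_coeff_of_neg P this]
  · simpa [Function.comp_def] using h1

theorem exists_geOrd (F : LaurentSeries ℂ) : ∃ m : ℕ, GeOrd F (-(m : ℤ)) := by
  by_cases hF : F = 0
  · exact ⟨0, by rw [hF]; exact geOrd_zero _⟩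
  · refine ⟨(-F.order).toNat, fun k hk => HahnSeries.coeff_eq_zero_of_lt_order ?_⟩
    omega

theorem GeOrd.exists_powerSeries {R : Type*} [CommRing R] {F : LaurentSeries R} (hF : GeOrd F 0) :
    ∃ P : PowerSeries R, F = HahnSeries.ofPowerSeries ℤ R P := by
  refine ⟨PowerSeries.mk fun k => F.coeff k, ?_⟩
  ext k
  rcases le_or_gt 0 k with hk | hk
  · lift k to ℕ using hk
    simp
  · rw [hF k hk, ofPowerSeries_coeff_of_neg _ hk]

/-- A power series expansion gives an analytic function of the parameter. -/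
theorem HasExp.exists_analytic [NeZero n] {f : ℍ → ℂ} {P : PowerSeries ℂ}
    (hf : HasExp n f (HahnSeries.ofPowerSeries ℤ ℂ P)) :
    ∃ Φ : ℂ → ℂ, HasFPowerSeriesAt Φ
        (FormalMultilinearSeries.ofScalars ℂ fun k => PowerSeries.coeff k P) 0 ∧
      ∀ᶠ τ in atImInfty, f τ = Φ (qp n τ) := by
  set p := FormalMultilinearSeries.ofScalars ℂ fun k => PowerSeries.coeff k P
  have hnat : ∀ᶠ τ in atImInfty,
      HasSum (fun k : ℕ => PowerSeries.coeff k P * qp n τ ^ k) (f τ) := by
    filter_upwards [hf] with τ h1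
    have hinj : Function.Injective (Nat.cast : ℕ → ℤ) := Nat.cast_injective
    have h2 := (hinj.hasSum_iff ?_).mpr h1
    · simpa [Function.comp_def] using h2
    · intro k hk
      have : k < 0 := by
        by_contra hk'
        exact hk ⟨k.toNat, by omega⟩
      simp [ofPowerSeries_coeff_of_neg P this]
  obtain ⟨τ₀, hτ₀⟩ := hnat.exists
  have hr : 0 < p.radius := by
    refine lt_of_lt_of_le (b := ((‖qp n τ₀‖₊ : NNReal) : ENNReal)) ?_ ?_
    · simpa using qp_ne_zero n τ₀
    · refine FormalMultilinearSeries.le_radius_of_summable _ ?_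
      have h3 := summable_norm_iff.mpr hτ₀.summable
      refine h3.congr fun k => ?_
      simp [p, FormalMultilinearSeries.ofScalars_norm, norm_mul, norm_pow]
  have hball : HasFPowerSeriesOnBall p.sum p 0 p.radius := p.hasFPowerSeriesOnBall hr
  refine ⟨p.sum, hball.hasFPowerSeriesAt, ?_⟩
  filter_upwards [hnat] with τ h1
  rw [← h1.tsum_eq]
  show _ = p.sum (qp n τ)
  rw [FormalMultilinearSeries.sum]
  simp [p, FormalMultilinearSeries.ofScalars_apply_eq, mul_comm]

theorem HasExp.tendsto [NeZero n] {f : ℍ → ℂ} {F : LaurentSeries ℂ} (hf : HasExp n f F)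
    (hF : GeOrd F 0) : Tendsto f atImInfty (𝓝 (F.coeff 0)) := by
  obtain ⟨P, rfl⟩ := hF.exists_powerSeries
  obtain ⟨Φ, hΦ, hev⟩ := hf.exists_analytic
  have h0 : Φ 0 = PowerSeries.coeff 0 P := by
    have := hΦ.coeff_zero (fun _ => (0 : ℂ))
    rw [← this]
    simp [FormalMultilinearSeries.ofScalars_apply_eq]
  have h1 : Tendsto (fun τ => Φ (qp n τ)) atImInfty (𝓝 (Φ 0)) :=
    hΦ.continuousAt.tendsto.comp (qp_tendsto n)
  rw [show (HahnSeries.ofPowerSeries ℤ ℂ P).coeff 0 = Φ 0 by
    rw [h0, show (0 : ℤ) = ((0 : ℕ) : ℤ) from rfl, HahnSeries.ofPowerSeries_apply_coeff]]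
  exact h1.congr' (hev.mono fun τ h => h.symm)

theorem HasExp.isBoundedAtImInfty [NeZero n] {f : ℍ → ℂ} {F : LaurentSeries ℂ}
    (hf : HasExp n f F) (hF : GeOrd F 0) : IsBoundedAtImInfty f :=
  (hf.tendsto hF).isBigO_one ℝ

theorem HasExp.eq_zero [NeZero n] {f : ℍ → ℂ} {F : LaurentSeries ℂ}
    (hf : HasExp n f F) (h0 : ∀ᶠ τ in atImInfty, f τ = 0) : F = 0 := by
  haveI : atImInfty.NeBot := by infer_instance
  obtain ⟨m, hm⟩ := exists_geOrd F
  by_contra hF
  set a := F.order
  have ha : GeOrd F a := fun k hk => HahnSeries.coeff_eq_zero_of_lt_order hk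
  have hsh := hf.mul_single (-a)
  have hge : GeOrd (HahnSeries.single (-a) (1 : ℂ) * F) 0 := fun k hk => by
    rw [HahnSeries.coeff_single_mul, one_mul]
    exact ha _ (by omega)
  have ht := hsh.tendsto hge
  have ht' : Tendsto (fun τ => qp n τ ^ (-a) * f τ) atImInfty (𝓝 0) :=
    Tendsto.congr' (h0.mono fun τ h => by simp [h]) tendsto_const_nhds
  have := tendsto_nhds_unique ht ht'
  rw [HahnSeries.coeff_single_mul, one_mul, zero_sub, neg_neg] at this
  exact hF (HahnSeries.coeff_order_eq_zero.mp this)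

theorem HasExp.unique [NeZero n] {f : ℍ → ℂ} {F G : LaurentSeries ℂ}
    (hf : HasExp n f F) (hg : HasExp n f G) : F = G := by
  have h := hf.add hg.neg
  rw [add_neg_cancel] at h
  exact eq_of_sub_eq_zero (by
    rw [sub_eq_add_neg]
    exact (hf.add hg.neg).eq_zero (Eventually.of_forall fun τ => by simp))

/-- Composition with `τ ↦ (mτ + b)/n`. -/
theorem HasExp.comp_affine [NeZero n] {f : ℍ → ℂ} {F : LaurentSeries ℂ} {l : ℕ} [NeZero l]
    (hf : HasExp l f F) (m : ℕ) [NeZero m] (u : ℂˣ) (φ : ℍ → ℍ)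
    (hq : ∀ τ, qp l (φ τ) = (u : ℂ) * qp n τ ^ m)
    (hφ : Tendsto φ atImInfty atImInfty) :
    HasExp n (f ∘ φ) (substHom u m F) := by
  filter_upwards [hφ.eventually hf] with τ h1
  have hinj : Function.Injective (fun k : ℤ => (m : ℤ) * k) :=
    mul_right_injective₀ (by exact_mod_cast NeZero.ne m)
  refine (hinj.hasSum_iff ?_).mp ?_
  · intro k hk
    have : ¬ (m : ℤ) ∣ k := fun ⟨c, hc⟩ => hk ⟨c, hc.symm⟩
    simp [substHom_coeff_of_not_dvd u m F this]
  · refine h1.congr_fun fun k => ?_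
    simp only [Function.comp_apply, substHom_coeff_mul, hq, mul_zpow, zpow_mul, zpow_natCast,
      Units.val_zpow_eq_zpow_val]
    ring

end FLTAgent.ModEq
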