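import Fermat.Agent.ModEq.Induction

/-!
# The inductive step and the main conjugate theorem
-/

set_option autoImplicit false

noncomputable section

open HahnSeries ModularCurve Polynomial IntermediateField
open scoped IntermediateField.algebraAdjoinAdjoin

set_option maxHeartbeats 800000

namespace FLTAgent.ModEq

variable {K : Type*} [Field K] {n : ℕ} [NeZero n] {ζ : Kˣ}

theorem char_natCast_ne_zero (hζ : IsPrimitiveRoot ζ n) : (n : K) ≠ 0 := by
  have h1 : IsPrimitiveRoot (ζ : K) n :=
    hζ.map_of_injective Units.val_injective (f := Units.coeHom K)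
  exact (h1.neZero').ne

theorem geOrd_substHom {R : Type*} [CommRing R] (u : Rˣ) (m : ℕ) [NeZero m]
    {f : LaurentSeries R} {a : ℤ} (hf : GeOrd f a) : GeOrd (substHom u m f) ((m : ℤ) * a) := by
  intro k hk
  by_cases hd : (m : ℤ) ∣ k
  · obtain ⟨c, rfl⟩ := hd
    rw [substHom_coeff_mul, hf c (lt_of_mul_lt_mul_left hk (by positivity)), mul_zero]
  · exact substHom_coeff_of_not_dvd u m f hd

theorem geOrd_single_mul_ofPowerSeries {R : Type*} [CommRing R] (a : ℤ) (P : PowerSeries R) :
    GeOrd (HahnSeries.single a (1 : R) * HahnSeries.ofPowerSeries ℤ R P) a := fun k hk => by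
  rw [HahnSeries.coeff_single_mul, one_mul]
  exact ofPowerSeries_coeff_of_neg _ (by omega)

section Step

variable (hζ : IsPrimitiveRoot ζ n) (p : ℕ) [Fact p.Prime] {Φ : ℤ[X][X]}
  (hΦ : ∀ (w : Kˣ), (Polynomial.cyclotomic p K).IsRoot (w : K) →
    Φ.map (evalJ K p) = rootPoly (xSer p w))

include hζ hΦ

theorem xS_prime_not_mem (hpn : p ∣ n) {H U : ℤ[X][X]} (hUmon : U.Monic)
    (hHU : ∀ (w : Kˣ), (Polynomial.cyclotomic p K).IsRoot (w : K) →
      H.map (evalJ K p) = interpPoly (xSer p w) (uSer p w) ∧
      U.map (evalJ K p) = rootPoly (uSer p w)) :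
    xS K n p ∉ baseField K n := by
  classical
  intro hmem
  set A := baseField K n
  set J := jAt (1 : Kˣ) n
  have hp := (Fact.out : p.Prime)
  haveI : NeZero p := ⟨hp.ne_zero⟩
  haveI : NeZero (p * p) := ⟨Nat.mul_ne_zero hp.ne_zero hp.ne_zero⟩
  haveI : NeZero (n / p) :=
    ⟨(Nat.div_pos (Nat.le_of_dvd (Nat.pos_of_ne_zero (NeZero.ne n)) hpn) hp.pos).ne'⟩
  have hJA : J ∈ A := mem_adjoin_simple_self K J
  set w : Kˣ := ζ ^ (n / p)
  have hw := exists_zeta_root hζ (p := p) hpn
  obtain ⟨hH, hU⟩ := hHU w hw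
  set σ := substHom (1 : Kˣ) (n / p)
  set X0 : HIdx p → LaurentSeries K := fun i => σ (xSer p w i)
  set U0 : HIdx p → LaurentSeries K := fun i => σ (uSer p w i)
  have hx : X0 none = xS K n p := by
    simp only [X0, xSer, σ, xS]
    rw [substHom_jAt, one_pow, mul_one, ← mul_assoc, Nat.div_mul_cancel hpn, mul_comm]
  have hmapmem : ∀ (Q : ℤ[X][X]) (y : LaurentSeries K), y ∈ A →
      (Q.map (evalAt J)).eval y ∈ A := by
    intro Q y hy
    rw [eval_eq_sum_range]
    refine sum_mem fun i _ => mul_mem ?_ (pow_mem hy i)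
    rw [Polynomial.coeff_map]
    exact evalAt_mem A hJA _
  have hΦ' : Φ.map (evalAt J) = rootPoly X0 := by
    rw [map_evalAt_base p hpn (hΦ w hw), rootPoly_map]
  have hH' : H.map (evalAt J) = interpPoly X0 U0 := by
    rw [map_evalAt_base p hpn hH, interpPoly_map]
  have hU' : U.map (evalAt J) = rootPoly U0 := by
    rw [map_evalAt_base p hpn hU, rootPoly_map]
  -- `u ∏ (x - x_l)` and the derivative lie in `A`
  have h1 : U0 none * ∏ l ∈ Finset.univ.erase none, (X0 none - X0 l) ∈ A := by
    rw [← interpPoly_eval, ← hH']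
    exact hmapmem H _ (hx ▸ hmem)
  have h2 : ∏ l ∈ Finset.univ.erase none, (X0 none - X0 l) ∈ A := by
    have hd : derivative (rootPoly X0) = interpPoly X0 (fun _ => 1) := by
      rw [rootPoly, interpPoly, Polynomial.derivative_prod_finset]
      exact Finset.sum_congr rfl fun i _ => by rw [derivative_X_sub_C, map_one, mul_one, one_mul]
    have := hmapmem (derivative Φ) _ (hx ▸ hmem : X0 none ∈ A)
    rwa [← derivative_map, hΦ', hd, interpPoly_eval, one_mul] at this
  have hne : ∏ l ∈ Finset.univ.erase none, (X0 none - X0 l) ≠ 0 := by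
    rw [Finset.prod_ne_zero_iff]
    rintro (_ | c) hl
    · simp at hl
    · rw [sub_ne_zero]
      intro h
      have h' := (substHom_injective _ _) h
      simp only [xSer] at h'
      have := (jAt_injective (NeZero.ne _) one_ne_zero h').1
      exact hp.ne_one (mul_eq_one.mp this).1
  have hu : U0 none ∈ A := by
    have := div_mem h1 h2
    rwa [mul_div_assoc, div_self hne, mul_one] at this
  have hint : IsIntegral (baseRing K n) (U0 none) := by
    let J' : baseRing K n := ⟨J, Algebra.self_mem_adjoin_singleton K J⟩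
    refine ⟨U.map (evalAt J'), hUmon.map _, ?_⟩
    have hc : (algebraMap (baseRing K n) (LaurentSeries K)).comp (evalAt J') = evalAt J := by
      refine Polynomial.ringHom_ext (fun a => ?_) ?_ <;> simp [evalAt_apply, J'] <;> rfl
    rw [eval₂_eq_eval_map, Polynomial.map_map, hc, hU']
    exact rootPoly_eval_eq_zero U0 none
  obtain ⟨R, hR⟩ := mem_adjoin_of_isIntegral hu hint
  have hord : GeOrd (U0 none) 1 := by
    have h3 : GeOrd (qExpand K (p * p) (deltaSer K)) ((p * p : ℕ) : ℤ) := by
      have := geOrd_substHom (1 : Kˣ) (p * p) (geOrd_single_mul_ofPowerSeries (R := K) 1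
        (dedekindEtaUnit.map (Int.castRingHom K)))
      rwa [substHom_one, mul_one] at this
    have h4 : GeOrd (qExpand K p (deltaInvSer K)) (-(p : ℤ)) := by
      have := geOrd_substHom (1 : Kˣ) p (geOrd_single_mul_ofPowerSeries (R := K) (-1)
        (dedekindEtaUnitInv.map (Int.castRingHom K)))
      rwa [substHom_one, mul_neg_one] at this
    have h5 : GeOrd ((p : LaurentSeries K) ^ 12) 0 := by
      rw [← map_natCast (HahnSeries.C : K →+* LaurentSeries K), ← map_pow]
      exact geOrd_C _
    have h6 := geOrd_substHom (1 : Kˣ) (n / p) (h5.mul (h3.mul h4))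
    refine h6.mono ?_
    have h7 : (2 : ℤ) ≤ p := by exact_mod_cast hp.two_le
    have h8 : (1 : ℤ) ≤ (n / p : ℕ) := by
      exact_mod_cast Nat.pos_of_ne_zero (NeZero.ne (n / p))
    push_cast at h8 ⊢
    have h9 : (1 : ℤ) ≤ (p : ℤ) * p - p := by nlinarith
    nlinarith
  have hR0 : R = 0 := by
    refine coeff_eval_eq_zero_of_pos (RingHom.id K) Function.injective_id R (1 : Kˣ) n ?_
    rwa [← aeval_jAt, hR]
  have hzero : uSer p w none = 0 := by
    apply substHom_injective (1 : Kˣ) (n / p)
    rw [map_zero]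
    show U0 none = 0
    rw [← hR, hR0, map_zero]
  simp only [uSer, mul_eq_zero, pow_eq_zero_iff (n := 12) (by norm_num)] at hzero
  rcases hzero with h | h | h
  · have hpK : (p : K) ≠ 0 := by
      intro h0
      apply char_natCast_ne_zero hζ
      rw [← Nat.div_mul_cancel hpn, Nat.cast_mul, h0, mul_zero]
    rw [← map_natCast (HahnSeries.C : K →+* LaurentSeries K), HahnSeries.C_apply,
      HahnSeries.single_eq_zero_iff] at h
    exact hpK h
  · have := congrArg (· * qExpand K (p * p) (deltaInvSer K)) h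
    simp [← map_mul, deltaSer_mul_inv] at this
  · have := congrArg (qExpand K p (deltaSer K) * ·) h
    simp [← map_mul, deltaSer_mul_inv] at this

theorem sigma_Phi {M : ℕ} [NeZero M] (hdvd : M * p ∣ n) {t : ℕ × ℕ × ℕ} (ht : IsPrim M t)
    (σ : (baseField K n)⟮xS K n M⟯ →ₐ[baseField K n] LaurentSeries K)
    (hσ : σ (AdjoinSimple.gen _ _) = tSer ζ n t) :
    (Φ.map (evalAt (AdjoinSimple.gen (baseField K n) (xS K n M)))).map
        (σ : _ →+* LaurentSeries K) =
      ∏ i : HIdx p, (Polynomial.X - Polynomial.C (tSer ζ n (childTriple p t i))) := by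
  rw [Polynomial.map_map, comp_evalAt, RingHom.coe_coe, hσ,
    map_evalAt_tSer p hζ hΦ ht.pos.1 ((Nat.mul_dvd_mul_right ht.dvd p).trans hdvd)]
  rfl

theorem child_series_inj {M : ℕ} [NeZero M] (hdvd : M * p ∣ n) {t : ℕ × ℕ × ℕ} (ht : IsPrim M t) :
    Function.Injective fun i : HIdx p => tSer ζ n (childTriple p t i) := by
  intro i i' h
  obtain ⟨a1, a2⟩ := childTriple_level (p := p) ht.1 ht.2.1 i
  obtain ⟨b1, b2⟩ := childTriple_level (p := p) ht.1 ht.2.1 i'
  haveI : NeZero (M * p) := ⟨Nat.mul_ne_zero (NeZero.ne M) (NeZero.ne p)⟩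
  have he := tSer_inj_level ζ n hζ hdvd a1 b1 a2 b2 h
  match i, i' with
  | none, none => rfl
  | none, some c =>
    simp only [childTriple, Prod.mk.injEq] at he
    exact absurd he.2.2 (lt_mul_of_one_lt_right ht.pos.2 (Fact.out : p.Prime).one_lt).ne
  | some c, none =>
    simp only [childTriple, Prod.mk.injEq] at he
    exact absurd he.2.2.symm (lt_mul_of_one_lt_right ht.pos.2 (Fact.out : p.Prime).one_lt).ne
  | some c, some c' =>
    simp only [childTriple, Prod.mk.injEq] at he
    have hc : c.val = c'.val := Nat.eq_of_mul_eq_mul_right ht.pos.2 (by omega)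
    rw [ZMod.val_injective p hc]

theorem twist_child_bot {M : ℕ} [NeZero M] (hdvd : M * p ∣ n) (c : ZMod p) :
    twist (ζ ^ M) (tSer ζ n (childTriple p (1, 0, M) (some c))) =
      tSer ζ n (childTriple p (1, 0, M) (some (c + 1))) := by
  obtain ⟨k, hk⟩ := hdvd
  have hn := Nat.pos_of_ne_zero (NeZero.ne n)
  have hp := (Fact.out : p.Prime).pos
  have hM := Nat.pos_of_ne_zero (NeZero.ne M)
  have hk0 : 0 < k := Nat.pos_of_ne_zero fun h0 => by simp [h0] at hk; omega
  have e : n / (M * p) = k := by rw [hk, Nat.mul_div_cancel_left _ (Nat.mul_pos hM hp)]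
  haveI : NeZero k := ⟨hk0.ne'⟩
  simp only [childTriple, zero_add, tSer_def, e, one_mul]
  rw [twist_jAt, ← pow_mul ζ M k, ← _root_.pow_add]
  congr 1
  have hw : (ζ ^ (M * k)) ^ p = 1 := by
    rw [← pow_mul, show M * k * p = n by rw [hk]; ring, hζ.pow_eq_one]
  rw [show c.val * M * k + M * k = (M * k) * (c.val + 1) by ring,
    show (c + 1).val * M * k = (M * k) * (c + 1).val by ring, pow_mul ζ (M * k), pow_mul ζ (M * k)]
  refine pow_congr_mod hw ?_
  rw [ZMod.val_add, ZMod.val_one, Nat.mod_mod]

theorem sigma_minpoly {M : ℕ} [NeZero M] (hdvd : M * p ∣ n) (hM : Good ζ n M)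
    (hprev : p ∣ M → Good ζ n (M / p)) (hGp : ¬ p ∣ M → 1 < M → Good ζ n p) (hmon : Φ.Monic)
    (hlevel1 : xS K n p ∉ baseField K n) :
    ∀ {t : ℕ × ℕ × ℕ}, IsPrim M t →
    ∀ (σ : (baseField K n)⟮xS K n M⟯ →ₐ[baseField K n] LaurentSeries K),
      σ (AdjoinSimple.gen _ _) = tSer ζ n t →
    ∃ s : Finset (HIdx p), (∀ i, i ∈ s ↔ IsPrim (M * p) (childTriple p t i)) ∧
      s.card = (if p ∣ M then p else p + 1) ∧
      (minpoly (baseField K n)⟮xS K n M⟯ (xS K n (M * p))).map (σ : _ →+* LaurentSeries K) =
        ∏ i ∈ s, (Polynomial.X - Polynomial.C (tSer ζ n (childTriple p t i))) := by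
  classical
  set L := LaurentSeries K
  have hp := (Fact.out : p.Prime)
  haveI : NeZero p := ⟨hp.ne_zero⟩
  set A := baseField K n
  set F := A⟮xS K n M⟯
  set xN := xS K n (M * p)
  set PF := Φ.map (evalAt (AdjoinSimple.gen A (xS K n M)))
  intro t ht σ hσ
  have hMn : M ∣ n := (dvd_mul_right M p).trans hdvd
  have hval : PF.map (algebraMap F L) =
      ∏ i : HIdx p, (Polynomial.X - Polynomial.C (tSer ζ n (childTriple p (M, 0, 1) i))) :=
    sigma_Phi hζ p hΦ hdvd (isPrim_top M) (IntermediateField.val _) (tSer_top M).symm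
  have hxN : tSer ζ n (childTriple p (M, 0, 1) none) = xN := by
    simp only [childTriple, zero_mul, Nat.zero_mod]
    exact tSer_top _
  have hroot : Polynomial.aeval xN PF = 0 := by
    rw [← eval_map_algebraMap, hval, eval_prod]
    exact Finset.prod_eq_zero (Finset.mem_univ none) (by simp [hxN])
  have hint : IsIntegral F xN := ⟨PF, hmon.map _, by rwa [← aeval_def]⟩
  set Q := minpoly F xN
  have hQ : Q ∣ PF := minpoly.dvd F xN hroot
  have hQpos : 0 < Q.natDegree := minpoly.natDegree_pos hint
  -- the orbit at the cusp `0`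
  obtain ⟨σ0, hσ0⟩ := hM.exists_embedding (isPrim_bot M)
  obtain ⟨u, -, hu⟩ := monic_dvd_prod_X_sub_C Finset.univ
    (fun i => tSer ζ n (childTriple p (1, 0, M) i)) ((minpoly.monic hint).map (σ0 : F →+* L))
    (sigma_Phi hζ p hΦ hdvd (isPrim_bot M) σ0 hσ0 ▸ Polynomial.map_dvd _ hQ)
    ((child_series_inj hζ p hΦ hdvd (isPrim_bot M)).injOn)
  have hstable : ∀ c : ZMod p, some c ∈ u → some (c + 1) ∈ u := by
    intro c hc
    have hfix : ∀ z, twistAlg (ζ ^ M) (σ0 z) = σ0 z := by
      refine fixed_range (twist_base hζ.pow_eq_one M) hM.isIntegral σ0 ?_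
      rw [hσ0, twistAlg_apply, tSer_def]
      haveI : NeZero (1 * (n / M)) := ⟨by
        rw [one_mul]
        exact (Nat.div_pos (Nat.le_of_dvd (Nat.pos_of_ne_zero (NeZero.ne n)) hMn)
          (Nat.pos_of_ne_zero (NeZero.ne M))).ne'⟩
      rw [twist_jAt, ← pow_mul ζ M, one_mul, Nat.mul_div_cancel' hMn, hζ.pow_eq_one, mul_one]
    have h0 : (Q.map (σ0 : F →+* L)).eval (tSer ζ n (childTriple p (1, 0, M) (some c))) = 0 := by
      rw [hu, eval_prod]
      exact Finset.prod_eq_zero hc (by simp)
    have h1 : (Q.map (σ0 : F →+* L)).eval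
        (tSer ζ n (childTriple p (1, 0, M) (some (c + 1)))) = 0 := by
      rw [← twist_child_bot hζ p hΦ hdvd c, eval_map]
      have h2 := congrArg (twistAlg (ζ ^ M)) h0
      rw [eval_map, map_zero] at h2
      rw [← h2, show (twistAlg (ζ ^ M)) (Polynomial.eval₂ (σ0 : F →+* L) _ Q) =
        ((twistAlg (ζ ^ M)).toRingHom) _ from rfl, Polynomial.hom_eval₂]
      congr 1
      exact (RingHom.ext fun z => hfix z).symm
    rw [hu, eval_prod, Finset.prod_eq_zero_iff] at h1
    obtain ⟨i, hi, hi'⟩ := h1
    rw [eval_sub, eval_X, eval_C, sub_eq_zero] at hi'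
    exact (child_series_inj hζ p hΦ hdvd (isPrim_bot M) hi') ▸ hi
  have hall : ∀ c : ZMod p, some c ∈ u → ∀ c' : ZMod p, some c' ∈ u := by
    intro c hc c'
    have hk : ∀ k : ℕ, some (c + k) ∈ u := by
      intro k
      induction k with
      | zero => simpa using hc
      | succ k ih => push_cast; rw [← add_assoc]; exact hstable _ ih
    have := hk (c' - c).val
    rwa [ZMod.natCast_zmod_val, add_sub_cancel] at this
  have hdeg : Q.natDegree = u.card := by
    rw [← (minpoly.monic hint).natDegree_map (σ0 : F →+* L), hu,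
      natDegree_prod_of_monic _ _ fun i _ => monic_X_sub_C _]
    simp
  have hle : u.card = 1 ∨ p ≤ u.card := by
    by_cases h : ∃ c : ZMod p, some c ∈ u
    · right
      obtain ⟨c, hc⟩ := h
      have hsub : (Finset.univ : Finset (ZMod p)).image some ⊆ u := by
        intro i hi
        obtain ⟨c', -, rfl⟩ := Finset.mem_image.mp hi
        exact hall c hc c'
      have := Finset.card_le_card hsub
      rwa [Finset.card_image_of_injective _ (Option.some_injective _), Finset.card_univ,
        ZMod.card] at this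
    · left
      push Not at h
      have hsub : u ⊆ {none} := fun i hi => by
        cases i with
        | none => simp
        | some c => exact absurd hi (h c)
      have := Finset.card_le_card hsub
      rw [Finset.card_singleton] at this
      omega
  have hPFdeg : PF.natDegree = p + 1 := by
    rw [← (hmon.map (evalAt (AdjoinSimple.gen A (xS K n M)))).natDegree_map (algebraMap F L), hval,
      natDegree_prod_of_monic _ _ fun i _ => monic_X_sub_C _]
    simp
  obtain ⟨R, hR⟩ := hQ
  have hRmon : R.Monic := (minpoly.monic hint).of_mul_monic_left (hR ▸ hmon.map _)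
  have hdegsum : p + 1 = Q.natDegree + R.natDegree := by
    rw [← hPFdeg, hR, (minpoly.monic hint).natDegree_mul hRmon]
  by_cases hpM : p ∣ M
  · obtain ⟨M', hM'⟩ := hpM
    subst hM'
    haveI : NeZero M' := ⟨fun h => NeZero.ne (p * M') (by simp [h])⟩
    have hprev' : Good ζ n M' := by
      have := hprev (dvd_mul_right p M')
      rwa [Nat.mul_div_cancel_left _ hp.pos] at this
    let r0 : F := ⟨xS K n M', hM.gen M' (dvd_mul_left M' p)⟩
    have hr0v : tSer ζ n (childTriple p (p * M', 0, 1) (some 0)) = xS K n M' := by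
      simp only [childTriple, ZMod.val_zero, zero_mul, add_zero, one_mul]
      rw [← tSer_top, ← tSer_scale ζ n (e := p) (a := M') (b := 0) (d := 1)
        (by simpa using (dvd_mul_left p (p * M')).trans hdvd)]
      simp
    have hr0 : PF.eval r0 = 0 := by
      apply Subtype.val_injective
      have h : (PF.map (algebraMap F L)).eval (r0 : L) = 0 := by
        rw [hval, eval_prod]
        exact Finset.prod_eq_zero (Finset.mem_univ (some 0))
          (by rw [eval_sub, eval_X, eval_C, hr0v]; exact sub_self _)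
      have h2 : (PF.map (algebraMap F L)).eval (algebraMap F L r0) = algebraMap F L (PF.eval r0) :=
        eval_map_apply _ _
      rw [IntermediateField.coe_zero]
      exact h2.symm.trans h
    have hσr0 : ∀ (t' : ℕ × ℕ × ℕ), IsPrim (p * M') t' → ∀ (τ : F →ₐ[A] L),
        τ (AdjoinSimple.gen _ _) = tSer ζ n t' →
        ∃ i : HIdx p, τ r0 = tSer ζ n (childTriple p t' i) ∧
          ¬ IsPrim (p * M' * p) (childTriple p t' i) := by
      intro t' ht' τ hτ
      have h1 : Polynomial.aeval (τ r0) (minpoly A (xS K n M')) = 0 := by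
        rw [aeval_algHom_apply]
        convert map_zero τ
        apply Subtype.val_injective
        rw [IntermediateField.coe_zero, ← minpoly.aeval A (xS K n M')]
        exact (aeval_algHom_apply (IntermediateField.val _) r0 _).symm
      obtain ⟨s, hs, hs'⟩ := hprev'.root_mem h1
      have h2 : (PF.map (τ : F →+* L)).eval (τ r0) = 0 := by
        rw [← RingHom.coe_coe τ, eval_map_apply, hr0, map_zero]
      rw [sigma_Phi hζ p hΦ hdvd ht' τ hτ, eval_prod, Finset.prod_eq_zero_iff] at h2
      obtain ⟨i, -, hi⟩ := h2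
      rw [eval_sub, eval_X, eval_C, sub_eq_zero] at hi
      refine ⟨i, hi, ?_⟩
      have hsd : p * s.2.2 ∣ n :=
        ((mul_dvd_mul_left p hs.dvd).trans (dvd_mul_right (p * M') p)).trans hdvd
      haveI : NeZero (p * M' * p) := ⟨Nat.mul_ne_zero (NeZero.ne _) hp.ne_zero⟩
      obtain ⟨e1, e2⟩ := childTriple_level (p := p) ht'.1 ht'.2.1 i
      have hEq : childTriple p t' i = (p * s.1, p * s.2.1, p * s.2.2) := by
        refine tSer_inj_level ζ n hζ hdvd e1 ?_ e2 (Nat.mul_lt_mul_of_pos_left hs.2.1 hp.pos) ?_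
        · simp only
          rw [← hs.1]; ring
        · rw [← hi, hs', tSer_scale ζ n hsd]
      rw [hEq]
      intro hprim
      exact hprim.2.2 p hp (dvd_mul_right _ _) (dvd_mul_right _ _) (dvd_mul_right _ _)
    -- at the cusp `0` the back root is the fixed one
    have hr0R : R.eval r0 = 0 := by
      have h := hr0
      rw [hR, eval_mul, mul_eq_zero] at h
      rcases h with h | h
      · exfalso
        have hlin := minpoly.irreducible hint
        have hr : Q.IsRoot r0 := h
        have hQ1 := Polynomial.eq_of_monic_of_dvd_of_natDegree_le (monic_X_sub_C r0)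
          (minpoly.monic hint) (dvd_iff_isRoot.mpr hr) ?_
        · have h' := minpoly.aeval F xN
          change Polynomial.aeval xN Q = 0 at h'
          rw [show Q = Polynomial.X - Polynomial.C r0 from hQ1] at h'
          simp only [map_sub, aeval_X, aeval_C, sub_eq_zero] at h'
          have h'' : xS K n (p * M' * p) = xS K n M' := h'
          have hne := (jAt_injective (R := K) (Nat.mul_ne_zero (Nat.mul_ne_zero
            (NeZero.ne (p * M')) hp.ne_zero) (NeZero.ne n))
            (Nat.mul_ne_zero (NeZero.ne M') (NeZero.ne n)) h'').1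
          have h3 : p * M' * p = M' := Nat.eq_of_mul_eq_mul_right (Nat.pos_of_ne_zero (NeZero.ne n)) hne
          have h4 : M' * 1 < M' * (p * p) :=
            Nat.mul_lt_mul_of_pos_left (Nat.one_lt_mul_iff.mpr ⟨hp.pos, hp.pos, Or.inl hp.one_lt⟩)
              (Nat.pos_of_ne_zero (NeZero.ne M'))
          rw [mul_one, show M' * (p * p) = p * M' * p by ring, h3] at h4
          exact lt_irrefl _ h4
        · rw [natDegree_X_sub_C]
          exact (Polynomial.natDegree_eq_of_degree_eq_some
            (Polynomial.degree_eq_one_of_irreducible_of_root hlin hr)).le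
      · exact h
    have hRpos : 1 ≤ R.natDegree := by
      by_contra h
      rw [Polynomial.eq_one_of_monic_natDegree_zero hRmon (by omega), eval_one] at hr0R
      exact one_ne_zero hr0R
    obtain ⟨i0, hi0, hi0'⟩ := hσr0 _ (isPrim_bot _) σ0 hσ0
    have hnone0 : ¬ IsPrim (p * M' * p) (childTriple p (1, 0, p * M') none) := by
      intro hprim
      exact hprim.2.2 p hp (dvd_mul_left _ _) (by simp [childTriple]) (dvd_mul_right _ _)
    obtain rfl : i0 = none :=
      (existsUnique_nonprim (dvd_mul_right p M') (isPrim_bot (p * M'))).unique hi0' hnone0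
    have hnone : none ∉ u := by
      intro hn0
      have hσPhi := sigma_Phi hζ p hΦ hdvd (isPrim_bot _) σ0 hσ0
      change PF.map (σ0 : F →+* L) = _ at hσPhi
      rw [hR, Polynomial.map_mul, hu,
        ← Finset.prod_sdiff (Finset.subset_univ u), mul_comm] at hσPhi
      have hR' := mul_right_cancel₀ (Finset.prod_ne_zero_iff.mpr fun i _ => X_sub_C_ne_zero _) hσPhi
      have h1 : (R.map (σ0 : F →+* L)).eval (σ0 r0) = 0 := by
        rw [← RingHom.coe_coe σ0, eval_map_apply, hr0R, map_zero]
      rw [hR', eval_prod, Finset.prod_eq_zero_iff] at h1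
      obtain ⟨i, hi, hi'⟩ := h1
      rw [eval_sub, eval_X, eval_C, sub_eq_zero, hi0] at hi'
      obtain rfl := child_series_inj hζ p hΦ hdvd (isPrim_bot _) hi'
      exact (Finset.mem_sdiff.mp hi).2 hn0
    have hucard : u.card = p := by
      obtain ⟨i, hi⟩ := Finset.card_pos.mp (hdeg ▸ hQpos)
      cases i with
      | none => exact absurd hi hnone
      | some c =>
        have : u = (Finset.univ : Finset (ZMod p)).image some := by
          ext j
          cases j with
          | none => simp [hnone]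
          | some c' => simp [hall c hi c']
        rw [this, Finset.card_image_of_injective _ (Option.some_injective _), Finset.card_univ,
          ZMod.card]
    have hQdeg : Q.natDegree = p := by rw [hdeg, hucard]
    have hReq : R = Polynomial.X - Polynomial.C r0 :=
      Polynomial.eq_of_monic_of_dvd_of_natDegree_le (monic_X_sub_C r0) hRmon
        (dvd_iff_isRoot.mpr hr0R) (by rw [natDegree_X_sub_C]; omega)
    obtain ⟨i1, hi1, hi1'⟩ := hσr0 t ht σ hσ
    have hu1 : ∀ {a b : HIdx p}, ¬ IsPrim (p * M' * p) (childTriple p t a) →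
        ¬ IsPrim (p * M' * p) (childTriple p t b) → a = b := fun {a b} h h' =>
      (existsUnique_nonprim (dvd_mul_right p M') ht).unique h h'
    refine ⟨Finset.univ.erase i1, fun i => ?_, ?_, ?_⟩
    · simp only [Finset.mem_erase, Finset.mem_univ, and_true]
      exact ⟨fun hne => by_contra fun hnp => hne (hu1 hnp hi1'), fun hprim heq => hi1' (heq ▸ hprim)⟩
    · rw [if_pos (dvd_mul_right p M'), Finset.card_erase_of_mem (Finset.mem_univ _),
        Finset.card_univ]
      simp
    · have h := sigma_Phi hζ p hΦ hdvd ht σ hσ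
      change PF.map (σ : F →+* L) = _ at h
      rw [hR, Polynomial.map_mul, hReq, Polynomial.map_sub, Polynomial.map_X, Polynomial.map_C,
        RingHom.coe_coe, hi1, ← Finset.prod_erase_mul _ _ (Finset.mem_univ i1)] at h
      exact mul_right_cancel₀ (X_sub_C_ne_zero _) h
  · -- no root in `F`
    have hnr := no_root hζ p hΦ hdvd hpM hM (hGp hpM) hmon hlevel1
    have hQnr : Q.natDegree ≠ 1 := by
      intro h1
      refine hnr (-Q.coeff 0) ?_
      show PF.eval _ = 0
      have hQe : Q = Polynomial.X + Polynomial.C (Q.coeff 0) :=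
        (minpoly.monic hint).eq_X_add_C h1
      rw [hR, eval_mul, hQe]
      simp
    have hR1 : R.natDegree ≠ 1 := by
      intro h1
      refine hnr (-R.coeff 0) ?_
      show PF.eval _ = 0
      rw [hR, eval_mul, hRmon.eq_X_add_C h1]
      simp
    have hRdeg : R.natDegree = 0 := by omega
    refine ⟨Finset.univ, fun i => ?_, ?_, ?_⟩
    · simp [isPrim_child_of_not_dvd hpM ht i]
    · rw [if_neg hpM, Finset.card_univ]; simp
    · rw [← sigma_Phi hζ p hΦ hdvd ht σ hσ]
      show Q.map _ = PF.map _
      rw [hR, Polynomial.eq_one_of_monic_natDegree_zero hRmon hRdeg, mul_one]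

theorem good_step {M : ℕ} [NeZero M] (hdvd : M * p ∣ n) (hM : Good ζ n M)
    (hprev : p ∣ M → Good ζ n (M / p)) (hGp : ¬ p ∣ M → 1 < M → Good ζ n p) (hmon : Φ.Monic)
    (hlevel1 : xS K n p ∉ baseField K n) :
    (primTriples (M * p)).card = dedekindPsi (M * p) ∧
    (minpoly (baseField K n) (xS K n (M * p))).map (algebraMap _ (LaurentSeries K)) =
      ∏ t ∈ primTriples (M * p), (Polynomial.X - Polynomial.C (tSer ζ n t)) ∧
    (∀ t, IsPrim (M * p) t → IsIntegral (baseRing K n) (tSer ζ n t)) := by
  classical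
  set L := LaurentSeries K
  have hp := (Fact.out : p.Prime)
  haveI : NeZero p := ⟨hp.ne_zero⟩
  haveI : NeZero (M * p) := ⟨Nat.mul_ne_zero (NeZero.ne M) hp.ne_zero⟩
  set A := baseField K n
  set F := A⟮xS K n M⟯
  set xN := xS K n (M * p)
  set e := if p ∣ M then p else p + 1
  have hintall : ∀ t, IsPrim (M * p) t → IsIntegral (baseRing K n) (tSer ζ n t) := by
    intro t ht
    obtain ⟨s, i, hs, rfl⟩ := exists_parent ht
    exact isIntegral_child hζ p hΦ hmon hs.pos.1 ((Nat.mul_dvd_mul_right hs.dvd p).trans hdvd)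
      (hM.int s hs) i
  have hemb : ∀ t : primTriples M, ∃ (s : Finset (HIdx p)) (σ : F →ₐ[A] L),
      (∀ i, i ∈ s ↔ IsPrim (M * p) (childTriple p t.1 i)) ∧ s.card = e ∧
      (minpoly F xN).map (σ : F →+* L) =
        ∏ i ∈ s, (Polynomial.X - Polynomial.C (tSer ζ n (childTriple p t.1 i))) := by
    intro t
    obtain ⟨σ, hσ⟩ := hM.exists_embedding (mem_primTriples.mp t.2)
    obtain ⟨s, h1, h2, h3⟩ :=
      sigma_minpoly hζ p hΦ hdvd hM hprev hGp hmon hlevel1 (mem_primTriples.mp t.2) σ hσ
    exact ⟨s, σ, h1, h2, h3⟩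
  choose s σ hs hcard hσ using hemb
  have hcardN : (primTriples (M * p)).card = dedekindPsi M * e := by
    rw [show primTriples (M * p) = ((primTriples M).attach.sigma s).image
      (fun x => childTriple p x.1.1 x.2) from ?_, Finset.card_image_of_injOn, Finset.card_sigma]
    · simp [hcard, hM.card]
    · rintro ⟨t, i⟩ hx ⟨t', i'⟩ hx' h
      simp only [Finset.mem_coe, Finset.mem_sigma] at hx hx'
      obtain ⟨h1, h2⟩ := child_injOn (mem_primTriples.mp t.2) (mem_primTriples.mp t'.2)
        ((hs t i).mp hx.2) h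
      obtain rfl : t = t' := Subtype.ext h1
      obtain rfl : i = i' := h2
      rfl
    · ext x
      simp only [Finset.mem_image, Finset.mem_sigma, Finset.mem_attach, true_and, mem_primTriples]
      constructor
      · intro hx
        obtain ⟨t, i, ht, rfl⟩ := exists_parent hx
        exact ⟨⟨⟨t, mem_primTriples.mpr ht⟩, i⟩, (hs _ i).mpr hx, rfl⟩
      · rintro ⟨⟨t, i⟩, hi, rfl⟩
        exact (hs t i).mp hi
  have hψ : dedekindPsi (M * p) = dedekindPsi M * e := by
    by_cases h : p ∣ M
    · rw [dedekindPsi_mul_prime_of_dvd hp h, mul_comm]; simp [e, h]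
    · rw [dedekindPsi_mul_prime_of_not_dvd hp h, mul_comm]; simp [e, h]
  have hintA : IsIntegral A xN := by
    have h := hintall _ (isPrim_top (M * p))
    rw [tSer_top] at h
    exact h.tower_top
  have hintF : IsIntegral F xN := hintA.tower_top
  have hdeg : (minpoly A xN).natDegree ≤ (primTriples (M * p)).card := by
    rw [hcardN]
    obtain ⟨σ0, hσ0⟩ := hM.exists_embedding (isPrim_bot M)
    have hQdeg : (minpoly F xN).natDegree = e := by
      have h := congrArg Polynomial.natDegree (hσ ⟨(1, 0, M), mem_primTriples.mpr (isPrim_bot M)⟩)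
      rw [(minpoly.monic hintF).natDegree_map,
        natDegree_prod_of_monic _ _ fun i _ => monic_X_sub_C _] at h
      simpa [hcard] using h
    haveI := IntermediateField.adjoin.finiteDimensional hM.isIntegral
    haveI := IntermediateField.adjoin.finiteDimensional hintF
    haveI : FiniteDimensional A F⟮xN⟯ := Module.Finite.trans F F⟮xN⟯
    have htop : Module.finrank A F⟮xN⟯ = dedekindPsi M * e := by
      rw [← Module.finrank_mul_finrank A F F⟮xN⟯, hM.finrank,
        IntermediateField.adjoin.finrank hintF, hQdeg]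
    rw [← htop, ← IntermediateField.adjoin.finrank hintA]
    have hle : A⟮xN⟯.toSubalgebra.toSubmodule ≤
        ((F⟮xN⟯).restrictScalars A).toSubalgebra.toSubmodule := by
      intro z hz
      have h2 : A⟮xN⟯ ≤ (F⟮xN⟯).restrictScalars A := by
        rw [adjoin_simple_le_iff]
        exact mem_adjoin_simple_self F xN
      exact h2 hz
    haveI : Module.Finite A ((F⟮xN⟯).restrictScalars A).toSubalgebra.toSubmodule :=
      inferInstanceAs (FiniteDimensional A F⟮xN⟯)
    exact Submodule.finrank_mono hle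
  refine ⟨hcardN.trans hψ.symm, ?_, hintall⟩
  refine map_eq_prod_of_roots (algebraMap A L) (minpoly.monic hintA) _ _ ?_ ?_ hdeg
  · intro x hx y hy h
    simp only [Finset.mem_coe, mem_primTriples] at hx hy
    exact tSer_inj_level ζ n hζ hdvd hx.1 hy.1 hx.2.1 hy.2.1 h
  · intro x hx
    rw [mem_primTriples] at hx
    obtain ⟨t, i, ht, rfl⟩ := exists_parent hx
    let t' : primTriples M := ⟨t, mem_primTriples.mpr ht⟩
    have hdvd' : (minpoly F xN).map (σ t' : F →+* L) ∣ (minpoly A xN).map (algebraMap A L) := by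
      rw [show (algebraMap A L) = (σ t' : F →+* L).comp (algebraMap A F) from
        RingHom.ext fun a => ((σ t').commutes a).symm, ← Polynomial.map_map]
      exact Polynomial.map_dvd _ (minpoly.dvd_map_of_isScalarTower A F xN)
    rw [← eval_map]
    refine Polynomial.eval_eq_zero_of_dvd_of_eval_eq_zero hdvd' ?_
    rw [hσ t', eval_prod]
    exact Finset.prod_eq_zero ((hs t' i).mpr hx) (by simp [t'])

end Step

theorem good_one : Good ζ n 1 := by
  have hmem : jAt (1 : Kˣ) n ∈ baseField K n := mem_adjoin_simple_self K _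
  refine ⟨by simp [primTriples_one], ?_, ?_, ?_⟩
  · rw [primTriples_one, Finset.prod_singleton, tSer_top, xS_one,
      show jAt (1 : Kˣ) n = algebraMap (baseField K n) (LaurentSeries K) ⟨_, hmem⟩ from rfl,
      minpoly.eq_X_sub_C]
    simp
  · intro e he
    rw [Nat.dvd_one.mp he]
    exact mem_adjoin_simple_self _ _
  · intro t ht
    have : t ∈ primTriples 1 := mem_primTriples.mpr ht
    rw [primTriples_one, Finset.mem_singleton] at this
    subst this
    rw [tSer_top, xS_one]
    exact isIntegral_algebraMap (x := (⟨_, Algebra.self_mem_adjoin_singleton K _⟩ : baseRing K n))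

/-- **Main theorem**: conjugates, degree and generation at every level dividing `n`. -/
theorem good_of_dvd (hζ : IsPrimitiveRoot ζ n) : ∀ N : ℕ, N ∣ n → Good ζ n N := by
  intro N
  induction N using Nat.strongRecOn with
  | ind N ih =>
    intro hN
    haveI : NeZero N := ⟨fun h => NeZero.ne n (Nat.eq_zero_of_zero_dvd (h ▸ hN))⟩
    by_cases hN1 : N = 1
    · subst hN1; exact good_one
    have key : ∀ q : ℕ, q.Prime → q ∣ N →
        xS K n (N / q) ∈ (baseField K n)⟮xS K n N⟯ ∧
        ((primTriples N).card = dedekindPsi N ∧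
          (minpoly (baseField K n) (xS K n N)).map (algebraMap _ (LaurentSeries K)) =
            ∏ t ∈ primTriples N, (Polynomial.X - Polynomial.C (tSer ζ n t)) ∧
          (∀ t, IsPrim N t → IsIntegral (baseRing K n) (tSer ζ n t))) := by
      intro q hq hqN
      obtain ⟨M, rfl⟩ := hqN
      rw [mul_comm q M] at hN ih ⊢
      haveI : Fact q.Prime := ⟨hq⟩
      haveI : NeZero M := ⟨fun h => NeZero.ne (q * M) (by simp [h])⟩
      rw [Nat.mul_div_cancel _ hq.pos]
      obtain ⟨Φ, H, U, hmon, -, hUmon, hpl⟩ := primeLevel_exists q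
      have hΦ := fun w hw => (hpl K w hw).1
      have hMn : M ∣ n := (dvd_mul_right M q).trans hN
      have hMlt : M < M * q := lt_mul_of_one_lt_right (Nat.pos_of_ne_zero (NeZero.ne M)) hq.one_lt
      have hM := ih M hMlt hMn
      have hqn : q ∣ n := (dvd_mul_left q M).trans hN
      have hl := xS_prime_not_mem hζ q hΦ hqn hUmon fun w hw => (hpl K w hw).2
      have hstep := good_step hζ q hΦ hN hM
        (fun _ => ih _ (lt_of_le_of_lt (Nat.div_le_self _ _) hMlt) ((Nat.div_dvd_of_dvd ‹q ∣ M›).trans hMn))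
        (fun _ h1 => ih q (lt_mul_of_one_lt_left hq.pos h1) hqn) hmon hl
      refine ⟨mem_adjoin_back hζ q hΦ hN hM ?_, hstep⟩
      have h := hstep.2.2 _ (isPrim_top (M * q))
      rw [tSer_top] at h
      exact h.tower_top
    obtain ⟨-, hcard, hmin, hint⟩ := key _ (Nat.minFac_prime hN1) (Nat.minFac_dvd N)
    refine ⟨hcard, hmin, fun e he => ?_, hint⟩
    by_cases heN : e = N
    · subst heN; exact mem_adjoin_simple_self _ _
    obtain ⟨c, hc⟩ := he
    have hc1 : c ≠ 1 := fun h => heN (by rw [hc, h, mul_one])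
    obtain ⟨q, hq, c', hc'⟩ := Nat.exists_prime_and_dvd hc1
    have hqN : q ∣ N := ⟨e * c', by rw [hc, hc']; ring⟩
    have hedvd : e ∣ N / q := ⟨c', by
      rw [hc, hc', show e * (q * c') = q * (e * c') by ring, Nat.mul_div_cancel_left _ hq.pos]⟩
    have hG := ih (N / q) (Nat.div_lt_self (Nat.pos_of_ne_zero (NeZero.ne N)) hq.one_lt)
      ((Nat.div_dvd_of_dvd hqN).trans hN)
    exact adjoin_simple_le_iff.mpr (key q hq hqN).1 (hG.gen e hedvd)

end FLTAgent.ModEq
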