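import Fermat.Agent.ModEq.Descent

/-!
# The modular equation over an arbitrary field in which the level is invertible

* `finrank_modularFunctionFieldC` : `[K(j, j_N) : K(j)] = ψ(N)`.
* `modularFunctionFieldFullC_eq` : `K(j_d : d ∣ N) = K(j, j_N)`.
* `modularPolynomialData` : `Φ_N ∈ ℤ[X][Y]`.
* `minpoly_jqN` : `Φ_N` reduces to the minimal polynomial of `j_N` over `K(j)`.
* `map_evalAt_modularPolynomial` : the conjugates of `j_N` in `K((q^{1/n}))`.
-/

set_option autoImplicit false

noncomputable section

open HahnSeries ModularCurve Polynomial IntermediateField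

set_option maxHeartbeats 800000

namespace FLTAgent.ModEq

/-- `K(j)` inside `K((q))`. -/
abbrev jField (K : Type*) [Field K] : IntermediateField K (LaurentSeries K) :=
  K⟮jqModC K⟯

section Scale

variable {K : Type*} [Field K] (n : ℕ) [NeZero n]

theorem scale_jqN (M : ℕ) [NeZero M] :
    substAlg (1 : Kˣ) n (qExpand K M (jqModC K)) = xS K n M := by
  rw [substAlg_apply, ← jqNModC, ← jAt_one_left, substHom_jAt, one_pow, mul_one, xS, mul_comm]

theorem scale_jq : substAlg (1 : Kˣ) n (jqModC K) = jAt (1 : Kˣ) n := by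
  have h := scale_jqN (K := K) n 1
  rwa [qExpand_one_apply, xS_one] at h

theorem scale_mem_base {z : LaurentSeries K} (hz : z ∈ jField K) :
    substAlg (1 : Kˣ) n z ∈ baseField K n := by
  have h : (jField K).map (substAlg (1 : Kˣ) n) = baseField K n := by
    rw [jField, adjoin_map, Set.image_singleton, scale_jq]
  rw [← h]
  exact ⟨z, hz, rfl⟩

/-- `K(j) → K(J)`. -/
def scaleBase : jField K →+* baseField K n where
  toFun z := ⟨substAlg (1 : Kˣ) n z, scale_mem_base n z.2⟩
  map_one' := Subtype.ext (map_one _)
  map_mul' _ _ := Subtype.ext (map_mul _ _ _)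
  map_zero' := Subtype.ext (map_zero _)
  map_add' _ _ := Subtype.ext (map_add _ _ _)

end Scale

section Closed

variable {K : Type*} [Field K] (N : ℕ) [NeZero N]

/-- The statement at level `N` in the parameter `q` when roots of unity are present. -/
theorem exists_root_data (n : ℕ) [NeZero n] {ζ : Kˣ} (hζ : IsPrimitiveRoot ζ n) (hN : N ∣ n) :
    (∀ (g : (jField K)[X]), g.Monic → Polynomial.aeval (jqNModC K N) g = 0 →
        dedekindPsi N ≤ g.natDegree) ∧
    (∃ g : (LaurentSeries K)[X], g.Monic ∧ g.natDegree = dedekindPsi N ∧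
      g.eval (jqNModC K N) = 0 ∧
      (∀ i, g.coeff i ∈ Algebra.adjoin K {jqModC K}) ∧
      g.map (substHom (1 : Kˣ) n) =
        ∏ t ∈ primTriples N, (Polynomial.X - Polynomial.C (tSer ζ n t))) ∧
    (∀ (d : ℕ) [NeZero d], d ∣ N →
      qExpand K d (jqModC K) ∈ IntermediateField.adjoin K {jqModC K, jqNModC K N}) := by
  classical
  have hG := good_of_dvd hζ N hN
  set s := substAlg (1 : Kˣ) n
  have hsinj : Function.Injective s := substHom_injective (1 : Kˣ) n
  refine ⟨fun g hg hg0 => ?_, ?_, fun d _ hd => ?_⟩
  · have h1 : Polynomial.aeval (xS K n N) (g.map (scaleBase n)) = 0 := by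
      rw [aeval_def, eval₂_map, ← scale_jqN n N,
        show (algebraMap (baseField K n) (LaurentSeries K)).comp (scaleBase n) =
          (s : LaurentSeries K →+* LaurentSeries K).comp (algebraMap (jField K) (LaurentSeries K))
          from RingHom.ext fun z => rfl,
        show substAlg (1 : Kˣ) n (qExpand K N (jqModC K)) =
          (s : LaurentSeries K →+* LaurentSeries K) (jqNModC K N) from rfl,
        ← hom_eval₂, ← aeval_def, hg0, map_zero]
    have h2 := minpoly.min (baseField K n) (xS K n N) (hg.map _) h1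
    have h3 := Polynomial.natDegree_le_natDegree h2
    rwa [hG.natDegree, hg.natDegree_map] at h3
  · set m := minpoly (baseField K n) (xS K n N)
    have hc : ∀ i, ∃ P : K[X], Polynomial.aeval (jAt (1 : Kˣ) n) P =
        algebraMap (baseField K n) (LaurentSeries K) (m.coeff i) := by
      intro i
      refine mem_adjoin_of_isIntegral (m.coeff i).2 ?_
      rw [← Polynomial.coeff_map, hG.min]
      exact isIntegral_coeff_prod _ _ (fun t ht => hG.int t (mem_primTriples.mp ht)) i
    choose P hP using hc
    set g : (LaurentSeries K)[X] := ∑ i ∈ Finset.range (dedekindPsi N + 1),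
      Polynomial.C (Polynomial.aeval (jqModC K) (P i)) * Polynomial.X ^ i
    have hmap : g.map (s : LaurentSeries K →+* LaurentSeries K) =
        m.map (algebraMap (baseField K n) (LaurentSeries K)) := by
      conv_rhs => rw [m.as_sum_range_C_mul_X_pow, show m.natDegree = dedekindPsi N from hG.natDegree]
      simp only [g, Polynomial.map_sum, Polynomial.map_mul, Polynomial.map_C, Polynomial.map_pow,
        Polynomial.map_X]
      refine Finset.sum_congr rfl fun i _ => ?_
      rw [RingHom.coe_coe, ← aeval_algHom_apply, scale_jq, hP i]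
    have hinj' : Function.Injective (s : LaurentSeries K →+* LaurentSeries K) := hsinj
    have hmm := (minpoly.monic hG.isIntegral).map (algebraMap (baseField K n) (LaurentSeries K))
    refine ⟨g, Polynomial.monic_of_injective hinj' (hmap ▸ hmm), ?_, ?_, fun i => ?_, ?_⟩
    · rw [← Polynomial.natDegree_map_eq_of_injective hinj' g, hmap, Polynomial.natDegree_map]
      exact hG.natDegree
    · apply hinj'
      rw [map_zero, ← eval_map_apply, hmap,
        show (s : LaurentSeries K →+* LaurentSeries K) (jqNModC K N) = xS K n N from scale_jqN n N,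
        eval_map_algebraMap, minpoly.aeval]
    · simp only [g, finsetSum_coeff, coeff_C_mul_X_pow]
      refine sum_mem fun j _ => ?_
      split_ifs
      · rw [Algebra.adjoin_singleton_eq_range_aeval]; exact ⟨_, rfl⟩
      · exact zero_mem _
    · rw [show substHom (1 : Kˣ) n = (s : LaurentSeries K →+* LaurentSeries K) from rfl, hmap]
      exact hG.min
  · have h := hG.gen d hd
    have h' : xS K n d ∈ IntermediateField.adjoin K {jAt (1 : Kˣ) n, xS K n N} := by
      rw [← Set.singleton_union, ← adjoin_adjoin_left K {jAt (1 : Kˣ) n} {xS K n N}]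
      exact h
    have hmap : (IntermediateField.adjoin K {jqModC K, jqNModC K N}).map s =
        IntermediateField.adjoin K {jAt (1 : Kˣ) n, xS K n N} := by
      rw [adjoin_map, Set.image_pair, scale_jq, show s (jqNModC K N) = xS K n N from scale_jqN n N]
    rw [← hmap] at h'
    obtain ⟨z, hz, hz'⟩ := h'
    have : z = qExpand K d (jqModC K) := hsinj (hz'.trans (scale_jqN n d).symm)
    rwa [← this]

end Closed

section General

theorem exists_isPrimitiveRoot_units {K : Type*} [Field K] [IsAlgClosed K] (n : ℕ)
    (hn : (n : K) ≠ 0) : ∃ ζ : Kˣ, IsPrimitiveRoot ζ n := by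
  haveI : NeZero (n : K) := ⟨hn⟩
  haveI : NeZero n := ⟨fun h => hn (by simp [h])⟩
  obtain ⟨z, hz⟩ := HasEnoughRootsOfUnity.exists_primitiveRoot K n
  have hu : IsUnit z := hz.isUnit (NeZero.ne n)
  refine ⟨hu.unit, ?_⟩
  rw [← IsPrimitiveRoot.coe_units_iff]
  exact hz

variable {K : Type*} [Field K] (N : ℕ) [NeZero N] (hN : (N : K) ≠ 0)

theorem coeffMap_jqN {L : Type*} [Field L] (f : K →+* L) :
    coeffMap f (jqNModC K N) = jqNModC L N := coeffMap_jqNModC f N

include hN

theorem natDegree_le_of_root {g : (jField K)[X]} (hg : g.Monic)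
    (hg0 : Polynomial.aeval (jqNModC K N) g = 0) : dedekindPsi N ≤ g.natDegree := by
  set K' := AlgebraicClosure K
  have hN' : (N : K') ≠ 0 := by
    rw [← map_natCast (algebraMap K K')]
    exact (_root_.map_ne_zero _).mpr hN
  obtain ⟨ζ, hζ⟩ := exists_isPrimitiveRoot_units N hN'
  have hmem : ∀ z ∈ jField K, coeffMap (algebraMap K K') z ∈ jField K' := by
    intro z hz
    induction hz using IntermediateField.adjoin_induction with
    | mem y hy =>
      obtain rfl := Set.mem_singleton_iff.mp hy
      rw [coeffMap_jqModC]; exact mem_adjoin_simple_self _ _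
    | algebraMap c =>
      rw [algebraMap_laurentSeries_eq_single, coeffMap_single, ← algebraMap_laurentSeries_eq_single]
      exact IntermediateField.algebraMap_mem _ _
    | add y y' _ _ h h' => rw [map_add]; exact add_mem h h'
    | inv y _ h => rw [map_inv₀]; exact inv_mem h
    | mul y y' _ _ h h' => rw [map_mul]; exact mul_mem h h'
  let f : jField K →+* jField K' :=
    ((coeffMap (algebraMap K K')).comp (algebraMap (jField K) (LaurentSeries K))).codRestrict
      (jField K').toSubfield (fun z => hmem _ z.2)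
  have h := (exists_root_data N N hζ dvd_rfl).1 (g.map f) (hg.map f) (by
    rw [aeval_def, eval₂_map, ← coeffMap_jqN N (algebraMap K K'),
      show (algebraMap (jField K') (LaurentSeries K')).comp f =
        (coeffMap (algebraMap K K')).comp (algebraMap (jField K) (LaurentSeries K)) from rfl,
      ← hom_eval₂, ← aeval_def, hg0, map_zero])
  rwa [hg.natDegree_map] at h

theorem exists_monic_root : ∃ g : (jField K)[X], g.Monic ∧ g.natDegree = dedekindPsi N ∧
    Polynomial.aeval (jqNModC K N) g = 0 := by
  classical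
  set K' := AlgebraicClosure K
  have hN' : (N : K') ≠ 0 := by
    rw [← map_natCast (algebraMap K K')]
    exact (_root_.map_ne_zero _).mpr hN
  obtain ⟨ζ, hζ⟩ := exists_isPrimitiveRoot_units N hN'
  obtain ⟨g, hgmon, hgdeg, hg0, hgc, -⟩ := (exists_root_data N N hζ dvd_rfl).2.1
  obtain ⟨φ, hφ⟩ := exists_retraction (K := K) (K' := K')
  have hc : ∀ i, retract φ (g.coeff i) ∈ jField K := fun i => by
    refine algebra_adjoin_le_adjoin K _ (retract_mem_adjoin φ hφ ?_)
    rw [Set.image_singleton, coeffMap_jqModC]
    exact hgc i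
  refine ⟨Polynomial.X ^ dedekindPsi N + ∑ i ∈ Finset.range (dedekindPsi N),
    Polynomial.C (⟨_, hc i⟩ : jField K) * Polynomial.X ^ i, ?_, ?_, ?_⟩
  · refine monic_X_pow_add (lt_of_le_of_lt (degree_sum_le _ _) ?_)
    refine (Finset.sup_lt_iff (WithBot.bot_lt_coe _)).mpr fun i hi => ?_
    exact lt_of_le_of_lt (degree_C_mul_X_pow_le _ _) (WithBot.coe_lt_coe.mpr (Finset.mem_range.mp hi))
  · refine Polynomial.natDegree_eq_of_degree_eq_some ?_
    rw [degree_add_eq_left_of_degree_lt, degree_X_pow]
    rw [degree_X_pow]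
    refine lt_of_le_of_lt (degree_sum_le _ _) ?_
    refine (Finset.sup_lt_iff (WithBot.bot_lt_coe _)).mpr fun i hi => ?_
    exact lt_of_le_of_lt (degree_C_mul_X_pow_le _ _) (WithBot.coe_lt_coe.mpr (Finset.mem_range.mp hi))
  · rw [eval_eq_sum_range, hgdeg, Finset.sum_range_succ,
      show g.coeff (dedekindPsi N) = 1 from hgdeg ▸ hgmon.coeff_natDegree, one_mul] at hg0
    have h := congrArg (retract φ) hg0
    rw [map_zero, map_add, map_sum] at h
    rw [map_add, map_sum, map_pow, aeval_X, ← h, add_comm]
    congr 1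
    · refine Finset.sum_congr rfl fun i _ => ?_
      rw [map_mul, map_pow, aeval_X, aeval_C, mul_comm,
        show algebraMap (jField K) (LaurentSeries K) ⟨_, hc i⟩ = retract φ (g.coeff i) from rfl,
        ← retract_coeffMap_mul, map_pow, coeffMap_jqN, mul_comm]
    · rw [← retract_coeffMap φ hφ (jqNModC K N ^ dedekindPsi N), map_pow, coeffMap_jqN]

theorem isIntegral_jqN : IsIntegral (jField K) (jqNModC K N) := by
  obtain ⟨g, hg, -, hg0⟩ := exists_monic_root N hN
  exact ⟨g, hg, by rwa [← aeval_def]⟩

theorem natDegree_minpoly_jqN :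
    (minpoly (jField K) (jqNModC K N)).natDegree = dedekindPsi N := by
  obtain ⟨g, hg, hdeg, hg0⟩ := exists_monic_root N hN
  refine le_antisymm ?_ (natDegree_le_of_root N hN (minpoly.monic (isIntegral_jqN N hN))
    (minpoly.aeval _ _))
  rw [← hdeg]
  exact Polynomial.natDegree_le_natDegree (minpoly.min _ _ hg hg0)

/-- `[K(j, j_N) : K(j)] = ψ(N)`. -/
theorem finrank_jqN :
    Module.finrank (jField K) (jField K)⟮jqNModC K N⟯ = dedekindPsi N := by
  rw [IntermediateField.adjoin.finrank (isIntegral_jqN N hN), natDegree_minpoly_jqN N hN]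

/-- All `j_d`, `d ∣ N`, lie in `K(j, j_N)`. -/
theorem jqd_mem (d : ℕ) [NeZero d] (hd : d ∣ N) :
    qExpand K d (jqModC K) ∈ modularFunctionFieldC K N := by
  set K' := AlgebraicClosure K
  have hN' : (N : K') ≠ 0 := by
    rw [← map_natCast (algebraMap K K')]
    exact (_root_.map_ne_zero _).mpr hN
  obtain ⟨ζ, hζ⟩ := exists_isPrimitiveRoot_units N hN'
  refine mem_adjoin_of_coeffMap_mem (K' := K') ?_
  rw [Set.image_pair, coeffMap_jqModC, coeffMap_jqN, coeffMap_qExpand, coeffMap_jqModC]
  exact (exists_root_data N N hζ dvd_rfl).2.2 d hd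

/-- `K(j_d : d ∣ N) = K(j, j_N)`. -/
theorem modularFunctionFieldFullC_eq :
    modularFunctionFieldFullC K N = modularFunctionFieldC K N := by
  refine le_antisymm ?_ (modularFunctionFieldC_le_full K N)
  rw [modularFunctionFieldFullC, adjoin_le_iff]
  rintro x ⟨d, hne, hd, rfl⟩
  haveI := hne
  exact jqd_mem N hN d hd

omit hN in
theorem modularFunctionFieldC_eq_restrictScalars :
    modularFunctionFieldC K N = (jField K)⟮jqNModC K N⟯.restrictScalars K := by
  rw [modularFunctionFieldC, ← Set.singleton_union]
  exact (adjoin_adjoin_left K {jqModC K} {jqNModC K N}).symm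

end General

/-- `FunctionFieldGeneration` holds at every level. -/
theorem functionFieldGeneration (N : ℕ) [NeZero N] : FunctionFieldGeneration N := by
  intro d hd hne
  haveI := hne
  exact jqd_mem (K := ℚ) N (Nat.cast_ne_zero.mpr (NeZero.ne N)) d hd

theorem modularFunctionFieldFull_eq (N : ℕ) [NeZero N] :
    modularFunctionFieldFull N = modularFunctionField N :=
  modularFunctionFieldFullC_eq (K := ℚ) N (Nat.cast_ne_zero.mpr (NeZero.ne N))

end FLTAgent.ModEq
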