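import Fermat.Agent.ModEq.Main

/-!
# The modular polynomial `Φ_N ∈ ℤ[X][Y]`
-/

set_option autoImplicit false

noncomputable section

open HahnSeries ModularCurve Polynomial IntermediateField

set_option maxHeartbeats 800000

namespace FLTAgent.ModEq

theorem monic_eq_of_natDegree_min {F L : Type*} [Field F] [Field L] [Algebra F L] {x : L}
    {f g : F[X]} (hf : f.Monic) (hg : g.Monic) (hfx : Polynomial.aeval x f = 0)
    (hgx : Polynomial.aeval x g = 0)
    (hfd : f.natDegree ≤ (minpoly F x).natDegree) (hgd : g.natDegree ≤ (minpoly F x).natDegree) :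
    f = g := by
  have hint : IsIntegral F x := ⟨f, hf, by rwa [← aeval_def]⟩
  have h1 := Polynomial.eq_of_monic_of_dvd_of_natDegree_le (minpoly.monic hint) hf
    (minpoly.dvd F x hfx) hfd
  have h2 := Polynomial.eq_of_monic_of_dvd_of_natDegree_le (minpoly.monic hint) hg
    (minpoly.dvd F x hgx) hgd
  rw [h1, h2]

/-- A rational polynomial in `j` with integral coefficients is an integral polynomial. -/
theorem exists_int_poly (P : ℚ[X]) (hP : ∀ k, ∃ z : ℤ, (Polynomial.aeval jq P).coeff k = z) :
    ∃ P₀ : ℤ[X], P₀.map (Int.castRingHom ℚ) = P := by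
  induction hd : P.natDegree using Nat.strongRecOn generalizing P with
  | ind d ih =>
    subst hd
    by_cases h0 : P = 0
    · exact ⟨0, by simp [h0]⟩
    have hj : jAt (1 : ℚˣ) 1 = jq := by rw [jAt_one_one, jqModC_rat]
    obtain ⟨z, hz⟩ := hP (-((P.natDegree : ℤ)))
    have hlead : P.leadingCoeff = z := by
      rw [← hj, aeval_jAt] at hz
      have h := eval_jAt_coeff (HahnSeries.C.comp (RingHom.id ℚ)) (fun c => geOrd_C c) P (1 : ℚˣ) 1
      rw [show -((P.natDegree : ℤ) * ((1 : ℕ) : ℤ)) = -(P.natDegree : ℤ) by simp] at h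
      rw [← hz, h, RingHom.comp_apply, HahnSeries.C_apply, HahnSeries.coeff_single_same]
      simp
    by_cases hdeg : P.natDegree = 0
    · refine ⟨Polynomial.C z, ?_⟩
      rw [Polynomial.map_C, eq_intCast, ← hlead, Polynomial.eq_C_of_natDegree_eq_zero hdeg]
      simp
    have hlt : P.eraseLead.natDegree < P.natDegree :=
      lt_of_le_of_lt (Polynomial.eraseLead_natDegree_le P) (by omega)
    obtain ⟨P₁, hP₁⟩ := ih _ hlt P.eraseLead (fun k => by
      obtain ⟨a, ha⟩ := hP k
      have hint : ∃ b : ℤ, (jq ^ P.natDegree).coeff k = b := by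
        refine ⟨(jqModC ℤ ^ P.natDegree).coeff k, ?_⟩
        rw [← jqModC_rat, ← coeffMap_jqModC (Int.castRingHom ℚ), ← map_pow, coeffMap_coeff,
          eq_intCast]
      obtain ⟨b, hb⟩ := hint
      refine ⟨a - z * b, ?_⟩
      conv_lhs => rw [← P.self_sub_C_mul_X_pow, hlead]
      rw [map_sub, map_mul, map_pow, aeval_X, aeval_C, HahnSeries.coeff_sub, ha,
        algebraMap_apply_eq_single, HahnSeries.coeff_single_zero_mul, hb]
      push_cast; ring) rfl
    refine ⟨P₁ + Polynomial.C z * Polynomial.X ^ P.natDegree, ?_⟩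
    conv_rhs => rw [← P.eraseLead_add_C_mul_X_pow, hlead]
    rw [Polynomial.map_add, hP₁, Polynomial.map_mul, Polynomial.map_C, Polynomial.map_pow,
      Polynomial.map_X, eq_intCast]

theorem exists_modularPolynomial (N : ℕ) [NeZero N] :
    ∃ Φ : ℤ[X][X], Φ.Monic ∧ Φ.natDegree = dedekindPsi N ∧
      Φ.eval₂ evalAtJ (jqN N) = 0 := by
  classical
  set K' := AlgebraicClosure ℚ
  have hN : (N : ℚ) ≠ 0 := Nat.cast_ne_zero.mpr (NeZero.ne N)
  obtain ⟨ζ, hζ⟩ := exists_isPrimitiveRoot_units (K := K') N (Nat.cast_ne_zero.mpr (NeZero.ne N))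
  obtain ⟨g, hgmon, hgdeg, hg0, hgc, hgmap⟩ := (exists_root_data N N hζ dvd_rfl).2.1
  set e := coeffMap (algebraMap ℚ K')
  -- integrality of the coefficients of `g`
  set O := integralClosure ℤ K'
  have hζint : IsIntegral ℤ (ζ : K') :=
    (IsPrimitiveRoot.coe_units_iff.mpr hζ).isIntegral (Nat.pos_of_ne_zero (NeZero.ne N))
  let z : Oˣ := Units.ofPowEqOne ⟨(ζ : K'), hζint⟩ N (Subtype.ext (by
    simp only [SubmonoidClass.coe_pow, OneMemClass.coe_one]
    rw [← Units.val_pow_eq_pow_val, hζ.pow_eq_one, Units.val_one])) (NeZero.ne N)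
  set ι : O →+* K' := O.val.toRingHom
  have hz : Units.map ι.toMonoidHom z = ζ := Units.ext rfl
  have hprod : g.map (substHom (1 : K'ˣ) N) =
      (∏ t ∈ primTriples N, (Polynomial.X - Polynomial.C (tSer z N t))).map (coeffMap ι) := by
    rw [hgmap, Polynomial.map_prod]
    refine Finset.prod_congr rfl fun t _ => ?_
    rw [Polynomial.map_sub, Polynomial.map_X, Polynomial.map_C]
    congr 2
    simp only [tSer]
    rw [coeffMap_jAt, map_pow, hz]
  have hgint : ∀ i k, IsIntegral ℤ ((g.coeff i).coeff k) := by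
    intro i k
    have h := congrArg (fun q : (LaurentSeries K')[X] => (q.coeff i).coeff ((N : ℤ) * k)) hprod
    simp only [Polynomial.coeff_map, substHom_coeff_mul, one_zpow, Units.val_one, one_mul,
      coeffMap_coeff] at h
    rw [h]
    exact (((∏ t ∈ primTriples N, ((Polynomial.X : (LaurentSeries O)[X]) -
      Polynomial.C (tSer z N t))).coeff i).coeff ((N : ℤ) * k)).2
  -- the minimal polynomial over `ℚ(j)`
  set m := minpoly (jField ℚ) (jqNModC ℚ N)
  obtain ⟨φ, hφ⟩ := exists_retraction (K := ℚ) (K' := K')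
  have hmem : ∀ i, g.coeff i ∈ jField K' := fun i => algebra_adjoin_le_adjoin _ _ (hgc i)
  have hjQ : ∀ z ∈ jField ℚ, e z ∈ jField K' := by
    intro z hz
    induction hz using IntermediateField.adjoin_induction with
    | mem y hy =>
      obtain rfl := Set.mem_singleton_iff.mp hy
      rw [coeffMap_jqModC]; exact mem_adjoin_simple_self _ _
    | algebraMap c =>
      rw [algebraMap_laurentSeries_eq_single, coeffMap_single, ← algebraMap_laurentSeries_eq_single]
      exact IntermediateField.algebraMap_mem _ _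
    | add y y' _ _ h h' => rw [map_add]; exact add_mem h h'
    | inv y _ h => rw [map_inv₀]; exact inv_mem h
    | mul y y' _ _ h h' => rw [map_mul]; exact mul_mem h h'
  let f : jField ℚ →+* jField K' :=
    (e.comp (algebraMap (jField ℚ) (LaurentSeries ℚ))).codRestrict
      (jField K').toSubfield (fun z => hjQ _ z.2)
  have hmg : ∀ i, e (m.coeff i : LaurentSeries ℚ) = g.coeff i := by
    set G : (jField K')[X] := ∑ i ∈ Finset.range (g.natDegree + 1),
      Polynomial.C (⟨_, hmem i⟩ : jField K') * Polynomial.X ^ i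
    have hGmap : G.map (algebraMap (jField K') (LaurentSeries K')) = g := by
      conv_rhs => rw [g.as_sum_range_C_mul_X_pow]
      simp only [G, Polynomial.map_sum, Polynomial.map_mul, Polynomial.map_C, Polynomial.map_pow,
        Polynomial.map_X]
      rfl
    have hN' : (N : K') ≠ 0 := Nat.cast_ne_zero.mpr (NeZero.ne N)
    have hGmon : G.Monic := Polynomial.monic_of_injective
      (algebraMap (jField K') (LaurentSeries K')).injective (hGmap ▸ hgmon)
    have hGdeg : G.natDegree = dedekindPsi N := by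
      rw [← Polynomial.natDegree_map (algebraMap (jField K') (LaurentSeries K')), hGmap, hgdeg]
    have heq : m.map f = G := by
      refine monic_eq_of_natDegree_min ((minpoly.monic (isIntegral_jqN N hN)).map f) hGmon
        (x := jqNModC K' N) ?_ ?_ ?_ ?_
      · rw [aeval_def, eval₂_map, ← coeffMap_jqN N (algebraMap ℚ K'),
          show (algebraMap (jField K') (LaurentSeries K')).comp f =
            e.comp (algebraMap (jField ℚ) (LaurentSeries ℚ)) from rfl,
          ← hom_eval₂, ← aeval_def, minpoly.aeval, map_zero]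
      · rw [← eval_map_algebraMap, hGmap, hg0]
      · rw [Polynomial.natDegree_map, natDegree_minpoly_jqN N hN, natDegree_minpoly_jqN N hN']
      · rw [hGdeg, natDegree_minpoly_jqN N hN']
    intro i
    rw [← hGmap, ← heq, Polynomial.coeff_map, Polynomial.coeff_map]
    rfl
  have hcoef : ∀ i, ∃ P : ℤ[X], evalAtJ P = (m.coeff i : LaurentSeries ℚ) := by
    intro i
    have hmem : (m.coeff i : LaurentSeries ℚ) ∈ Algebra.adjoin ℚ {jqModC ℚ} := by
      rw [← retract_coeffMap φ hφ (m.coeff i : LaurentSeries ℚ)]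
      refine retract_mem_adjoin φ hφ ?_
      rw [Set.image_singleton, coeffMap_jqModC, show coeffMap (algebraMap ℚ K') _ = g.coeff i from hmg i]
      exact hgc i
    rw [Algebra.adjoin_singleton_eq_range_aeval] at hmem
    obtain ⟨P, hP⟩ := hmem
    change Polynomial.aeval jq P = _ at hP
    obtain ⟨P₀, hP₀⟩ := exists_int_poly P (fun k => by
      have h := hgint i k
      rw [← hmg i, coeffMap_coeff,
        isIntegral_algebraMap_iff (algebraMap ℚ K').injective] at h
      obtain ⟨a, ha⟩ := IsIntegrallyClosed.isIntegral_iff.mp h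
      exact ⟨a, by rw [hP, ← ha]; simp⟩)
    refine ⟨P₀, ?_⟩
    rw [← hP, ← hP₀]
    show Polynomial.aeval jq P₀ = _
    rw [aeval_def, aeval_def, eval₂_map]
    congr 1
    exact RingHom.ext_int _ _
  choose P hP using hcoef
  set ψ := dedekindPsi N
  refine ⟨Polynomial.X ^ ψ + ∑ i ∈ Finset.range ψ, Polynomial.C (P i) * Polynomial.X ^ i, ?_, ?_, ?_⟩
  · refine monic_X_pow_add (lt_of_le_of_lt (degree_sum_le _ _) ?_)
    refine (Finset.sup_lt_iff (WithBot.bot_lt_coe _)).mpr fun i hi => ?_
    exact lt_of_le_of_lt (degree_C_mul_X_pow_le _ _) (WithBot.coe_lt_coe.mpr (Finset.mem_range.mp hi))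
  · refine Polynomial.natDegree_eq_of_degree_eq_some ?_
    rw [degree_add_eq_left_of_degree_lt, degree_X_pow]
    rw [degree_X_pow]
    refine lt_of_le_of_lt (degree_sum_le _ _) ?_
    refine (Finset.sup_lt_iff (WithBot.bot_lt_coe _)).mpr fun i hi => ?_
    exact lt_of_le_of_lt (degree_C_mul_X_pow_le _ _) (WithBot.coe_lt_coe.mpr (Finset.mem_range.mp hi))
  · have h := minpoly.aeval (jField ℚ) (jqNModC ℚ N)
    rw [aeval_eq_sum_range (p := minpoly (jField ℚ) (jqNModC ℚ N)),
      show (minpoly (jField ℚ) (jqNModC ℚ N)).natDegree = ψ from natDegree_minpoly_jqN N hN,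
      Finset.sum_range_succ] at h
    have hlead : (minpoly (jField ℚ) (jqNModC ℚ N)).coeff ψ = 1 := by
      rw [show ψ = (minpoly (jField ℚ) (jqNModC ℚ N)).natDegree from
        (natDegree_minpoly_jqN N hN).symm]
      exact (minpoly.monic (isIntegral_jqN N hN)).coeff_natDegree
    rw [hlead, one_smul] at h
    rw [eval₂_add, eval₂_X_pow, eval₂_finset_sum, ← jqNModC_rat, add_comm, ← h]
    congr 1
    refine Finset.sum_congr rfl fun i _ => ?_
    rw [eval₂_mul, eval₂_C, eval₂_X_pow, hP, Algebra.smul_def]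
    rfl

/-- `Φ_N` with its defining properties. -/
def modularPolynomialData (N : ℕ) [NeZero N] : ModularPolynomialData N where
  Φ := (exists_modularPolynomial N).choose
  monic := (exists_modularPolynomial N).choose_spec.1
  natDegree_eq := (exists_modularPolynomial N).choose_spec.2.1
  eval_eq_zero := (exists_modularPolynomial N).choose_spec.2.2

theorem coeffMap_comp_evalAt_jq {R S : Type*} [CommRing R] [CommRing S] (f : R →+* S) :
    (coeffMap f).comp (evalAt (jqModC R)) = evalAt (jqModC S) := by
  rw [comp_evalAt, coeffMap_jqModC]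

/-- `Φ_N(j, j_N) = 0` over every commutative ring. -/
theorem eval_modularPolynomial (R : Type*) [CommRing R] {N : ℕ} [NeZero N]
    (data : ModularPolynomialData N) :
    (data.Φ.map (evalAt (jqModC R))).eval (jqNModC R N) = 0 := by
  have hZ : (data.Φ.map (evalAt (jqModC ℤ))).eval (jqNModC ℤ N) = 0 := by
    apply coeffMap_injective (Int.castRingHom ℚ) (RingHom.injective_int _)
    rw [map_zero, ← eval_map_apply, Polynomial.map_map, coeffMap_comp_evalAt_jq, coeffMap_jqNModC,
      eval_map]
    have : evalAt (jqModC ℚ) = evalAtJ := Polynomial.ringHom_ext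
      (fun a => by simp [evalAt_apply, evalAtJ]) (by simp [evalAt_apply, jqModC_rat])
    rw [this, jqNModC_rat]
    exact data.eval_eq_zero
  have h := congrArg (coeffMap (Int.castRingHom R)) hZ
  rwa [map_zero, ← eval_map_apply, Polynomial.map_map, coeffMap_comp_evalAt_jq,
    coeffMap_jqNModC] at h

section Field

variable {K : Type*} [Field K] {N : ℕ} [NeZero N]

/-- `j` as an element of `K(j)`. -/
def jElt (K : Type*) [Field K] : jField K := ⟨jqModC K, mem_adjoin_simple_self K _⟩

/-- `Φ_N` reduces to the minimal polynomial of `j_N` over `K(j)`. -/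
theorem minpoly_jqN (hN : (N : K) ≠ 0) (data : ModularPolynomialData N) :
    minpoly (jField K) (jqNModC K N) = data.Φ.map (evalAt (jElt K)) := by
  refine (Polynomial.eq_of_monic_of_dvd_of_natDegree_le (minpoly.monic (isIntegral_jqN N hN))
    (data.monic.map _) (minpoly.dvd _ _ ?_) ?_).symm
  · rw [← eval_map_algebraMap, Polynomial.map_map, comp_evalAt]
    exact eval_modularPolynomial K data
  · rw [data.monic.natDegree_map, data.natDegree_eq, natDegree_minpoly_jqN N hN]

/-- The roots of `Φ_N(j, ·)` in `K((q^{1/n}))`: the series of `j((aτ + b)/d)`. -/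
theorem map_evalAt_modularPolynomial {n : ℕ} [NeZero n] {ζ : Kˣ} (hζ : IsPrimitiveRoot ζ n)
    (hNn : N ∣ n) (data : ModularPolynomialData N) :
    data.Φ.map (evalAt (jAt (1 : Kˣ) n)) =
      ∏ t ∈ primTriples N, (Polynomial.X - Polynomial.C (tSer ζ n t)) := by
  have hG := good_of_dvd hζ N hNn
  let J : baseField K n := ⟨jAt (1 : Kˣ) n, mem_adjoin_simple_self K _⟩
  have h0 : (data.Φ.map (evalAt (jAt (1 : Kˣ) n))).eval (xS K n N) = 0 := by
    have h := congrArg (substAlg (1 : Kˣ) n).toRingHom (eval_modularPolynomial K data)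
    rw [map_zero, ← eval_map_apply, Polynomial.map_map, comp_evalAt] at h
    rwa [AlgHom.toRingHom_eq_coe, RingHom.coe_coe, scale_jq,
      show substAlg (1 : Kˣ) n (jqNModC K N) = xS K n N from scale_jqN n N] at h
  have heq : minpoly (baseField K n) (xS K n N) = data.Φ.map (evalAt J) := by
    refine (Polynomial.eq_of_monic_of_dvd_of_natDegree_le (minpoly.monic hG.isIntegral)
      (data.monic.map _) (minpoly.dvd _ _ ?_) ?_).symm
    · rw [← eval_map_algebraMap, Polynomial.map_map, comp_evalAt]
      exact h0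
    · rw [data.monic.natDegree_map, data.natDegree_eq, hG.natDegree]
  rw [← hG.min, heq, Polynomial.map_map, comp_evalAt]
  rfl

end Field

end FLTAgent.ModEq
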