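import Fermat.Agent.ModEq.Exp

/-!
# The expansions of `Δ`, `E₄` and `j`
-/

set_option autoImplicit false

noncomputable section

open HahnSeries ModularCurve Filter Topology UpperHalfPlane Function
open scoped Real MatrixGroups Manifold PowerSeries.WithPiTopology Nat

set_option maxHeartbeats 400000

namespace FLTAgent.ModEq

theorem HasExp.of_analytic {n : ℕ} [NeZero n] {f : ℍ → ℂ} {Φ : ℂ → ℂ} (hΦ : AnalyticAt ℂ Φ 0)
    (h : ∀ᶠ τ in atImInfty, f τ = Φ (qp n τ)) :
    HasExp n f (HahnSeries.ofPowerSeries ℤ ℂ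
      (PowerSeries.mk fun k => iteratedDeriv k Φ 0 / (k ! : ℂ))) := by
  refine HasExp.of_nat ?_
  have hp := hΦ.hasFPowerSeriesAt
  have hev := (hp.eventually_hasSum)
  filter_upwards [(qp_tendsto n).eventually hev, h] with τ h1 h2
  rw [h2]
  rw [zero_add] at h1
  refine h1.congr_fun fun k => ?_
  simp [FormalMultilinearSeries.ofScalars_apply_eq, mul_comm]

theorem HasExp.inv {n : ℕ} [NeZero n] {f : ℍ → ℂ} {P Q : PowerSeries ℂ}
    (hf : HasExp n f (HahnSeries.ofPowerSeries ℤ ℂ P)) (hPQ : P * Q = 1) :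
    HasExp n (fun τ => (f τ)⁻¹) (HahnSeries.ofPowerSeries ℤ ℂ Q) := by
  obtain ⟨Φ, hΦ, hev⟩ := hf.exists_analytic
  have hP0 : PowerSeries.coeff 0 P ≠ 0 := by
    intro h0
    have := congrArg (PowerSeries.constantCoeff (R := ℂ)) hPQ
    rw [map_mul, ← PowerSeries.coeff_zero_eq_constantCoeff_apply, h0] at this
    simp at this
  have hΦ0 : Φ 0 = PowerSeries.coeff 0 P := by
    rw [← hΦ.coeff_zero (fun _ => (0 : ℂ))]
    simp [FormalMultilinearSeries.ofScalars_apply_eq]
  have han : AnalyticAt ℂ (fun q => (Φ q)⁻¹) 0 := hΦ.analyticAt.inv (hΦ0 ▸ hP0)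
  have hg := HasExp.of_analytic (n := n) (f := fun τ => (f τ)⁻¹) han
    (hev.mono fun τ h => by rw [h])
  set Q' := PowerSeries.mk fun k => iteratedDeriv k (fun q => (Φ q)⁻¹) 0 / (k ! : ℂ)
  have hne : ∀ᶠ τ in atImInfty, f τ ≠ 0 := by
    have : Tendsto (fun τ => Φ (qp n τ)) atImInfty (𝓝 (Φ 0)) :=
      hΦ.continuousAt.tendsto.comp (qp_tendsto n)
    filter_upwards [this.eventually (isOpen_ne.mem_nhds (hΦ0 ▸ hP0)), hev] with τ h1 h2
    rwa [h2]
  have hone : HasExp n 1 (HahnSeries.ofPowerSeries ℤ ℂ P * HahnSeries.ofPowerSeries ℤ ℂ Q') :=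
    (hf.mul hg).congr (hne.mono fun τ h => by simp [mul_inv_cancel₀ h])
  have := hone.unique HasExp.one
  rw [← map_mul, ← map_one (HahnSeries.ofPowerSeries ℤ ℂ)] at this
  have hQ' : Q' = Q := by
    have h1 := HahnSeries.ofPowerSeries_injective this
    calc Q' = (P * Q) * Q' := by rw [hPQ, one_mul]
      _ = Q * (P * Q') := by ring
      _ = Q := by rw [h1, mul_one]
  rwa [hQ'] at hg

theorem iteratedDeriv_poly_eval (P : Polynomial ℂ) (k : ℕ) :
    iteratedDeriv k (fun z => P.eval z) = fun z => (Polynomial.derivative^[k] P).eval z := by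
  induction k with
  | zero => simp
  | succ k ih =>
    rw [iteratedDeriv_succ, ih, Function.iterate_succ_apply']
    ext z
    exact Polynomial.deriv _

theorem tendstoLocallyUniformlyOn_iteratedDeriv {U : Set ℂ} (hU : IsOpen U) {F : ℕ → ℂ → ℂ}
    {f : ℂ → ℂ} (hf : TendstoLocallyUniformlyOn F f atTop U)
    (hF : ∀ i, DifferentiableOn ℂ (F i) U) (k : ℕ) :
    TendstoLocallyUniformlyOn (fun i => iteratedDeriv k (F i)) (iteratedDeriv k f) atTop U := by
  induction k with
  | zero => simpa using hf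
  | succ k ih =>
    simp only [iteratedDeriv_succ]
    refine ih.deriv (Eventually.of_forall fun i => ?_) hU
    have : ContDiffOn ℂ (k + 1 : ℕ) (F i) U := (hF i).contDiffOn hU
    intro z hz
    refine (DifferentiableAt.differentiableWithinAt ?_)
    have h : AnalyticAt ℂ (F i) z := (hF i).analyticAt (hU.mem_nhds hz)
    rw [iteratedDeriv_eq_iterate]
    exact (AnalyticAt.iterated_deriv h k).differentiableAt

/-- The partial products of the eta product. -/
def etaPartial (R : Type*) [CommRing R] (N : ℕ) : Polynomial R :=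
  ∏ i ∈ Finset.range N, (1 - Polynomial.X ^ (i + 1))

theorem etaPartial_coe (R : Type*) [CommRing R] (N : ℕ) :
    (etaPartial R N : PowerSeries R) =
      ∏ i ∈ Finset.range N, (1 - PowerSeries.X ^ (i + 1)) := by
  rw [etaPartial, ← Polynomial.coeToPowerSeries.ringHom_apply, map_prod]
  simp

theorem etaPartial_map (R : Type*) [CommRing R] (N : ℕ) :
    (etaPartial ℤ N).map (Int.castRingHom R) = etaPartial R N := by
  simp [etaPartial, Polynomial.map_prod]

/-- The eta product as an analytic function of `q`. -/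
def etaFun (q : ℂ) : ℂ := ∏' i : ℕ, (1 - q ^ (i + 1))

theorem etaFun_taylor (k : ℕ) :
    iteratedDeriv k etaFun 0 / (k ! : ℂ) = (PowerSeries.coeff k etaProd : ℤ) := by
  have hU : TendstoLocallyUniformlyOn (fun N q => ∏ i ∈ Finset.range N, (1 - q ^ (i + 1)))
      etaFun atTop (Metric.ball (0 : ℂ) 1) := by
    intro u hu x hx
    obtain ⟨t, ht, hev⟩ :=
      ModularForm.multipliableLocallyUniformlyOn_one_sub_pow.hasProdLocallyUniformlyOn u hu x hx
    exact ⟨t, ht, tendsto_finset_range.eventually hev⟩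
  have hd := (tendstoLocallyUniformlyOn_iteratedDeriv Metric.isOpen_ball hU (fun N => ?_) k)
    |>.tendsto_at (Metric.mem_ball_self one_pos)
  swap
  · exact DifferentiableOn.fun_finsetProd (fun i _ => by fun_prop)
  have heq : ∀ N, iteratedDeriv k (fun q : ℂ => ∏ i ∈ Finset.range N, (1 - q ^ (i + 1))) 0 =
      (k ! : ℂ) * ((PowerSeries.coeff k (etaPartial ℤ N : PowerSeries ℤ) : ℤ) : ℂ) := by
    intro N
    have : (fun q : ℂ => ∏ i ∈ Finset.range N, (1 - q ^ (i + 1))) =
        fun q => (etaPartial ℂ N).eval q := by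
      ext q
      simp [etaPartial, Polynomial.eval_prod]
    rw [this, iteratedDeriv_poly_eval]
    simp only
    rw [← Polynomial.coeff_zero_eq_eval_zero, Polynomial.coeff_iterate_derivative,
      Polynomial.coeff_coe, ← etaPartial_map, Polynomial.coeff_map]
    simp [Nat.descFactorial_self, nsmul_eq_mul]
  have hps : Tendsto (fun N => ((PowerSeries.coeff k (etaPartial ℤ N : PowerSeries ℤ) : ℤ) : ℂ))
      atTop (𝓝 ((PowerSeries.coeff k etaProd : ℤ) : ℂ)) := by
    simp only [etaPartial_coe]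
    have h1 := (PowerSeries.WithPiTopology.multipliable_one_sub_X_pow ℤ).hasProd.tendsto_prod_nat
    have h2 := ((PowerSeries.WithPiTopology.continuous_coeff ℤ k).tendsto _).comp h1
    exact (continuous_of_discreteTopology (f := fun z : ℤ => (z : ℂ))).tendsto _ |>.comp h2
  have hlim : Tendsto (fun N => iteratedDeriv k
      (fun q : ℂ => ∏ i ∈ Finset.range N, (1 - q ^ (i + 1))) 0)
      atTop (𝓝 ((k ! : ℂ) * ((PowerSeries.coeff k etaProd : ℤ) : ℂ))) := by
    simp only [heq]
    exact hps.const_mul _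
  have hk : (k ! : ℂ) ≠ 0 := by exact_mod_cast k.factorial_ne_zero
  rw [tendsto_nhds_unique hd hlim]
  field_simp

theorem hasExp_etaFun {n : ℕ} [NeZero n] :
    HasExp n (fun τ => etaFun (qp n τ))
      (HahnSeries.ofPowerSeries ℤ ℂ (etaProd.map (Int.castRingHom ℂ))) := by
  have han : AnalyticAt ℂ etaFun 0 :=
    ModularForm.differentiableOn_tprod_one_sub_pow.analyticAt
      (Metric.isOpen_ball.mem_nhds (Metric.mem_ball_self one_pos))
  have h := HasExp.of_analytic (n := n) (f := fun τ => etaFun (qp n τ)) han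
    (Eventually.of_forall fun _ => rfl)
  convert h using 3
  ext k
  simp [etaFun_taylor]

theorem HasExp.pow {n : ℕ} {f : ℍ → ℂ} {F : LaurentSeries ℂ} (hf : HasExp n f F) (k : ℕ) :
    HasExp n (f ^ k) (F ^ k) := by
  induction k with
  | zero => simpa using HasExp.one
  | succ k ih => rw [pow_succ, pow_succ]; exact ih.mul hf

theorem hasExp_etaFun_pow {n : ℕ} [NeZero n] (k : ℕ) :
    HasExp n (fun τ => etaFun (qp n τ) ^ k)
      (HahnSeries.ofPowerSeries ℤ ℂ ((etaProd ^ k).map (Int.castRingHom ℂ))) := by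
  induction k with
  | zero => simp only [pow_zero, map_one]; exact HasExp.one
  | succ k ih =>
    simp only [pow_succ, map_mul]
    exact ih.mul hasExp_etaFun

/-- `Δ(q)` as a Laurent series. -/
def deltaSer (R : Type*) [CommRing R] : LaurentSeries R :=
  HahnSeries.single (1 : ℤ) 1 *
    HahnSeries.ofPowerSeries ℤ R (dedekindEtaUnit.map (Int.castRingHom R))

/-- `1/Δ(q)` as a Laurent series. -/
def deltaInvSer (R : Type*) [CommRing R] : LaurentSeries R :=
  HahnSeries.single (-1 : ℤ) 1 *
    HahnSeries.ofPowerSeries ℤ R (dedekindEtaUnitInv.map (Int.castRingHom R))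

theorem deltaSer_mul_inv (R : Type*) [CommRing R] : deltaSer R * deltaInvSer R = 1 := by
  rw [deltaSer, deltaInvSer, mul_mul_mul_comm, HahnSeries.single_mul_single, ← map_mul, ← map_mul,
    dedekindEtaUnit_mul_inv]
  simp

theorem coeffMap_deltaSer {R S : Type*} [CommRing R] [CommRing S] (f : R →+* S) :
    coeffMap f (deltaSer R) = deltaSer S := by
  rw [deltaSer, deltaSer, map_mul, coeffMap_single, map_one, coeffMap_ofPowerSeries,
    ← RingHom.comp_apply (PowerSeries.map f), ← PowerSeries.map_comp,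
    RingHom.ext_int (f.comp (Int.castRingHom R)) (Int.castRingHom S)]

theorem coeffMap_deltaInvSer {R S : Type*} [CommRing R] [CommRing S] (f : R →+* S) :
    coeffMap f (deltaInvSer R) = deltaInvSer S := by
  rw [deltaInvSer, deltaInvSer, map_mul, coeffMap_single, map_one, coeffMap_ofPowerSeries,
    ← RingHom.comp_apply (PowerSeries.map f), ← PowerSeries.map_comp,
    RingHom.ext_int (f.comp (Int.castRingHom R)) (Int.castRingHom S)]

theorem qp_one (τ : ℍ) : qp 1 τ = Periodic.qParam 1 τ := by simp [qp]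

theorem discriminant_eq_qp (τ : ℍ) :
    ModularForm.discriminant τ = qp 1 τ * etaFun (qp 1 τ) ^ 24 := by
  rw [ModularForm.discriminant_eq_q_prod, qp_one, etaFun,
    ← (ModularForm.multipliable_one_sub_pow ?_).tprod_pow]
  exact Periodic.norm_qParam_lt_one one_pos τ.im_pos

theorem hasExp_discriminant : HasExp 1 ModularForm.discriminant (deltaSer ℂ) := by
  have h := (hasExp_etaFun_pow (n := 1) 24).mul_single 1
  rw [deltaSer, dedekindEtaUnit]
  refine h.congr (Eventually.of_forall fun τ => ?_)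
  simp [discriminant_eq_qp τ]

theorem hasExp_discriminant_inv :
    HasExp 1 (fun τ => (ModularForm.discriminant τ)⁻¹) (deltaInvSer ℂ) := by
  have h0 := hasExp_etaFun_pow (n := 1) 24
  rw [← dedekindEtaUnit] at h0
  have h1 := h0.inv (Q := dedekindEtaUnitInv.map (Int.castRingHom ℂ)) (by
    rw [← map_mul, dedekindEtaUnit_mul_inv, map_one])
  have h := h1.mul_single (-1)
  rw [deltaInvSer]
  refine h.congr (Eventually.of_forall fun τ => ?_)
  simp [discriminant_eq_qp τ, mul_comm]

theorem hasExp_E4 : HasExp 1 (ModularForm.E₄ : ℍ → ℂ)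
    (HahnSeries.ofPowerSeries ℤ ℂ (eisenstein4.map (Int.castRingHom ℂ))) := by
  refine HasExp.of_nat (Eventually.of_forall fun τ => ?_)
  have h := ModularForm.hasSum_qExpansion (h := 1) ModularForm.E₄ one_pos
    one_mem_strictPeriods_SL τ
  rw [qp_one]
  refine h.congr_fun fun k => ?_
  congr 1
  rw [EisensteinSeries.E_qExpansion_coeff (by norm_num) (by decide), PowerSeries.coeff_map,
    eisenstein4, PowerSeries.coeff_mk]
  rcases eq_or_ne k 0 with rfl | hk
  · simp
  · simp only [if_neg hk, map_mul, map_sum, map_pow]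
    rw [bernoulli_eq_bernoulli'_of_ne_one (by norm_num), bernoulli'_four,
      ArithmeticFunction.sigma_apply]
    push_cast
    simp only [map_natCast, map_ofNat]
    norm_num

/-- The `j`-function `E₄³/Δ`. -/
def jFun (τ : ℍ) : ℂ := ModularForm.E₄ τ ^ 3 * (ModularForm.discriminant τ)⁻¹

theorem hasExp_jFun : HasExp 1 jFun (jqModC ℂ) := by
  have h := (hasExp_E4.pow 3).mul hasExp_discriminant_inv
  have he : (HahnSeries.ofPowerSeries ℤ ℂ (eisenstein4.map (Int.castRingHom ℂ))) ^ 3 *
      deltaInvSer ℂ = jqModC ℂ := by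
    rw [jqModC, jNum, map_mul, map_mul, deltaInvSer, map_pow, map_pow]
    ring
  rw [he] at h
  exact h.congr (Eventually.of_forall fun τ => rfl)

theorem mdiff_discriminant : MDiff (ModularForm.discriminant : ℍ → ℂ) := by
  simpa using CuspForm.discriminant.holo'

theorem mdiff_discriminant_inv : MDiff (fun τ : ℍ => (ModularForm.discriminant τ)⁻¹) := by
  rw [UpperHalfPlane.mdifferentiable_iff]
  exact DifferentiableOn.inv (UpperHalfPlane.mdifferentiable_iff.mp mdiff_discriminant)
    (fun z _ => ModularForm.discriminant_ne_zero _)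

theorem mdiff_jFun : MDiff jFun := by
  have h1 : MDiff (ModularForm.E₄ : ℍ → ℂ) := ModularFormClass.holo ModularForm.E₄
  rw [UpperHalfPlane.mdifferentiable_iff]
  exact ((UpperHalfPlane.mdifferentiable_iff.mp h1).pow 3).mul
    (UpperHalfPlane.mdifferentiable_iff.mp mdiff_discriminant_inv)

theorem jFun_smul (γ : SL(2, ℤ)) (τ : ℍ) : jFun (γ • τ) = jFun τ := by
  have hγ : (γ : GL (Fin 2) ℝ) ∈ 𝒮ℒ := ⟨γ, rfl⟩
  have h4 := SlashInvariantForm.slash_action_eqn' ModularForm.E₄ hγ τ
  have h12 := SlashInvariantForm.slash_action_eqn' CuspForm.discriminant hγ τ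
  simp only [CuspForm.coe_discriminant] at h12
  have hd := UpperHalfPlane.denom_ne_zero (γ : GL (Fin 2) ℝ) τ
  have hD := ModularForm.discriminant_ne_zero τ
  unfold jFun
  rw [ModularGroup.sl_moeb]
  rw [h4, h12]
  simp only [zpow_ofNat]
  generalize hX : ((_ : ℂ) * (τ : ℂ) + _) = X
  have hX0 : X ≠ 0 := hX ▸ hd
  field_simp

end FLTAgent.ModEq
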