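import Fermat.Agent.ModEq.JExp

/-!
# Invariant functions with an integral expansion are integral polynomials in `j`
-/

set_option autoImplicit false

noncomputable section

open HahnSeries ModularCurve Filter Topology UpperHalfPlane Function
open scoped Real MatrixGroups Manifold ModularForm

set_option maxHeartbeats 400000

namespace FLTAgent.ModEq

theorem invariant_of_S_T {g : ℍ → ℂ} (hS : ∀ τ : ℍ, g (ModularGroup.S • τ) = g τ)
    (hT : ∀ τ : ℍ, g (ModularGroup.T • τ) = g τ) (γ : SL(2, ℤ)) (τ : ℍ) : g (γ • τ) = g τ := by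
  have h := SlashInvariantForm.slash_action_generators_SL2Z (f := g) (k := 0)
    (by ext z; rw [ModularForm.SL_slash_apply, neg_zero, zpow_zero, mul_one, hS z])
    (by ext z; rw [ModularForm.SL_slash_apply, neg_zero, zpow_zero, mul_one, hT z]) γ
  have h' := congrFun h τ
  rwa [ModularForm.SL_slash_apply, neg_zero, zpow_zero, mul_one] at h'

/-- An invariant function, holomorphic and bounded at `i∞`, is constant. -/
theorem invariant_bounded_const {g : ℍ → ℂ} (hinv : ∀ (γ : SL(2, ℤ)) (τ : ℍ), g (γ • τ) = g τ)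
    (hhol : MDiff g) (hbdd : IsBoundedAtImInfty g) : ∃ c, g = Function.const _ c := by
  have hsl : ∀ γ : SL(2, ℤ), g ∣[(0 : ℤ)] γ = g := fun γ => by
    ext z; rw [ModularForm.SL_slash_apply, neg_zero, zpow_zero, mul_one, hinv]
  let f : ModularForm 𝒮ℒ 0 :=
    { toFun := g
      slash_action_eq' := fun A hA => by
        obtain ⟨A, rfl⟩ := hA
        exact hsl A
      holo' := hhol
      bdd_at_cusps' := fun {c} hc => by
        rw [Subgroup.IsArithmetic.isCusp_iff_isCusp_SL2Z] at hc
        rw [OnePoint.isBoundedAt_iff_forall_SL2Z hc]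
        intro γ _
        rw [hsl γ]
        exact hbdd }
  exact ModularFormClass.levelOne_weight_zero_const f

theorem qp_mul {n : ℕ} [NeZero n] (l m : ℕ) [NeZero l] [NeZero m] (h : l * m = n) (τ : ℍ) :
    qp l τ = qp n τ ^ m := by
  subst h
  have hl : (l : ℂ) ≠ 0 := by exact_mod_cast NeZero.ne l
  have hm : (m : ℂ) ≠ 0 := by exact_mod_cast NeZero.ne m
  rw [qp, qp, Periodic.qParam, Periodic.qParam, ← Complex.exp_nat_mul]
  congr 1
  push_cast
  field_simp

theorem hasExp_jFun_level (p : ℕ) [NeZero p] : HasExp p jFun (jAt 1 p) := by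
  rw [jAt_eq]
  exact HasExp.comp_affine (φ := id) hasExp_jFun p 1
    (fun τ => by simp [qp_mul 1 p (one_mul p) τ]) tendsto_id

/-- `ℤ[X] → R((t))`, `P ↦ P(j(t^m))`. -/
def evalJ (R : Type*) [CommRing R] (m : ℕ) : Polynomial ℤ →+* LaurentSeries R :=
  Polynomial.eval₂RingHom (HahnSeries.C.comp (Int.castRingHom R)) (jAt 1 m)

theorem evalJ_apply (R : Type*) [CommRing R] (m : ℕ) (P : Polynomial ℤ) :
    evalJ R m P = P.eval₂ (HahnSeries.C.comp (Int.castRingHom R)) (jAt 1 m) := rfl

theorem coeffMap_C {R S : Type*} [CommRing R] [CommRing S] (f : R →+* S) (r : R) :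
    coeffMap f (HahnSeries.C r) = HahnSeries.C (f r) := by
  simp [HahnSeries.C_apply]

theorem coeffMap_comp_evalJ {R S : Type*} [CommRing R] [CommRing S] (f : R →+* S) (m : ℕ) :
    (coeffMap f).comp (evalJ R m) = evalJ S m := by
  refine Polynomial.ringHom_ext (fun a => ?_) ?_
  · simp [evalJ_apply, coeffMap_C]
  · simp [evalJ_apply, coeffMap_jAt]

theorem coeffMap_evalJ {R S : Type*} [CommRing R] [CommRing S] (f : R →+* S) (m : ℕ)
    (P : Polynomial ℤ) : coeffMap f (evalJ R m P) = evalJ S m P :=
  RingHom.congr_fun (coeffMap_comp_evalJ f m) P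

theorem evalJ_injective (R : Type*) [CommRing R] [IsDomain R] [CharZero R] (m : ℕ) [NeZero m] :
    Function.Injective (evalJ R m) :=
  (injective_iff_map_eq_zero _).mpr fun P h =>
    eval_jAt_eq_zero (Int.castRingHom R) (RingHom.injective_int _) P 1 m h

theorem int_poly_of_invariant (p : ℕ) [NeZero p] {g : ℍ → ℂ}
    (hinv : ∀ (γ : SL(2, ℤ)) (τ : ℍ), g (γ • τ) = g τ) (hhol : MDiff g)
    {G : LaurentSeries ℤ} (hg : HasExp p g (coeffMap (Int.castRingHom ℂ) G)) :
    ∃ P : Polynomial ℤ, G = evalJ ℤ p P := by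
  obtain ⟨m, hm⟩ : ∃ m : ℕ, GeOrd G (-(m : ℤ)) := by
    by_cases hG : G = 0
    · exact ⟨0, by rw [hG]; exact geOrd_zero _⟩
    · refine ⟨(-G.order).toNat, fun k hk => HahnSeries.coeff_eq_zero_of_lt_order ?_⟩
      omega
  induction m generalizing g G with
  | zero =>
    simp only [Nat.cast_zero, neg_zero] at hm
    have hord : GeOrd (coeffMap (Int.castRingHom ℂ) G) 0 := fun k hk => by simp [hm k hk]
    obtain ⟨c, hc⟩ := invariant_bounded_const hinv hhol (hg.isBoundedAtImInfty hord)
    have h1 : HasExp p g (HahnSeries.C c) := hc ▸ HasExp.const c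
    have h2 := hg.unique h1
    refine ⟨Polynomial.C (G.coeff 0), ?_⟩
    ext k
    have h3 := congrArg (fun z : LaurentSeries ℂ => z.coeff k) h2
    simp only [evalJ_apply, Polynomial.eval₂_C, RingHom.comp_apply, HahnSeries.C_apply]
    rcases eq_or_ne k 0 with rfl | hk
    · simp
    · rw [HahnSeries.coeff_single_of_ne hk]
      simpa [HahnSeries.C_apply, HahnSeries.coeff_single_of_ne hk] using h3
  | succ m ih =>
    by_cases hp : p ∣ m + 1
    · obtain ⟨l, hl⟩ := hp
      set c := G.coeff (-((m + 1 : ℕ) : ℤ))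
      set G' := G - evalJ ℤ p (Polynomial.C c * Polynomial.X ^ l)
      have hev : evalJ ℤ p (Polynomial.C c * Polynomial.X ^ l) =
          HahnSeries.C c * jAt 1 p ^ l := by
        simp only [map_mul, map_pow, evalJ_apply, Polynomial.eval₂_C, Polynomial.eval₂_X,
          RingHom.comp_apply]
        simp
      have hg' : HasExp p (g + -((fun _ : ℍ => (c : ℂ)) * jFun ^ l))
          (coeffMap (Int.castRingHom ℂ) G') := by
        have h := hg.add (((HasExp.const (c : ℂ)).mul ((hasExp_jFun_level p).pow l)).neg)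
        convert h using 1
        simp only [G', hev]
        rw [map_sub, map_mul, map_pow, coeffMap_C, coeffMap_jAt]
        simp [sub_eq_add_neg]
      have hhol' : MDiff (g + -((fun _ : ℍ => (c : ℂ)) * jFun ^ l)) := by
        rw [UpperHalfPlane.mdifferentiable_iff]
        exact (UpperHalfPlane.mdifferentiable_iff.mp hhol).add
          (((differentiableOn_const _).mul
            ((UpperHalfPlane.mdifferentiable_iff.mp mdiff_jFun).pow l)).neg)
      have hinv' : ∀ (γ : SL(2, ℤ)) (τ : ℍ), (g + -((fun _ : ℍ => (c : ℂ)) * jFun ^ l)) (γ • τ) =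
          (g + -((fun _ : ℍ => (c : ℂ)) * jFun ^ l)) τ := fun γ τ => by
        simp only [Pi.add_apply, Pi.neg_apply, Pi.mul_apply, Pi.pow_apply, hinv γ τ, jFun_smul γ τ]
      have hm' : GeOrd G' (-(m : ℤ)) := by
        intro k hk
        simp only [G', hev, HahnSeries.coeff_sub]
        have hlm : ((m + 1 : ℕ) : ℤ) = (l : ℤ) * p := by rw [hl]; push_cast; ring
        have hC := (geOrd_C c).mul (geOrd_jAt_pow (1 : ℤˣ) p l)
        rcases lt_or_eq_of_le (show k ≤ -((m + 1 : ℕ) : ℤ) by push_cast; omega) with h | h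
        · rw [hm k h, hC k (by omega)]
          simp
        · have h' : k = 0 + -((l : ℤ) * p) := by omega
          conv_lhs => arg 2; rw [h']
          rw [(geOrd_C c).coeff_mul_add (geOrd_jAt_pow (1 : ℤˣ) p l), jAt_pow_coeff,
            HahnSeries.C_apply, HahnSeries.coeff_single_same]
          simp [c, h]
      obtain ⟨P, hP⟩ := ih hinv' hhol' hg' hm'
      refine ⟨P + Polynomial.C c * Polynomial.X ^ l, ?_⟩
      rw [map_add, ← hP]
      simp [G']
    · refine ih hinv hhol hg fun k hk => ?_
      rcases lt_or_eq_of_le (show k ≤ -((m + 1 : ℕ) : ℤ) by push_cast; omega) with h | h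
      · exact hm k h
      · set ζ : ℂˣ := Units.mk0 (Complex.exp (2 * π * Complex.I / p)) (Complex.exp_ne_zero _)
        have hq : ∀ τ : ℍ, qp p (ModularGroup.T • τ) = (ζ : ℂ) * qp p τ ^ 1 := by
          intro τ
          rw [qp, qp, Periodic.qParam, Periodic.qParam, pow_one, UpperHalfPlane.modular_T_smul,
            Units.val_mk0, ← Complex.exp_add]
          congr 1
          simp only [UpperHalfPlane.coe_vadd]
          push_cast
          ring
        have hT : Tendsto (fun τ : ℍ => ModularGroup.T • τ) atImInfty atImInfty := by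
          rw [atImInfty, tendsto_comap_iff]
          refine tendsto_comap.congr fun τ => ?_
          rw [Function.comp_apply, UpperHalfPlane.modular_T_smul, UpperHalfPlane.vadd_im]
        have h2 := hg.comp_affine 1 ζ _ hq hT
        have h3 : g ∘ (fun τ : ℍ => ModularGroup.T • τ) = g := funext fun τ => hinv _ τ
        rw [h3] at h2
        have h4 := congrArg (fun z : LaurentSeries ℂ => z.coeff k) (hg.unique h2)
        have h5 := substHom_coeff_mul ζ 1 (coeffMap (Int.castRingHom ℂ) G) k
        rw [Nat.cast_one, one_mul] at h5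
        simp only [h5, coeffMap_coeff, Units.val_zpow_eq_zpow_val, eq_intCast] at h4
        have h6 : ((ζ : ℂ) ^ k - 1) * (G.coeff k : ℂ) = 0 := by linear_combination -h4
        rcases mul_eq_zero.mp h6 with h7 | h7
        · exfalso
          have hprim := Complex.isPrimitiveRoot_exp p (NeZero.ne p)
          have h8 : (ζ : ℂ) ^ k = 1 := sub_eq_zero.mp h7
          rw [Units.val_mk0, hprim.zpow_eq_one_iff_dvd, h, dvd_neg] at h8
          exact hp (Int.natCast_dvd_natCast.mp h8)
        · exact_mod_cast h7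

end FLTAgent.ModEq
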