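import Fermat.Agent.ModEq.Poly
import Fermat.Prelude.Def_ModularCurve_ArithmeticGalois

/-!
# The function field over `ℚ̄`
-/

set_option autoImplicit false

noncomputable section

open HahnSeries ModularCurve Polynomial IntermediateField

namespace FLTAgent.ModEq

theorem modularFunctionFieldBar_eq (N : ℕ) [NeZero N] :
    modularFunctionFieldBar N = modularFunctionFieldC (AlgebraicClosure ℚ) N := by
  set L := AlgebraicClosure ℚ
  have hN : (N : L) ≠ 0 := Nat.cast_ne_zero.mpr (NeZero.ne N)
  apply le_antisymm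
  · unfold modularFunctionFieldBar laurentBaseChange
    rw [adjoin_le_iff]
    rintro _ ⟨z, hz, rfl⟩
    rw [modularFunctionFieldFull_eq] at hz
    induction hz using IntermediateField.adjoin_induction with
    | mem y hy =>
      rcases hy with rfl | rfl
      · rw [coeffEmb, ← jqModC_rat, coeffMap_jqModC]; exact jqModC_mem L N
      · rw [coeffEmb, ← jqModC_rat, coeffMap_qExpand, coeffMap_jqModC]; exact jqNModC_mem L N
    | algebraMap c =>
      rw [algebraMap_laurentSeries_eq_single, coeffEmb, coeffMap_single,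
        ← algebraMap_laurentSeries_eq_single]
      exact IntermediateField.algebraMap_mem _ _
    | add y y' _ _ h h' => rw [map_add]; exact add_mem h h'
    | inv y _ h => rw [map_inv₀]; exact inv_mem h
    | mul y y' _ _ h h' => rw [map_mul]; exact mul_mem h h'
  · rw [modularFunctionFieldC, adjoin_le_iff]
    rintro x (rfl | rfl)
    · rw [← coeffMap_jqModC (algebraMap ℚ L), jqModC_rat]
      exact coeffEmb_mem_laurentBaseChange L (modularFunctionField_le_full N (jq_mem N))
    · rw [← coeffMap_jqNModC (algebraMap ℚ L), jqNModC_rat]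
      exact coeffEmb_mem_laurentBaseChange L (modularFunctionField_le_full N (jqN_mem N))

/-- `[ℚ̄(j, j_N) : ℚ̄(j)] = ψ(N)`. -/
theorem finrank_modularFunctionFieldBar (N : ℕ) [NeZero N] :
    Module.finrank (jField (AlgebraicClosure ℚ))
      (jField (AlgebraicClosure ℚ))⟮jqNModC (AlgebraicClosure ℚ) N⟯ = dedekindPsi N :=
  finrank_jqN N (Nat.cast_ne_zero.mpr (NeZero.ne N))

theorem finrank_modularFunctionField (N : ℕ) [NeZero N] :
    Module.finrank ℚ⟮jq⟯ ℚ⟮jq⟯⟮qExpand ℚ N jq⟯ = dedekindPsi N :=
  finrank_jqN (K := ℚ) N (Nat.cast_ne_zero.mpr (NeZero.ne N))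

end FLTAgent.ModEq
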