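import Fermat.Agent.ModEq.Step

/-!
# Descent of the coefficient field
-/

set_option autoImplicit false

noncomputable section

open HahnSeries ModularCurve Polynomial IntermediateField

namespace FLTAgent.ModEq

variable {K K' : Type*} [Field K] [Field K'] [Algebra K K']

/-- A `K`-linear retraction `K' → K`. -/
theorem exists_retraction : ∃ φ : K' →ₗ[K] K, φ 1 = 1 := by
  obtain ⟨φ, hφ⟩ := (Algebra.linearMap K K').exists_leftInverse_of_injective
    (LinearMap.ker_eq_bot.mpr (algebraMap K K').injective)
  exact ⟨φ, by simpa using LinearMap.congr_fun hφ 1⟩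

/-- The retraction applied coefficientwise. -/
def retract (φ : K' →ₗ[K] K) : LaurentSeries K' →+ LaurentSeries K where
  toFun f := f.map φ
  map_zero' := by ext; simp
  map_add' f g := by ext; simp

@[simp] theorem retract_coeff (φ : K' →ₗ[K] K) (f : LaurentSeries K') (k : ℤ) :
    (retract φ f).coeff k = φ (f.coeff k) := rfl

theorem retract_coeffMap_mul (φ : K' →ₗ[K] K) (f : LaurentSeries K) (g : LaurentSeries K') :
    retract φ (coeffMap (algebraMap K K') f * g) = f * retract φ g := by
  ext k
  have hs : (retract φ g).support ⊆ g.support := fun i hi h0 => hi (by simp [h0])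
  have hsup : (coeffMap (algebraMap K K') f).support = f.support := by
    ext i; simp
  rw [retract_coeff, HahnSeries.coeff_mul, map_sum, coeff_mul_right' g.isPWO_support hs]
  refine Finset.sum_congr ?_ fun x _ => ?_
  · ext x
    simp [Finset.mem_antidiagonal, hsup]
  · rw [coeffMap_coeff, ← Algebra.smul_def, map_smul, smul_eq_mul, retract_coeff]

theorem retract_coeffMap (φ : K' →ₗ[K] K) (hφ : φ 1 = 1) (f : LaurentSeries K) :
    retract φ (coeffMap (algebraMap K K') f) = f := by
  ext k
  simp [Algebra.algebraMap_eq_smul_one, hφ]

theorem retract_mem_adjoin (φ : K' →ₗ[K] K) (hφ : φ 1 = 1) {S : Set (LaurentSeries K)}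
    {a : LaurentSeries K'}
    (ha : a ∈ Algebra.adjoin K' (coeffMap (algebraMap K K') '' S)) :
    retract φ a ∈ Algebra.adjoin K S := by
  rw [← Subalgebra.mem_toSubmodule, Algebra.adjoin_eq_span] at ha
  suffices ∀ c : K', retract φ (algebraMap K' (LaurentSeries K') c * a) ∈ Algebra.adjoin K S by
    simpa using this 1
  induction ha using Submodule.span_induction with
  | mem x hx =>
    intro c
    have hx' : x ∈ (Submonoid.closure S).map (coeffMap (algebraMap K K')).toMonoidHom := by
      rw [MonoidHom.map_mclosure]; exact hx
    obtain ⟨y, hy, rfl⟩ := hx'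
    rw [RingHom.toMonoidHom_eq_coe, MonoidHom.coe_coe, mul_comm,
      retract_coeffMap_mul, algebraMap_laurentSeries_eq_single]
    refine mul_mem ?_ ?_
    · exact Submonoid.closure_le (S := (Algebra.adjoin K S).toSubmonoid).mpr
        Algebra.subset_adjoin hy
    · have : retract φ (HahnSeries.single 0 c) = algebraMap K _ (φ c) := by
        ext k
        rw [algebraMap_laurentSeries_eq_single]
        rcases eq_or_ne k 0 with rfl | hk
        · simp
        · simp [HahnSeries.coeff_single_of_ne hk]
      rw [this]
      exact Subalgebra.algebraMap_mem _ _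
  | zero => intro c; simp [zero_mem]
  | add x y _ _ hx hy => intro c; rw [mul_add, map_add]; exact add_mem (hx c) (hy c)
  | smul d x _ hx =>
    intro c
    rw [Algebra.smul_def, ← mul_assoc, ← map_mul]
    exact hx _

/-- Membership in a generated field descends along an extension of the coefficient field. -/
theorem mem_adjoin_of_coeffMap_mem {S : Set (LaurentSeries K)} {x : LaurentSeries K}
    (hx : coeffMap (algebraMap K K') x ∈
      IntermediateField.adjoin K' (coeffMap (algebraMap K K') '' S)) :
    x ∈ IntermediateField.adjoin K S := by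
  obtain ⟨φ, hφ⟩ := exists_retraction (K := K) (K' := K')
  rcases eq_or_ne x 0 with rfl | hx0
  · exact zero_mem _
  obtain ⟨a, ha, b, hb, hab⟩ := IntermediateField.mem_adjoin_iff_div.mp hx
  have hb0 : b ≠ 0 := by
    rintro rfl
    rw [div_zero, ← map_zero (coeffMap (algebraMap K K'))] at hab
    exact hx0 (coeffMap_injective _ (algebraMap K K').injective hab)
  obtain ⟨k, hk⟩ : ∃ k, b.coeff k ≠ 0 := by
    by_contra h
    push Not at h
    exact hb0 (HahnSeries.ext (funext h))
  set c := algebraMap K' (LaurentSeries K') (b.coeff k)⁻¹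
  have hab' : coeffMap (algebraMap K K') x * (c * b) = c * a := by
    rw [hab, mul_left_comm, div_mul_cancel₀ _ hb0]
  have h := congrArg (retract φ) hab'
  rw [retract_coeffMap_mul] at h
  have h1 : retract φ (c * a) ∈ IntermediateField.adjoin K S := algebra_adjoin_le_adjoin K S
    (retract_mem_adjoin φ hφ (mul_mem (Subalgebra.algebraMap_mem _ _) ha))
  have h2 : retract φ (c * b) ∈ IntermediateField.adjoin K S := algebra_adjoin_le_adjoin K S
    (retract_mem_adjoin φ hφ (mul_mem (Subalgebra.algebraMap_mem _ _) hb))
  have hne : retract φ (c * b) ≠ 0 := by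
    intro h0
    have := congrArg (fun z : LaurentSeries K => z.coeff k) h0
    rw [retract_coeff, show c = HahnSeries.single 0 (b.coeff k)⁻¹ from
      algebraMap_laurentSeries_eq_single K' _, HahnSeries.coeff_single_zero_mul,
      inv_mul_cancel₀ hk, hφ] at this
    simp at this
  rw [show x = retract φ (c * a) / retract φ (c * b) by rw [eq_div_iff hne, h]]
  exact div_mem h1 h2

end FLTAgent.ModEq
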