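import Fermat.Agent.ModEq.Transport

/-!
# Induction on the level: conjugates of `j(q^N)` over `K(j)`
-/

set_option autoImplicit false

noncomputable section

open HahnSeries ModularCurve Polynomial IntermediateField
open scoped IntermediateField.algebraAdjoinAdjoin

set_option maxHeartbeats 800000

namespace FLTAgent.ModEq

variable {K : Type*} [Field K]

/-- `K[J]`. -/
abbrev baseRing (K : Type*) [Field K] (n : ℕ) : Subalgebra K (LaurentSeries K) :=
  Algebra.adjoin K {jAt (1 : Kˣ) n}

/-- The series of `j(q^M)` with `q = t^n`. -/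
def xS (K : Type*) [Field K] (n M : ℕ) : LaurentSeries K := jAt (1 : Kˣ) (M * n)

/-- The conjugates and generation statement at level `M`. -/
structure Good (ζ : Kˣ) (n : ℕ) [NeZero n] (M : ℕ) : Prop where
  card : (primTriples M).card = dedekindPsi M
  min : (minpoly (baseField K n) (xS K n M)).map (algebraMap _ (LaurentSeries K)) =
    ∏ t ∈ primTriples M, (Polynomial.X - Polynomial.C (tSer ζ n t))
  gen : ∀ e : ℕ, e ∣ M → xS K n e ∈ (baseField K n)⟮xS K n M⟯
  int : ∀ t, IsPrim M t → IsIntegral (baseRing K n) (tSer ζ n t)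

variable {n : ℕ} [NeZero n] {ζ : Kˣ}

theorem tSer_top (M : ℕ) : tSer ζ n (M, 0, 1) = xS K n M := by
  simp [tSer_def, xS]

theorem xS_one : xS K n 1 = jAt (1 : Kˣ) n := by rw [xS, one_mul]

theorem Good.isIntegral {M : ℕ} (hM : Good ζ n M) :
    IsIntegral (baseField K n) (xS K n M) := by
  have h := hM.int (M, 0, 1) (isPrim_top M)
  rw [tSer_top] at h
  exact h.tower_top

theorem Good.natDegree {M : ℕ} (hM : Good ζ n M) :
    (minpoly (baseField K n) (xS K n M)).natDegree = dedekindPsi M := by
  rw [← Polynomial.natDegree_map (algebraMap (baseField K n) (LaurentSeries K)), hM.min,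
    natDegree_prod_of_monic _ _ fun i _ => monic_X_sub_C _]
  simpa using hM.card

theorem Good.finrank {M : ℕ} (hM : Good ζ n M) :
    Module.finrank (baseField K n) (baseField K n)⟮xS K n M⟯ = dedekindPsi M := by
  rw [IntermediateField.adjoin.finrank hM.isIntegral, hM.natDegree]

theorem Good.exists_embedding {M : ℕ} [NeZero M] (hM : Good ζ n M) {t : ℕ × ℕ × ℕ}
    (ht : IsPrim M t) :
    ∃ σ : (baseField K n)⟮xS K n M⟯ →ₐ[baseField K n] LaurentSeries K,
      σ (AdjoinSimple.gen _ _) = tSer ζ n t := by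
  have hroot : tSer ζ n t ∈ (minpoly (baseField K n) (xS K n M)).aroots (LaurentSeries K) := by
    rw [mem_aroots', hM.min]
    refine ⟨Finset.prod_ne_zero_iff.mpr fun i _ => X_sub_C_ne_zero _, ?_⟩
    rw [← eval_map_algebraMap, hM.min, eval_prod]
    exact Finset.prod_eq_zero (mem_primTriples.mpr ht) (by simp)
  exact ⟨(algHomAdjoinIntegralEquiv _ hM.isIntegral).symm ⟨_, hroot⟩,
    algHomAdjoinIntegralEquiv_symm_apply_gen _ hM.isIntegral _⟩

theorem Good.root_mem {M : ℕ} [NeZero M] (hM : Good ζ n M) {y : LaurentSeries K}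
    (hy : Polynomial.aeval y (minpoly (baseField K n) (xS K n M)) = 0) :
    ∃ t, IsPrim M t ∧ y = tSer ζ n t := by
  rw [← eval_map_algebraMap, hM.min, eval_prod, Finset.prod_eq_zero_iff] at hy
  obtain ⟨t, ht, h⟩ := hy
  exact ⟨t, mem_primTriples.mp ht, by simpa [sub_eq_zero] using h⟩

theorem fixed_range {f : LaurentSeries K →ₐ[K] LaurentSeries K}
    (hJ : f (jAt (1 : Kˣ) n) = jAt (1 : Kˣ) n) {x : LaurentSeries K}
    (hx : IsIntegral (baseField K n) x)
    (σ : (baseField K n)⟮x⟯ →ₐ[baseField K n] LaurentSeries K)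
    (hgen : f (σ (AdjoinSimple.gen _ x)) = σ (AdjoinSimple.gen _ x))
    (z : (baseField K n)⟮x⟯) : f (σ z) = σ z := by
  let τ : (baseField K n)⟮x⟯ →ₐ[baseField K n] LaurentSeries K :=
    { (f.toRingHom.comp σ.toRingHom) with
      commutes' := fun a => by
        show f (σ (algebraMap _ _ a)) = _
        rw [AlgHom.commutes]
        exact map_eq_self_of_fixed hJ a.2 }
  have h : τ = σ := by
    refine (IntermediateField.adjoin.powerBasis hx).algHom_ext ?_
    rw [IntermediateField.adjoin.powerBasis_gen]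
    exact hgen
  exact DFunLike.congr_fun h z

theorem twist_base (hζ : ζ ^ n = 1) (k : ℕ) :
    twistAlg (ζ ^ k) (jAt (1 : Kˣ) n) = jAt (1 : Kˣ) n := by
  rw [twistAlg_apply, twist_jAt, one_mul, ← pow_mul, mul_comm, pow_mul, hζ, one_pow]

theorem isIntegral_coeff_prod {R L ι : Type*} [CommRing R] [CommRing L] [Algebra R L]
    (s : Finset ι) (v : ι → L) (h : ∀ i ∈ s, IsIntegral R (v i)) (k : ℕ) :
    IsIntegral R ((∏ i ∈ s, (Polynomial.X - Polynomial.C (v i))).coeff k) := by
  classical
  induction s using Finset.induction_on generalizing k with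
  | empty =>
    simp only [Finset.prod_empty, Polynomial.coeff_one]
    split_ifs
    exacts [isIntegral_one, isIntegral_zero]
  | insert a s ha ih =>
    rw [Finset.prod_insert ha, Polynomial.coeff_mul]
    refine IsIntegral.sum _ fun x _ => IsIntegral.mul ?_
      (ih (fun i hi => h i (Finset.mem_insert_of_mem hi)) _)
    rw [Polynomial.coeff_sub, Polynomial.coeff_X, Polynomial.coeff_C]
    split_ifs
    all_goals first
      | exact (isIntegral_one).sub (h a (Finset.mem_insert_self a s))
      | exact (isIntegral_one).sub isIntegral_zero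
      | exact (isIntegral_zero).sub (h a (Finset.mem_insert_self a s))
      | exact (isIntegral_zero).sub isIntegral_zero

section Step

variable (hζ : IsPrimitiveRoot ζ n) (p : ℕ) [Fact p.Prime] {Φ : ℤ[X][X]}
  (hΦ : ∀ (w : Kˣ), (Polynomial.cyclotomic p K).IsRoot (w : K) →
    Φ.map (evalJ K p) = rootPoly (xSer p w))

include hζ hΦ

theorem isIntegral_child (hmon : Φ.Monic) {t : ℕ × ℕ × ℕ} (ha : 0 < t.1)
    (hdvd : t.2.2 * p ∣ n) (hint : IsIntegral (baseRing K n) (tSer ζ n t)) (i : HIdx p) :
    IsIntegral (baseRing K n) (tSer ζ n (childTriple p t i)) := by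
  set C' := integralClosure (baseRing K n) (LaurentSeries K)
  let x' : C' := ⟨_, hint⟩
  have h : IsIntegral C' (tSer ζ n (childTriple p t i)) := by
    refine ⟨Φ.map (evalAt x'), hmon.map _, ?_⟩
    have hc : (algebraMap C' (LaurentSeries K)).comp (evalAt x') = evalAt (tSer ζ n t) := by
      refine Polynomial.ringHom_ext (fun a => ?_) ?_ <;> simp [evalAt_apply, x'] <;> rfl
    rw [eval₂_eq_eval_map, Polynomial.map_map, hc]
    rw [map_evalAt_tSer p hζ hΦ ha hdvd]
    exact rootPoly_eval_eq_zero (fun i => tSer ζ n (childTriple p t i)) i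
  exact isIntegral_trans _ h

theorem child_series_inj_top {N : ℕ} (hN : 0 < N) (hpn : p ∣ n) {i i' : HIdx p}
    (h : tSer ζ n (childTriple p (N, 0, 1) i) = tSer ζ n (childTriple p (N, 0, 1) i')) :
    i = i' := by
  have hp := (Fact.out : p.Prime).one_lt
  match i, i' with
  | none, none => rfl
  | some c, some c' =>
    simp only [childTriple, one_mul, zero_add, mul_one] at h
    obtain ⟨-, h2⟩ := tSer_inj ζ n hζ hpn hpn hN hN h
    have := Nat.ModEq.mul_right_cancel' (by omega) h2
    rw [ZMod.val_injective p (this.eq_of_lt_of_lt c.val_lt c'.val_lt)]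
  | none, some c =>
    simp only [childTriple, one_mul, zero_add, zero_mul, Nat.zero_mod, mul_one] at h
    obtain ⟨h1, -⟩ := tSer_inj ζ n hζ (one_dvd n) hpn (Nat.mul_pos hN (by omega)) hN h
    have : N < N * p := lt_mul_of_one_lt_right hN hp
    have : N * p ≤ N * p * p := Nat.le_mul_of_pos_right _ (by omega)
    omega
  | some c, none =>
    simp only [childTriple, one_mul, zero_add, zero_mul, Nat.zero_mod, mul_one] at h
    obtain ⟨h1, -⟩ := tSer_inj ζ n hζ hpn (one_dvd n) hN (Nat.mul_pos hN (by omega)) h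
    have : N < N * p := lt_mul_of_one_lt_right hN hp
    have : N * p ≤ N * p * p := Nat.le_mul_of_pos_right _ (by omega)
    omega

theorem mem_adjoin_back {M : ℕ} [NeZero M] (hdvd : M * p ∣ n) (hM : Good ζ n M)
    (hint : IsIntegral (baseField K n) (xS K n (M * p))) :
    xS K n M ∈ (baseField K n)⟮xS K n (M * p)⟯ := by
  classical
  set A := baseField K n
  set L := LaurentSeries K
  set E := A⟮xS K n (M * p)⟯
  have hM0 := Nat.pos_of_ne_zero (NeZero.ne M)
  have hp := (Fact.out : p.Prime).pos
  have hN0 : 0 < M * p := Nat.mul_pos hM0 hp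
  have hpn : p ∣ n := (dvd_mul_left p M).trans hdvd
  let y : E := AdjoinSimple.gen A (xS K n (M * p))
  set P := Φ.map (evalAt y)
  set g := (minpoly A (xS K n M)).map (algebraMap A E)
  set v := fun i => tSer ζ n (childTriple p (M * p, 0, 1) i)
  have hP : P.map (algebraMap E L) = ∏ i, (Polynomial.X - Polynomial.C (v i)) := by
    rw [Polynomial.map_map, comp_evalAt,
      show algebraMap E L y = tSer ζ n (M * p, 0, 1) from (tSer_top (M * p)).symm,
      map_evalAt_tSer p hζ hΦ hN0 (by simpa using hpn)]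
    rfl
  have hg : g.map (algebraMap E L) =
      ∏ t ∈ primTriples M, (Polynomial.X - Polynomial.C (tSer ζ n t)) := by
    rw [Polynomial.map_map, ← IsScalarTower.algebraMap_eq, hM.min]
  have hinj : Set.InjOn v (Finset.univ : Finset (HIdx p)) := fun i _ i' _ h =>
    child_series_inj_top hζ p hΦ hN0 hpn h
  set h := (EuclideanDomain.gcd P g).map (algebraMap E L)
  have hne : EuclideanDomain.gcd P g ≠ 0 := by
    intro h0
    have := EuclideanDomain.gcd_eq_zero_iff.mp h0
    exact ((minpoly.monic hM.isIntegral).map _).ne_zero this.2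
  set d := EuclideanDomain.gcd P g
  have hh : h = EuclideanDomain.gcd (P.map (algebraMap E L)) (g.map (algebraMap E L)) :=
    (Polynomial.gcd_map _).symm
  have hd : (Polynomial.C d.leadingCoeff⁻¹ * d).Monic := by
    rw [mul_comm]; exact Polynomial.monic_mul_leadingCoeff_inv hne
  set d' := Polynomial.C d.leadingCoeff⁻¹ * d
  have hdd' : d' ∣ d := ⟨Polynomial.C d.leadingCoeff, by
    simp only [d']
    rw [mul_right_comm, ← map_mul, inv_mul_cancel₀ (leadingCoeff_ne_zero.mpr hne), map_one, one_mul]⟩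
  have hd'd : d ∣ d' := dvd_mul_left _ _
  set h' := d'.map (algebraMap E L)
  obtain ⟨u, -, hu⟩ := monic_dvd_prod_X_sub_C Finset.univ v (hd.map (algebraMap E L))
    (hP ▸ Polynomial.map_dvd _ (hdd'.trans (EuclideanDomain.gcd_dvd_left P g))) hinj
  have hx0 : v (some 0) = xS K n M := by
    simp only [v, childTriple, ZMod.val_zero, zero_mul, add_zero, one_mul]
    rw [← tSer_top, ← tSer_scale ζ n (e := p) (a := M) (b := 0) (d := 1) (by simpa using hpn)]
    simp [mul_comm]
  have honly : ∀ i ∈ u, v i = xS K n M := by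
    intro i hi
    have h0 : h'.eval (v i) = 0 := by
      simp only [h']
      rw [hu, eval_prod]
      exact Finset.prod_eq_zero hi (by simp)
    have h1 := Polynomial.eval_eq_zero_of_dvd_of_eval_eq_zero
      (Polynomial.map_dvd (algebraMap E L) (hdd'.trans (EuclideanDomain.gcd_dvd_right P g))) h0
    rw [hg, eval_prod, Finset.prod_eq_zero_iff] at h1
    obtain ⟨t, ht, h1⟩ := h1
    rw [eval_sub, eval_X, eval_C, sub_eq_zero] at h1
    rw [mem_primTriples] at ht
    obtain ⟨hta, htd⟩ := ht.pos
    have htdn : t.2.2 ∣ n := ht.dvd.trans ((dvd_mul_right M p).trans hdvd)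
    cases i with
    | none =>
      simp only [v, childTriple, zero_mul, Nat.zero_mod] at h1
      obtain ⟨h2, -⟩ := tSer_inj ζ n hζ (one_dvd n) htdn (Nat.mul_pos hN0 hp) hta h1
      exfalso
      have hle : t.1 ≤ M := Nat.le_of_dvd hM0 ⟨_, ht.1.symm⟩
      have h3 : M * p * p ≤ M * p * p * t.2.2 := Nat.le_mul_of_pos_right _ htd
      have h4 : M < M * p := lt_mul_of_one_lt_right hM0 (Fact.out : p.Prime).one_lt
      have h5 : M * p ≤ M * p * p := Nat.le_mul_of_pos_right _ hp
      omega
    | some c =>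
      simp only [v, childTriple, zero_add, mul_one, one_mul] at h1
      obtain ⟨h2, -⟩ := tSer_inj ζ n hζ hpn htdn hN0 hta h1
      have hMd : t.1 = M * t.2.2 := Nat.eq_of_mul_eq_mul_right hp (by linarith)
      have hd1 : t.2.2 = 1 := by
        have := ht.1
        rw [hMd, mul_assoc] at this
        exact (mul_eq_one.mp (Nat.eq_of_mul_eq_mul_left hM0 (this.trans (mul_one M).symm))).1
      have hb : t.2.1 = 0 := by have := ht.2.1; omega
      have htop : t = (M, 0, 1) := by
        ext1
        · rw [hMd, hd1, mul_one]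
        · ext1 <;> assumption
      simp only [v, childTriple, zero_add, mul_one, one_mul]
      rw [h1, htop, tSer_top]
  have hroot : h'.eval (v (some 0)) = 0 := by
    refine Polynomial.eval_eq_zero_of_dvd_of_eval_eq_zero (Polynomial.map_dvd _ hd'd) ?_
    show h.eval (v (some 0)) = 0
    have h1 : Polynomial.X - Polynomial.C (v (some 0)) ∣ P.map (algebraMap E L) := by
      rw [hP]; exact Finset.dvd_prod_of_mem _ (Finset.mem_univ _)
    have h2 : Polynomial.X - Polynomial.C (v (some 0)) ∣ g.map (algebraMap E L) := by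
      rw [hg, hx0, ← tSer_top]
      exact Finset.dvd_prod_of_mem (fun t => Polynomial.X - Polynomial.C (tSer ζ n t))
        (mem_primTriples.mpr (isPrim_top M))
    rw [hh]
    exact Polynomial.dvd_iff_isRoot.mp (EuclideanDomain.dvd_gcd h1 h2)
  have hsome : u = {some 0} := by
    refine Finset.eq_singleton_iff_unique_mem.mpr ⟨?_, fun i hi => ?_⟩
    · simp only [h'] at hroot
      rw [hu, eval_prod, Finset.prod_eq_zero_iff] at hroot
      obtain ⟨i, hi, hi'⟩ := hroot
      rw [eval_sub, eval_X, eval_C, sub_eq_zero] at hi'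
      rwa [hinj (Finset.mem_univ _) (Finset.mem_univ _) hi']
    · exact hinj (Finset.mem_univ _) (Finset.mem_univ _) ((honly i hi).trans hx0.symm)
  have hlin : h' = Polynomial.X - Polynomial.C (xS K n M) := by
    simp only [h']
    rw [hu, hsome, Finset.prod_singleton, hx0]
  have hc := congrArg (fun q : L[X] => q.coeff 0) hlin
  simp only [h', Polynomial.coeff_map, Polynomial.coeff_sub, coeff_X_zero, coeff_C_zero, zero_sub] at hc
  have : xS K n M = ((-d'.coeff 0 : E) : L) := by
    rw [← neg_neg (xS K n M), ← hc]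
    rfl
  rw [this]
  exact SetLike.coe_mem _

theorem twist_fixed_of_child {M : ℕ} [NeZero M] (hdvd : M * p ∣ n) {t : ℕ × ℕ × ℕ}
    (ht : IsPrim M t) (hpa : ¬ p ∣ t.1) (c : ZMod p) :
    twist (ζ ^ t.2.2) (tSer ζ n t) = tSer ζ n t ∧
      twist (ζ ^ t.2.2) (tSer ζ n (childTriple p t (some c))) ≠
        tSer ζ n (childTriple p t (some c)) := by
  obtain ⟨a, b, d⟩ := t
  obtain ⟨ha, hd⟩ := ht.pos
  have hdp : d * p ∣ n := (Nat.mul_dvd_mul_right ht.dvd p).trans hdvd
  obtain ⟨k, hk⟩ := hdp
  have hn := Nat.pos_of_ne_zero (NeZero.ne n)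
  have hp := (Fact.out : p.Prime).pos
  have hk0 : 0 < k := Nat.pos_of_ne_zero fun h0 => by simp [h0] at hk; omega
  simp only at ha hd hpa ⊢
  have e1 : n / d = p * k := by rw [hk, mul_assoc, Nat.mul_div_cancel_left _ hd]
  have e2 : n / (d * p) = k := by rw [hk, Nat.mul_div_cancel_left _ (Nat.mul_pos hd hp)]
  haveI : NeZero (a * (p * k)) := ⟨(Nat.mul_pos ha (Nat.mul_pos hp hk0)).ne'⟩
  haveI : NeZero (a * k) := ⟨(Nat.mul_pos ha hk0).ne'⟩
  refine ⟨?_, ?_⟩
  · rw [tSer_def, e1, twist_jAt, ← pow_mul ζ d, show d * (a * (p * k)) = n * a by rw [hk]; ring,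
      pow_mul ζ n, hζ.pow_eq_one, one_pow, mul_one]
  · intro h
    simp only [childTriple] at h
    rw [tSer_def, e2, twist_jAt] at h
    obtain ⟨-, hu⟩ := jAt_injective (NeZero.ne _) (NeZero.ne _) h
    rw [mul_eq_left, ← pow_mul, hζ.pow_eq_one_iff_dvd] at hu
    refine hpa (Nat.dvd_of_mul_dvd_mul_left (show 0 < d * k from Nat.mul_pos hd hk0) ?_)
    calc d * k * p = n := by rw [hk]; ring
      _ ∣ d * (a * k) := hu
      _ = d * k * a := by ring

theorem root_first_child {M : ℕ} [NeZero M] (hdvd : M * p ∣ n) (hpM : ¬ p ∣ M) (hM : Good ζ n M)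
    (r : (baseField K n)⟮xS K n M⟯)
    (hr : (Φ.map (evalAt (AdjoinSimple.gen (baseField K n) (xS K n M)))).eval r = 0)
    {t : ℕ × ℕ × ℕ} (ht : IsPrim M t)
    (σ : (baseField K n)⟮xS K n M⟯ →ₐ[baseField K n] LaurentSeries K)
    (hσ : σ (AdjoinSimple.gen _ _) = tSer ζ n t) :
    σ r = tSer ζ n (childTriple p t none) := by
  have hpa : ¬ p ∣ t.1 := fun h => hpM (h.trans ⟨_, ht.1.symm⟩)
  have h1 : ((Φ.map (evalAt (AdjoinSimple.gen (baseField K n) (xS K n M)))).map
      (σ : _ →+* LaurentSeries K)).eval (σ r) = 0 := by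
    rw [eval_map, ← RingHom.coe_coe σ, eval₂_hom, hr, map_zero]
  rw [Polynomial.map_map, comp_evalAt, RingHom.coe_coe, hσ,
    map_evalAt_tSer p hζ hΦ ht.pos.1 ((Nat.mul_dvd_mul_right ht.dvd p).trans hdvd),
    rootPoly, eval_prod, Finset.prod_eq_zero_iff] at h1
  obtain ⟨i, -, hi⟩ := h1
  rw [eval_sub, eval_X, eval_C, sub_eq_zero] at hi
  cases i with
  | none => exact hi
  | some c =>
    exfalso
    obtain ⟨e1, e2⟩ := twist_fixed_of_child hζ p hΦ hdvd ht hpa c
    have := fixed_range (f := twistAlg (ζ ^ t.2.2)) (twist_base hζ.pow_eq_one _) hM.isIntegral σ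
      (by rw [twistAlg_apply, hσ]; exact e1) r
    rw [twistAlg_apply, hi] at this
    exact e2 this

theorem no_root {M : ℕ} [NeZero M] (hdvd : M * p ∣ n) (hpM : ¬ p ∣ M) (hM : Good ζ n M)
    (hGp : 1 < M → Good ζ n p) (hmon : Φ.Monic)
    (hlevel1 : xS K n p ∉ baseField K n) : ∀ (r : (baseField K n)⟮xS K n M⟯),
    (Φ.map (evalAt (AdjoinSimple.gen (baseField K n) (xS K n M)))).eval r = 0 → False := by
  classical
  set A := baseField K n
  set L := LaurentSeries K
  set S := baseRing K n
  intro r hr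
  have hM0 := Nat.pos_of_ne_zero (NeZero.ne M)
  have hp := (Fact.out : p.Prime)
  have hrtop : (r : L) = xS K n (M * p) := by
    have h := root_first_child hζ p hΦ hdvd hpM hM r hr (isPrim_top M)
      (IntermediateField.val _) (tSer_top M).symm
    rw [← tSer_top (ζ := ζ) (M * p)]
    simpa [childTriple] using h
  by_cases hM1 : M = 1
  · subst hM1
    refine hlevel1 ?_
    have hbot : A⟮xS K n 1⟯ = ⊥ := by
      rw [adjoin_simple_eq_bot_iff, xS_one]
      exact IntermediateField.mem_bot.mpr ⟨⟨_, mem_adjoin_simple_self K _⟩, rfl⟩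
    have h := r.2
    rw [hrtop, one_mul] at h
    rw [hbot, IntermediateField.mem_bot] at h
    obtain ⟨a, ha⟩ := h
    rw [← ha]
    exact a.2
  have hGp := hGp (by omega)
  haveI : NeZero p := ⟨hp.ne_zero⟩
  set π : L →ₐ[K] L := substAlg (1 : Kˣ) p
  -- the conjugates of `r` are the images of those of `xS M` under `π`
  let f : ℕ × ℕ × ℕ → ℕ × ℕ × ℕ := fun t => (t.1, (t.2.1 * p) % t.2.2, t.2.2)
  have hf : ∀ t, IsPrim M t → IsPrim M (f t) := by
    intro t ht
    refine ⟨ht.1, Nat.mod_lt _ ht.pos.2, fun q hq h1 h2 h3 => ?_⟩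
    simp only [f] at h1 h2 h3
    rw [Nat.dvd_mod_iff h3, hq.dvd_mul] at h2
    rcases h2 with h2 | h2
    · exact ht.2.2 q hq h1 h2 h3
    · obtain rfl := (Nat.prime_dvd_prime_iff_eq hq hp).mp h2
      exact hpM (h1.trans ⟨_, ht.1.symm⟩)
  have hfinj : Set.InjOn f (primTriples M) := by
    intro t ht t' ht' h
    simp only [Finset.mem_coe, mem_primTriples] at ht ht'
    refine (child_injOn ht ht' (i := none) (i' := none)
      (isPrim_child_of_not_dvd hpM ht none) ?_).1
    simp only [f, Prod.mk.injEq] at h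
    simp only [childTriple]
    rw [h.1, h.2.1, h.2.2]
  have hfsurj : (primTriples M).image f = primTriples M := by
    refine Finset.eq_of_subset_of_card_le (fun s hs => ?_) (by rw [Finset.card_image_of_injOn hfinj])
    obtain ⟨t, ht, rfl⟩ := Finset.mem_image.mp hs
    exact mem_primTriples.mpr (hf t (mem_primTriples.mp ht))
  have hπ : ∀ t, IsPrim M t → π (tSer ζ n (f t)) = tSer ζ n (childTriple p t none) := by
    intro t ht
    obtain ⟨ha, hd⟩ := ht.pos
    have hdn : t.2.2 ∣ n := ht.dvd.trans ((dvd_mul_right M p).trans hdvd)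
    haveI : NeZero (t.1 * (n / t.2.2)) :=
      ⟨(Nat.mul_pos ha (Nat.div_pos (Nat.le_of_dvd (Nat.pos_of_ne_zero (NeZero.ne n)) hdn) hd)).ne'⟩
    simp only [π, f, childTriple, tSer_def]
    rw [substAlg_apply, substHom_jAt, one_pow, mul_one]
    congr 1
    ring
  set gr := minpoly A (r : L)
  have hrint : IsIntegral A (r : L) := by
    haveI := IntermediateField.adjoin.finiteDimensional hM.isIntegral
    exact (IsIntegral.of_finite A r).map (IntermediateField.val _)
  have hgr : gr.map (algebraMap A L) =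
      ((minpoly A (xS K n M)).map (algebraMap A L)).map (π : L →+* L) := by
    rw [hM.min, Polynomial.map_prod]
    simp only [Polynomial.map_sub, Polynomial.map_X, Polynomial.map_C]
    refine map_eq_prod_of_roots (algebraMap A L) (minpoly.monic hrint) (primTriples M) _ ?_ ?_ ?_
    · intro s hs s' hs' h
      simp only [Finset.mem_coe, mem_primTriples] at hs hs'
      exact tSer_inj_level ζ n hζ ((dvd_mul_right M p).trans hdvd) hs.1 hs'.1 hs.2.1 hs'.2.1
        (substHom_injective _ _ h)
    · intro s hs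
      rw [← hfsurj, Finset.mem_image] at hs
      obtain ⟨t, ht, rfl⟩ := hs
      rw [mem_primTriples] at ht
      obtain ⟨σ, hσ⟩ := hM.exists_embedding ht
      have h := root_first_child hζ p hΦ hdvd hpM hM r hr ht σ hσ
      rw [RingHom.coe_coe, hπ t ht, ← h, ← aeval_def, aeval_algHom_apply]
      have h0 : Polynomial.aeval r gr = 0 := by
        refine Subtype.val_injective ?_
        rw [IntermediateField.coe_zero, ← minpoly.aeval A (r : L)]
        exact (aeval_algHom_apply (IntermediateField.val _) r gr).symm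
      rw [h0, map_zero]
    · rw [hM.card, ← hM.finrank]
      haveI := IntermediateField.adjoin.finiteDimensional hM.isIntegral
      show (minpoly A (r : L)).natDegree ≤ _
      rw [← IntermediateField.minpoly_eq r]
      exact minpoly.natDegree_le r
  -- coefficients
  have hcoef : ∀ i, ∃ P : K[X], Polynomial.aeval (jAt (1 : Kˣ) n) P =
      algebraMap A L ((minpoly A (xS K n M)).coeff i) := by
    intro i
    refine mem_adjoin_of_isIntegral ((minpoly A (xS K n M)).coeff i).2 ?_
    rw [← Polynomial.coeff_map, hM.min]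
    exact isIntegral_coeff_prod _ _ (fun t ht => hM.int t (mem_primTriples.mp ht)) i
  choose P hP using hcoef
  obtain ⟨i, hi⟩ : ∃ i, (P i).natDegree ≠ 0 := by
    by_contra hcon
    push Not at hcon
    set q : K[X] := ∑ i ∈ Finset.range (dedekindPsi M + 1),
      Polynomial.C ((P i).coeff 0) * Polynomial.X ^ i
    have hq : Polynomial.aeval (xS K n M) q = 0 := by
      rw [← minpoly.aeval A (xS K n M), aeval_eq_sum_range (p := minpoly A (xS K n M)),
        show (minpoly A (xS K n M)).natDegree = dedekindPsi M from hM.natDegree, map_sum]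
      refine Finset.sum_congr rfl fun i _ => ?_
      rw [map_mul, map_pow, aeval_X, aeval_C, Algebra.smul_def, ← hP i,
        Polynomial.eq_C_of_natDegree_eq_zero (hcon i), aeval_C, coeff_C_zero]
    haveI : NeZero (M * n) := ⟨Nat.mul_ne_zero (NeZero.ne M) (NeZero.ne n)⟩
    have hq0 := aeval_jAt_eq_zero (u := (1 : Kˣ)) (m := M * n) hq
    have hlead := congrArg (fun z : K[X] => z.coeff (dedekindPsi M)) hq0
    simp only [q, finset_sum_coeff, coeff_C_mul_X_pow, Finset.sum_ite_eq, Polynomial.coeff_zero,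
      Finset.mem_range, Nat.lt_succ_self, if_true] at hlead
    have h1 := hP (dedekindPsi M)
    rw [Polynomial.eq_C_of_natDegree_eq_zero (hcon _), hlead] at h1
    have h2 : (minpoly A (xS K n M)).coeff (dedekindPsi M) = 1 := by
      rw [← hM.natDegree]
      exact (minpoly.monic hM.isIntegral).coeff_natDegree
    simp [h2] at h1
  have hπJ : π (jAt (1 : Kˣ) n) = xS K n p := by
    simp only [π, xS]
    rw [substAlg_apply, substHom_jAt, one_pow, mul_one]
  have hmemA : Polynomial.aeval (xS K n p) (P i) ∈ A := by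
    rw [← hπJ, aeval_algHom_apply, hP i]
    have h := congrArg (fun z : L[X] => z.coeff i) hgr
    simp only [Polynomial.coeff_map] at h
    rw [show (π : L →+* L) = π.toRingHom from rfl] at h
    show π _ ∈ A
    erw [← h]
    exact SetLike.coe_mem _
  have hxp : IsIntegral S (xS K n p) := by
    rw [← tSer_top]; exact hGp.int _ (isPrim_top p)
  obtain ⟨R, hR⟩ := mem_adjoin_of_isIntegral hmemA (by
    clear hi hmemA
    induction P i using Polynomial.induction_on' with
    | add f g hf hg => rw [map_add]; exact hf.add hg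
    | monomial k a =>
      rw [aeval_monomial, IsScalarTower.algebraMap_apply K S L]
      exact isIntegral_algebraMap.mul (hxp.pow k))
  haveI : NeZero (p * n) := ⟨Nat.mul_ne_zero hp.ne_zero (NeZero.ne n)⟩
  have hpn : p ∣ n := (dvd_mul_left p M).trans hdvd
  haveI : NeZero (n / p) :=
    ⟨(Nat.div_pos (Nat.le_of_dvd (Nat.pos_of_ne_zero (NeZero.ne n)) hpn) hp.pos).ne'⟩
  have hPi : P i ≠ 0 := fun h0 => hi (by simp [h0])
  obtain ⟨σ, hσ⟩ := hGp.exists_embedding (isPrim_bot p)
  have hswap : Polynomial.aeval (jAt (1 : Kˣ) (n / p)) (P i) =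
      Polynomial.aeval (jAt (1 : Kˣ) n) R := by
    have hσ' : σ (AdjoinSimple.gen A (xS K n p)) = jAt (1 : Kˣ) (n / p) := by
      rw [hσ, tSer_def]; simp
    rw [← hσ']
    show Polynomial.aeval ((σ.restrictScalars K) (AdjoinSimple.gen A (xS K n p))) (P i) = _
    rw [aeval_algHom_apply]
    have : Polynomial.aeval (AdjoinSimple.gen A (xS K n p)) (P i) =
        algebraMap A A⟮xS K n p⟯ ⟨_, hmemA⟩ := by
      refine Subtype.val_injective ?_
      exact (aeval_algHom_apply ((IntermediateField.val A⟮xS K n p⟯).restrictScalars K)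
        (AdjoinSimple.gen A (xS K n p)) (P i)).symm
    rw [this]
    show σ (algebraMap A _ _) = _
    rw [AlgHom.commutes]
    exact hR.symm
  have d1 := aeval_jAt_natDegree hPi hswap
  have d2 : (P i).natDegree * (p * n) = R.natDegree * n := aeval_jAt_natDegree hPi hR.symm
  rw [← d1] at d2
  have h1 : (P i).natDegree * (p * n) ≤ (P i).natDegree * n := by
    rw [d2]
    exact Nat.mul_le_mul_left _ (Nat.div_le_self _ _)
  have h2 := Nat.le_of_mul_le_mul_left h1 (Nat.pos_of_ne_zero hi)
  have h3 : n < p * n := lt_mul_of_one_lt_left (Nat.pos_of_ne_zero (NeZero.ne n)) hp.one_lt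
  omega

end Step

end FLTAgent.ModEq
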