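import Fermat.Agent.ModEq.PrimeDefs

/-!
# The Hecke images of `j` and their symmetric functions
-/

set_option autoImplicit false

noncomputable section

open HahnSeries ModularCurve Filter Topology UpperHalfPlane Function Polynomial
open scoped Real MatrixGroups Manifold ModularForm

set_option maxHeartbeats 400000

namespace FLTAgent.ModEq

theorem disc_moeb {a b c d : ℤ} (hdet : a * d - b * c = 1) (w z : ℍ)
    (h : (w : ℂ) * ((c : ℂ) * z + d) = (a : ℂ) * z + b) :
    ModularForm.discriminant w = ((c : ℂ) * z + d) ^ 12 * ModularForm.discriminant z ∧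
      jFun w = jFun z := by
  let γ : SL(2, ℤ) := ⟨!![a, b; c, d], by rw [Matrix.det_fin_two_of]; linarith⟩
  have hden : (c : ℂ) * z + d ≠ 0 := by
    have := UpperHalfPlane.denom_ne_zero (γ : GL (Fin 2) ℝ) z
    simpa [UpperHalfPlane.denom, γ] using this
  have hw : w = γ • z := by
    ext
    rw [UpperHalfPlane.coe_specialLinearGroup_apply]
    simp only [γ, Matrix.of_apply, Matrix.cons_val', Matrix.cons_val_zero, Matrix.cons_val_one,
      Matrix.cons_val_fin_one, algebraMap_int_eq, eq_intCast, Complex.ofReal_intCast]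
    rw [eq_div_iff hden, h]
  have hγ : (γ : GL (Fin 2) ℝ) ∈ 𝒮ℒ := ⟨γ, rfl⟩
  have h12 := SlashInvariantForm.slash_action_eqn' CuspForm.discriminant hγ z
  simp only [CuspForm.coe_discriminant, ← ModularGroup.sl_moeb, ← hw] at h12
  refine ⟨?_, hw ▸ jFun_smul γ z⟩
  rw [h12]
  simp [γ, zpow_ofNat]

/-- `τ ↦ pτ` and `τ ↦ (τ + b)/p`. -/
def heckePt (p : ℕ) [NeZero p] : HIdx p → ℍ → ℍ
  | none, τ => ⟨(p : ℂ) * τ, by
      have hp : 0 < (p : ℝ) := by exact_mod_cast Nat.pos_of_ne_zero (NeZero.ne p)
      simpa using mul_pos hp τ.im_pos⟩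
  | some b, τ => ⟨((τ : ℂ) + b.val) / p, by
      have hp : 0 < (p : ℝ) := by exact_mod_cast Nat.pos_of_ne_zero (NeZero.ne p)
      simpa [Complex.div_natCast_im, -ZMod.natCast_val] using div_pos τ.im_pos hp⟩

variable (p : ℕ) [NeZero p]

/-- `j` at the Hecke images. -/
def xFun (i : HIdx p) (τ : ℍ) : ℂ := jFun (heckePt p i τ)

/-- `p^{12} Δ(pτ)/Δ(τ)` and its conjugates. -/
def uFun : HIdx p → ℍ → ℂ
  | none, τ => (p : ℂ) ^ 12 *
      (ModularForm.discriminant (heckePt p none τ) * (ModularForm.discriminant τ)⁻¹)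
  | some b, τ => ModularForm.discriminant (heckePt p (some b) τ) * (ModularForm.discriminant τ)⁻¹

/-- The permutation induced by `T`. -/
def permT : HIdx p ≃ HIdx p := Equiv.optionCongr (Equiv.addRight 1)

theorem hecke_T (i : HIdx p) (τ : ℍ) :
    xFun p i (ModularGroup.T • τ) = xFun p (permT p i) τ ∧
      uFun p i (ModularGroup.T • τ) = uFun p (permT p i) τ := by
  have hp : (p : ℂ) ≠ 0 := by exact_mod_cast NeZero.ne p
  have hTτ : ((ModularGroup.T • τ : ℍ) : ℂ) = τ + 1 := by
    rw [UpperHalfPlane.modular_T_smul, UpperHalfPlane.coe_vadd]; push_cast; ring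
  have hΔ : ModularForm.discriminant (ModularGroup.T • τ) = ModularForm.discriminant τ := by
    have h := (disc_moeb (a := 1) (b := 1) (c := 0) (d := 1) (by norm_num)
      (ModularGroup.T • τ) τ (by rw [hTτ]; push_cast; ring)).1
    simpa using h
  cases i with
  | none =>
    have h := disc_moeb (a := 1) (b := p) (c := 0) (d := 1) (by norm_num)
      (heckePt p none (ModularGroup.T • τ)) (heckePt p none τ)
      (by simp only [heckePt, hTτ]; push_cast; ring)
    exact ⟨by simpa [xFun, permT] using h.2,
      by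
        simp only [uFun, permT, Equiv.optionCongr_apply, Option.map_none, Option.map_some,
          Equiv.coe_addRight]
        rw [hΔ, h.1]
        simp⟩
  | some b =>
    obtain ⟨e, he⟩ : (p : ℤ) ∣ ((b.val : ℤ) + 1 - ((b + 1).val : ℤ)) := by
      rw [← ZMod.intCast_zmod_eq_zero_iff_dvd]
      push_cast
      simp
    have he' : ((b.val : ℂ) + 1 - ((b + 1).val : ℂ)) = (p : ℂ) * (e : ℂ) := by exact_mod_cast he
    have h := disc_moeb (a := 1) (b := e) (c := 0) (d := 1) (by norm_num)
      (heckePt p (some b) (ModularGroup.T • τ)) (heckePt p (some (b + 1)) τ)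
      (by
        simp only [heckePt, hTτ]
        push_cast
        field_simp
        linear_combination (p : ℂ) * he')
    exact ⟨by simpa [xFun, permT] using h.2,
      by
        simp only [uFun, permT, Equiv.optionCongr_apply, Option.map_none, Option.map_some,
          Equiv.coe_addRight]
        rw [hΔ, h.1]
        simp⟩

/-- The map of indices induced by `S`. -/
def sMap [Fact p.Prime] : HIdx p → HIdx p
  | none => some 0
  | some b => if b = 0 then none else some (-b⁻¹)

theorem sMap_invol [Fact p.Prime] (i : HIdx p) : sMap p (sMap p i) = i := by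
  cases i with
  | none => simp [sMap]
  | some b =>
    by_cases hb : b = 0
    · simp [sMap, hb]
    · have h1 : (-b⁻¹ : ZMod p) ≠ 0 := neg_ne_zero.mpr (inv_ne_zero hb)
      show sMap p (if b = 0 then none else some (-b⁻¹)) = some b
      rw [if_neg hb]
      show (if -b⁻¹ = 0 then none else some (-(-b⁻¹)⁻¹)) = some b
      rw [if_neg h1, inv_neg, inv_inv, neg_neg]

/-- The permutation induced by `S`. -/
def permS [Fact p.Prime] : HIdx p ≃ HIdx p :=
  ⟨sMap p, sMap p, sMap_invol p, sMap_invol p⟩

theorem hecke_S [Fact p.Prime] (i : HIdx p) (τ : ℍ) :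
    xFun p i (ModularGroup.S • τ) = xFun p (permS p i) τ ∧
      uFun p i (ModularGroup.S • τ) = uFun p (permS p i) τ := by
  have hp : (p : ℂ) ≠ 0 := by exact_mod_cast NeZero.ne p
  have hτ : (τ : ℂ) ≠ 0 := τ.ne_zero
  have hSτ : ((ModularGroup.S • τ : ℍ) : ℂ) = -1 / τ := by
    rw [UpperHalfPlane.modular_S_smul]
    simp [neg_div, inv_neg]
  have hΔ : ModularForm.discriminant (ModularGroup.S • τ) =
      (τ : ℂ) ^ 12 * ModularForm.discriminant τ := by
    have h := (disc_moeb (a := 0) (b := -1) (c := 1) (d := 0) (by norm_num)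
      (ModularGroup.S • τ) τ (by rw [hSτ]; push_cast; field_simp; ring)).1
    simpa using h
  have hD := ModularForm.discriminant_ne_zero τ
  cases i with
  | none =>
    have h := disc_moeb (a := 0) (b := -1) (c := 1) (d := 0) (by norm_num)
      (heckePt p none (ModularGroup.S • τ)) (heckePt p (some 0) τ)
      (by simp only [heckePt, hSτ, ZMod.val_zero]; push_cast; field_simp; ring)
    have hP : permS p none = some 0 := rfl
    refine ⟨?_, ?_⟩
    · rw [hP]; exact h.2
    · rw [hP]
      simp only [uFun]
      rw [hΔ, h.1]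
      generalize ModularForm.discriminant (heckePt p (some 0) τ) = D
      simp only [heckePt, ZMod.val_zero]
      push_cast
      field_simp
      ring
  | some b =>
    by_cases hb : b = 0
    · subst hb
      have h := disc_moeb (a := 0) (b := -1) (c := 1) (d := 0) (by norm_num)
        (heckePt p (some 0) (ModularGroup.S • τ)) (heckePt p none τ)
        (by simp only [heckePt, hSτ, ZMod.val_zero]; push_cast; field_simp; ring)
      have hP : permS p (some 0) = none := by simp [permS, sMap]
      refine ⟨?_, ?_⟩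
      · rw [hP]; exact h.2
      · rw [hP]
        simp only [uFun]
        rw [hΔ, h.1]
        generalize ModularForm.discriminant (heckePt p none τ) = D
        simp only [heckePt]
        push_cast
        field_simp
        ring
    · set b' : ZMod p := -b⁻¹
      have hbb : b * b' = -1 := by simp [b', hb]
      obtain ⟨e, he⟩ : (p : ℤ) ∣ ((b.val : ℤ) * b'.val + 1) := by
        rw [← ZMod.intCast_zmod_eq_zero_iff_dvd]
        push_cast
        simp [hbb]
      have he' : ((b.val : ℂ) * (b'.val : ℂ) + 1) = (p : ℂ) * (e : ℂ) := by exact_mod_cast he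
      have h := disc_moeb (a := b.val) (b := -e) (c := p) (d := -(b'.val : ℤ))
        (by linear_combination -he) (heckePt p (some b) (ModularGroup.S • τ))
        (heckePt p (some b') τ)
        (by
          simp only [heckePt, hSτ]
          push_cast
          field_simp
          linear_combination -(τ : ℂ) * he')
      have hden : (((p : ℤ) : ℂ) * (heckePt p (some b') τ : ℂ) + ((-(b'.val : ℤ) : ℤ) : ℂ)) = τ := by
        simp only [heckePt]
        push_cast
        field_simp
        ring
      rw [hden] at h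
      have hP : permS p (some b) = some b' := by simp [permS, sMap, hb, b']
      refine ⟨?_, ?_⟩
      · rw [hP]; exact h.2
      · rw [hP]
        simp only [uFun]
        rw [hΔ, h.1]
        field_simp

theorem sym_invariant [Fact p.Prime] (F : (HIdx p → ℂ) → (HIdx p → ℂ) → ℂ)
    (hF : ∀ (e : HIdx p ≃ HIdx p) (x u : HIdx p → ℂ),
      F (fun i => x (e i)) (fun i => u (e i)) = F x u) (γ : SL(2, ℤ)) (τ : ℍ) :
    F (fun i => xFun p i (γ • τ)) (fun i => uFun p i (γ • τ)) =
      F (fun i => xFun p i τ) (fun i => uFun p i τ) := by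
  refine invariant_of_S_T (g := fun τ => F (fun i => xFun p i τ) (fun i => uFun p i τ))
    (fun σ => ?_) (fun σ => ?_) γ τ
  · simp only [(hecke_S p _ σ).1, (hecke_S p _ σ).2]
    exact hF (permS p) (fun i => xFun p i σ) (fun i => uFun p i σ)
  · simp only [(hecke_T p _ σ).1, (hecke_T p _ σ).2]
    exact hF (permT p) (fun i => xFun p i σ) (fun i => uFun p i σ)

/-- `exp (2πi/p)`. -/
def zetaC : ℂˣ := Units.mk0 (Complex.exp (2 * π * Complex.I / p)) (Complex.exp_ne_zero _)

theorem qp_heckePt_none (τ : ℍ) : qp 1 (heckePt p none τ) = ((1 : ℂˣ) : ℂ) * qp p τ ^ (p * p) := by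
  rw [qp, qp, Periodic.qParam, Periodic.qParam, ← Complex.exp_nat_mul, Units.val_one, one_mul]
  congr 1
  have hp : (p : ℂ) ≠ 0 := by exact_mod_cast NeZero.ne p
  simp only [heckePt]
  push_cast
  field_simp

theorem qp_heckePt_some (b : ZMod p) (τ : ℍ) :
    qp 1 (heckePt p (some b) τ) = ((zetaC p ^ b.val : ℂˣ) : ℂ) * qp p τ ^ 1 := by
  rw [qp, qp, Periodic.qParam, Periodic.qParam, pow_one, Units.val_pow_eq_pow_val, zetaC,
    Units.val_mk0, ← Complex.exp_nat_mul, ← Complex.exp_add]
  congr 1
  have hp : (p : ℂ) ≠ 0 := by exact_mod_cast NeZero.ne p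
  simp only [heckePt]
  push_cast
  field_simp
  ring

theorem tendsto_heckePt (i : HIdx p) : Tendsto (heckePt p i) atImInfty atImInfty := by
  have hp : 0 < (p : ℝ) := by exact_mod_cast Nat.pos_of_ne_zero (NeZero.ne p)
  rw [atImInfty, tendsto_comap_iff]
  cases i with
  | none =>
    refine ((tendsto_const_mul_atTop_of_pos hp).mpr (tendsto_comap (f := UpperHalfPlane.im))).congr
      fun τ => ?_
    rw [Function.comp_apply, ← UpperHalfPlane.coe_im, ← UpperHalfPlane.coe_im]
    simp [heckePt]
  | some b =>
    refine ((tendsto_div_const_atTop_of_pos hp).mpr (tendsto_comap (f := UpperHalfPlane.im))).congr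
      fun τ => ?_
    rw [Function.comp_apply, ← UpperHalfPlane.coe_im, ← UpperHalfPlane.coe_im]
    simp [heckePt, Complex.div_natCast_im, -ZMod.natCast_val]

/-- Pairs (function, expansion) of holomorphic functions with an expansion in `exp (2πiτ/n)`. -/
def expPairs (n : ℕ) : Subring ((ℍ → ℂ) × LaurentSeries ℂ) where
  carrier := {x | MDiff x.1 ∧ HasExp n x.1 x.2}
  one_mem' := ⟨mdifferentiable_const, HasExp.one⟩
  zero_mem' := ⟨mdifferentiable_const, HasExp.zero⟩
  mul_mem' ha hb := ⟨by
      rw [UpperHalfPlane.mdifferentiable_iff]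
      exact (UpperHalfPlane.mdifferentiable_iff.mp ha.1).mul
        (UpperHalfPlane.mdifferentiable_iff.mp hb.1), ha.2.mul hb.2⟩
  add_mem' ha hb := ⟨by
      rw [UpperHalfPlane.mdifferentiable_iff]
      exact (UpperHalfPlane.mdifferentiable_iff.mp ha.1).add
        (UpperHalfPlane.mdifferentiable_iff.mp hb.1), ha.2.add hb.2⟩
  neg_mem' ha := ⟨by
      rw [UpperHalfPlane.mdifferentiable_iff]
      exact (UpperHalfPlane.mdifferentiable_iff.mp ha.1).neg, ha.2.neg⟩

theorem mdiff_comp_heckePt {f : ℍ → ℂ} (hf : MDiff f) (i : HIdx p) :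
    MDiff (fun τ => f (heckePt p i τ)) := by
  have hp : 0 < (p : ℝ) := by exact_mod_cast Nat.pos_of_ne_zero (NeZero.ne p)
  rw [UpperHalfPlane.mdifferentiable_iff] at hf ⊢
  cases i with
  | none =>
    refine (hf.comp (f := fun z : ℂ => (p : ℂ) * z) (by fun_prop) (fun z hz => ?_)).congr
      fun z hz => ?_
    · simpa using mul_pos hp hz
    · have : (0 : ℝ) < ((p : ℂ) * z).im := by simpa using mul_pos hp hz
      simp only [Function.comp_apply, ofComplex_apply_of_im_pos hz,
        ofComplex_apply_of_im_pos this, heckePt]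
  | some b =>
    refine (hf.comp (f := fun z : ℂ => (z + b.val) / p) (by fun_prop) (fun z hz => ?_)).congr
      fun z hz => ?_
    · simpa [Complex.div_natCast_im, -ZMod.natCast_val] using div_pos hz hp
    · have : (0 : ℝ) < ((z + b.val) / p).im := by
        simpa [Complex.div_natCast_im, -ZMod.natCast_val] using div_pos hz hp
      simp only [Function.comp_apply, ofComplex_apply_of_im_pos hz,
        ofComplex_apply_of_im_pos this, heckePt]

theorem xPair_mem (i : HIdx p) : (xFun p i, xSer p (zetaC p) i) ∈ expPairs p := by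
  refine ⟨mdiff_comp_heckePt p mdiff_jFun i, ?_⟩
  cases i with
  | none =>
    simp only [xSer]
    rw [jAt_eq]
    exact hasExp_jFun.comp_affine (p * p) 1 _ (qp_heckePt_none p) (tendsto_heckePt p none)
  | some b =>
    simp only [xSer]
    rw [jAt_eq]
    exact hasExp_jFun.comp_affine 1 _ _ (qp_heckePt_some p b) (tendsto_heckePt p (some b))

theorem discriminant_inv_pair :
    HasExp p (fun τ : ℍ => (ModularForm.discriminant τ)⁻¹) (qExpand ℂ p (deltaInvSer ℂ)) := by
  rw [← substHom_one]
  exact HasExp.comp_affine (φ := id) hasExp_discriminant_inv p 1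
    (fun τ => by simp [qp_mul 1 p (one_mul p) τ]) tendsto_id

theorem uPair_mem (i : HIdx p) : (uFun p i, uSer p (zetaC p) i) ∈ expPairs p := by
  cases i with
  | none =>
    have hc : ((fun _ : ℍ => (p : ℂ) ^ 12), (p : LaurentSeries ℂ) ^ 12) ∈ expPairs p := by
      refine ⟨mdifferentiable_const, ?_⟩
      have h := HasExp.const (n := p) ((p : ℂ) ^ 12)
      rwa [map_pow, map_natCast] at h
    have h1 : ((fun τ => ModularForm.discriminant (heckePt p none τ)),
        qExpand ℂ (p * p) (deltaSer ℂ)) ∈ expPairs p := by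
      refine ⟨mdiff_comp_heckePt p mdiff_discriminant none, ?_⟩
      rw [← substHom_one]
      exact hasExp_discriminant.comp_affine (p * p) 1 _ (qp_heckePt_none p) (tendsto_heckePt p none)
    exact mul_mem hc (mul_mem h1
      (show ((fun τ : ℍ => (ModularForm.discriminant τ)⁻¹), qExpand ℂ p (deltaInvSer ℂ)) ∈
        expPairs p from ⟨mdiff_discriminant_inv, discriminant_inv_pair p⟩))
  | some b =>
    have h1 : ((fun τ => ModularForm.discriminant (heckePt p (some b) τ)),
        twist (zetaC p ^ b.val) (deltaSer ℂ)) ∈ expPairs p := by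
      refine ⟨mdiff_comp_heckePt p mdiff_discriminant (some b), ?_⟩
      have h := hasExp_discriminant.comp_affine 1 _ _ (qp_heckePt_some p b)
        (tendsto_heckePt p (some b))
      rwa [substHom_apply, qExpand_one_apply] at h
    exact mul_mem h1
      (show ((fun τ : ℍ => (ModularForm.discriminant τ)⁻¹), qExpand ℂ p (deltaInvSer ℂ)) ∈
        expPairs p from ⟨mdiff_discriminant_inv, discriminant_inv_pair p⟩)

end FLTAgent.ModEq
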