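import Fermat.Agent.ModEq.Invariant

/-!
# The series at prime level
-/

set_option autoImplicit false

noncomputable section

open HahnSeries ModularCurve Polynomial

namespace FLTAgent.ModEq

section Symm

variable {ι A B : Type*} [Fintype ι] [DecidableEq ι] [CommRing A] [CommRing B]

/-- `∏ᵢ (Y - xᵢ)`. -/
def rootPoly (x : ι → A) : A[X] := ∏ i, (Polynomial.X - Polynomial.C (x i))

/-- `∑ᵢ uᵢ ∏_{l ≠ i} (Y - x_l)`. -/
def interpPoly (x u : ι → A) : A[X] :=
  ∑ i, Polynomial.C (u i) * ∏ l ∈ Finset.univ.erase i, (Polynomial.X - Polynomial.C (x l))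

omit [DecidableEq ι] in
theorem rootPoly_monic (x : ι → A) : (rootPoly x).Monic :=
  monic_prod_of_monic _ _ fun i _ => monic_X_sub_C _

omit [DecidableEq ι] in
theorem rootPoly_natDegree [Nontrivial A] (x : ι → A) :
    (rootPoly x).natDegree = Fintype.card ι := by
  rw [rootPoly, natDegree_prod_of_monic _ _ fun i _ => monic_X_sub_C _]
  simp

omit [DecidableEq ι] in
theorem rootPoly_map (f : A →+* B) (x : ι → A) :
    (rootPoly x).map f = rootPoly (fun i => f (x i)) := by
  simp [rootPoly, Polynomial.map_prod]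

theorem interpPoly_map (f : A →+* B) (x u : ι → A) :
    (interpPoly x u).map f = interpPoly (fun i => f (x i)) (fun i => f (u i)) := by
  simp [interpPoly, Polynomial.map_prod, Polynomial.map_sum]

omit [DecidableEq ι] in
theorem rootPoly_perm (e : ι ≃ ι) (x : ι → A) : rootPoly (fun i => x (e i)) = rootPoly x :=
  Equiv.prod_comp e fun i => Polynomial.X - Polynomial.C (x i)

theorem interpPoly_perm (e : ι ≃ ι) (x u : ι → A) :
    interpPoly (fun i => x (e i)) (fun i => u (e i)) = interpPoly x u := by
  refine Fintype.sum_equiv e _ _ fun i => ?_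
  congr 1
  exact Finset.prod_equiv e (fun l => by simp) (fun l _ => rfl)

theorem interpPoly_eval (x u : ι → A) (i : ι) :
    (interpPoly x u).eval (x i) = u i * ∏ l ∈ Finset.univ.erase i, (x i - x l) := by
  rw [interpPoly, eval_finset_sum, Finset.sum_eq_single i]
  · simp [eval_prod]
  · intro k _ hki
    rw [eval_mul, eval_prod]
    refine mul_eq_zero_of_right _ (Finset.prod_eq_zero (i := i) ?_ (by simp))
    simp [Ne.symm hki]
  · simp

omit [DecidableEq ι] in
theorem rootPoly_eval_eq_zero (x : ι → A) (i : ι) : (rootPoly x).eval (x i) = 0 := by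
  rw [rootPoly, eval_prod]
  exact Finset.prod_eq_zero (Finset.mem_univ i) (by simp)

end Symm

section Series

variable {R S : Type*} [CommRing R] [CommRing S] (p : ℕ) [NeZero p]

/-- Index of the `p + 1` Hecke images. -/
abbrev HIdx : Type := Option (ZMod p)

/-- The series of `j` at the `p + 1` Hecke images, in `t = q^{1/p}`. -/
def xSer (w : Rˣ) : HIdx p → LaurentSeries R
  | none => jAt 1 (p * p)
  | some b => jAt (w ^ b.val) 1

/-- The series of `p^{12} Δ(pτ)/Δ(τ)` and its conjugates, in `t = q^{1/p}`. -/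
def uSer (w : Rˣ) : HIdx p → LaurentSeries R
  | none => (p : LaurentSeries R) ^ 12 *
      (qExpand R (p * p) (deltaSer R) * qExpand R p (deltaInvSer R))
  | some b => twist (w ^ b.val) (deltaSer R) * qExpand R p (deltaInvSer R)

theorem coeffMap_xSer (f : R →+* S) (w : Rˣ) (i : HIdx p) :
    coeffMap f (xSer p w i) = xSer p (Units.map f.toMonoidHom w) i := by
  cases i <;> simp [xSer, coeffMap_jAt, map_pow]

theorem coeffMap_uSer (f : R →+* S) (w : Rˣ) (i : HIdx p) :
    coeffMap f (uSer p w i) = uSer p (Units.map f.toMonoidHom w) i := by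
  cases i <;>
    simp [uSer, coeffMap_qExpand, coeffMap_twist, coeffMap_deltaSer, coeffMap_deltaInvSer, map_pow]

/-- Multiplication of the finite indices by a unit. -/
def idxMul (k : (ZMod p)ˣ) : HIdx p ≃ HIdx p := Equiv.optionCongr k.mulLeft

theorem pow_val_mul {w : Rˣ} (hw : w ^ p = 1) (k b : ZMod p) :
    (w ^ k.val) ^ b.val = w ^ (k * b).val := by
  rw [← pow_mul, ZMod.val_mul, ← pow_eq_pow_mod _ hw]

end Series

end FLTAgent.ModEq
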