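import Fermat.Agent.ModEq.PrimeAnalytic

/-!
# The modular equation of prime level over `ℤ`
-/

set_option autoImplicit false

noncomputable section

open HahnSeries ModularCurve Filter Topology UpperHalfPlane Function Polynomial
open scoped Real MatrixGroups Manifold ModularForm

set_option maxHeartbeats 400000

namespace FLTAgent.ModEq

variable (p : ℕ) [Fact p.Prime]

/-- A polynomial evaluated over all `p`-th roots of unity sums to an integer. -/
theorem sum_eval_roots_int {ζ : ℂ} (hζ : IsPrimitiveRoot ζ p) (P : Polynomial ℤ) :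
    ∃ z : ℤ, ∑ b : ZMod p, Polynomial.aeval (ζ ^ b.val) P = z := by
  refine ⟨∑ i ∈ Finset.range (P.natDegree + 1), P.coeff i * (if p ∣ i then (p : ℤ) else 0), ?_⟩
  simp_rw [Polynomial.aeval_eq_sum_range, zsmul_eq_mul]
  rw [Finset.sum_comm, Int.cast_sum]
  refine Finset.sum_congr rfl fun i _ => ?_
  rw [← Finset.mul_sum, Int.cast_mul]
  congr 1
  have hre : ∑ b : ZMod p, (ζ ^ b.val) ^ i = ∑ k ∈ Finset.range p, (ζ ^ i) ^ k := by
    refine Finset.sum_nbij' (fun b => b.val) (fun k => (k : ZMod p)) ?_ ?_ ?_ ?_ ?_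
    · intro b _; simp [ZMod.val_lt]
    · intro k _; simp
    · intro b _; simp
    · intro k hk; simp [ZMod.val_cast_of_lt (Finset.mem_range.mp hk)]
    · intro b _; rw [← pow_mul, ← pow_mul, mul_comm]
  rw [hre]
  by_cases hi : p ∣ i
  · rw [if_pos hi, (hζ.pow_eq_one_iff_dvd i).mpr hi]
    simp
  · rw [if_neg hi]
    have h1 : ζ ^ i ≠ 1 := fun h => hi ((hζ.pow_eq_one_iff_dvd i).mp h)
    rw [geom_sum_eq h1, ← pow_mul, mul_comm, pow_mul, hζ.pow_eq_one, one_pow, sub_self, zero_div,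
      Int.cast_zero]

/-- An element of `ℤ[ζ_p]` fixed by all the substitutions `ζ ↦ ζ^k` is an integer. -/
theorem isInt_of_fixed {ζ : ℂ} (hζ : IsPrimitiveRoot ζ p) (P : Polynomial ℤ)
    (h : ∀ b : ZMod p, b ≠ 0 → Polynomial.aeval (ζ ^ b.val) P = Polynomial.aeval ζ P) :
    ∃ z : ℤ, Polynomial.aeval ζ P = z := by
  obtain ⟨z, hz⟩ := sum_eval_roots_int p hζ P
  set x := Polynomial.aeval ζ P
  rw [← Finset.add_sum_erase _ _ (Finset.mem_univ (0 : ZMod p)),
    Finset.sum_congr rfl (fun b hb => h b (Finset.ne_of_mem_erase hb)), Finset.sum_const,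
    Finset.card_erase_of_mem (Finset.mem_univ _), Finset.card_univ, ZMod.card, ZMod.val_zero,
    pow_zero, nsmul_eq_mul] at hz
  have hone : Polynomial.aeval (1 : ℂ) P = ((P.eval 1 : ℤ) : ℂ) := by
    rw [← map_one (algebraMap ℤ ℂ), Polynomial.aeval_algebraMap_apply]
    simp [Polynomial.coe_aeval_eq_eval]
  rw [hone] at hz
  have hp2 := (Fact.out : p.Prime).two_le
  have hp1 : ((p - 1 : ℕ) : ℂ) ≠ 0 := by exact_mod_cast (show p - 1 ≠ 0 by omega)
  set q : ℚ := ((z - P.eval 1 : ℤ) : ℚ) / ((p - 1 : ℕ) : ℚ) with hqdef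
  have hx : x = algebraMap ℚ ℂ q := by
    rw [hqdef, map_div₀, map_intCast, map_natCast, eq_div_iff hp1]
    push_cast
    linear_combination hz
  have hint : IsIntegral ℤ x := by
    have h0 := hζ.isIntegral (Fact.out : p.Prime).pos
    have key : ∀ Q : Polynomial ℤ, IsIntegral ℤ (Polynomial.aeval ζ Q) := by
      intro Q
      induction Q using Polynomial.induction_on' with
      | add f g hf hg => rw [map_add]; exact hf.add hg
      | monomial n a =>
        rw [Polynomial.aeval_monomial]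
        exact isIntegral_algebraMap.mul (h0.pow n)
    exact key P
  rw [hx, isIntegral_algebraMap_iff (FaithfulSMul.algebraMap_injective ℚ ℂ)] at hint
  obtain ⟨m, hm⟩ := IsIntegrallyClosed.isIntegral_iff.mp hint
  exact ⟨m, by rw [hx, ← hm]; simp⟩

/-- The coefficient ring `ℤ[ζ_p]`. -/
abbrev CycInt : Type := AdjoinRoot (Polynomial.cyclotomic p ℤ)

/-- `ζ_p` as a unit of `ℤ[ζ_p]`. -/
def zetaR : (CycInt p)ˣ :=
  Units.ofPowEqOne (AdjoinRoot.root (Polynomial.cyclotomic p ℤ)) p (by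
    obtain ⟨g, hg⟩ := Polynomial.cyclotomic.dvd_X_pow_sub_one p ℤ
    have h := congrArg (AdjoinRoot.mk (Polynomial.cyclotomic p ℤ)) hg
    simp [AdjoinRoot.mk_self, sub_eq_zero] at h
    exact h) (NeZero.ne p)

@[simp] theorem coe_zetaR : (zetaR p : CycInt p) = AdjoinRoot.root (Polynomial.cyclotomic p ℤ) := rfl

/-- `ℤ[ζ_p] → B` given by a root of the cyclotomic polynomial. -/
def cycHom {B : Type*} [CommRing B] (w : B) (hw : (Polynomial.cyclotomic p B).IsRoot w) :
    CycInt p →+* B :=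
  AdjoinRoot.lift (Int.castRingHom B) w (by
    rw [Polynomial.eval₂_eq_eval_map, Polynomial.map_cyclotomic]; exact hw)

theorem cycHom_zetaR {B : Type*} [CommRing B] (w : Bˣ)
    (hw : (Polynomial.cyclotomic p B).IsRoot (w : B)) :
    Units.map (cycHom p (w : B) hw).toMonoidHom (zetaR p) = w := by
  ext; simp [cycHom]

theorem cycHom_mk {B : Type*} [CommRing B] (w : B) (hw : (Polynomial.cyclotomic p B).IsRoot w)
    (P : Polynomial ℤ) :
    cycHom p w hw (AdjoinRoot.mk _ P) = Polynomial.aeval w P := by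
  rw [cycHom, AdjoinRoot.lift_mk, Polynomial.aeval_def, algebraMap_int_eq]

theorem isPrimitiveRoot_zetaC : IsPrimitiveRoot ((zetaC p : ℂˣ) : ℂ) p := by
  simpa [zetaC] using Complex.isPrimitiveRoot_exp p (NeZero.ne p)

theorem isRoot_pow (b : ZMod p) (hb : b ≠ 0) :
    (Polynomial.cyclotomic p ℂ).IsRoot ((zetaC p ^ b.val : ℂˣ) : ℂ) := by
  rw [Units.val_pow_eq_pow_val]
  refine ((isPrimitiveRoot_zetaC p).pow_of_coprime _ ?_).isRoot_cyclotomic (Fact.out : p.Prime).pos
  rw [Nat.coprime_comm, (Fact.out : p.Prime).coprime_iff_not_dvd]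
  intro h
  rw [← ZMod.natCast_eq_zero_iff, ZMod.natCast_zmod_val] at h
  exact hb h

/-- The embedding `ℤ[ζ_p] → ℂ`. -/
def cycC : CycInt p →+* ℂ :=
  cycHom p ((zetaC p : ℂˣ) : ℂ)
    ((isPrimitiveRoot_zetaC p).isRoot_cyclotomic (Fact.out : p.Prime).pos)

theorem cycC_injective : Function.Injective (cycC p) := by
  refine (injective_iff_map_eq_zero _).mpr fun c hc => ?_
  obtain ⟨P, rfl⟩ := AdjoinRoot.mk_surjective c
  rw [cycC, cycHom_mk] at hc
  rw [AdjoinRoot.mk_eq_zero, Polynomial.cyclotomic_eq_minpoly (isPrimitiveRoot_zetaC p)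
    (Fact.out : p.Prime).pos]
  exact minpoly.isIntegrallyClosed_dvd
    ((isPrimitiveRoot_zetaC p).isIntegral (Fact.out : p.Prime).pos) hc

/-- A symmetric expression in the series, as a natural operation. -/
theorem coeff_mem_range (F : ∀ (A : Type) [CommRing A], (HIdx p → A) → (HIdx p → A) → A)
    (hnat : ∀ (A B : Type) [CommRing A] [CommRing B] (f : A →+* B) (x u : HIdx p → A),
      f (F A x u) = F B (fun i => f (x i)) (fun i => f (u i)))
    (hperm : ∀ (A : Type) [CommRing A] (e : HIdx p ≃ HIdx p) (x u : HIdx p → A),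
      F A (fun i => x (e i)) (fun i => u (e i)) = F A x u) :
    ∃ P : Polynomial ℤ, F (LaurentSeries (CycInt p)) (xSer p (zetaR p)) (uSer p (zetaR p)) =
      evalJ (CycInt p) p P := by
  set c := F (LaurentSeries (CycInt p)) (xSer p (zetaR p)) (uSer p (zetaR p))
  have himage : ∀ (w : ℂˣ) (hw : (Polynomial.cyclotomic p ℂ).IsRoot (w : ℂ)),
      coeffMap (cycHom p (w : ℂ) hw) c = F (LaurentSeries ℂ) (xSer p w) (uSer p w) := by
    intro w hw
    rw [hnat]
    congr 1 <;> ext1 i <;> simp only [coeffMap_xSer, coeffMap_uSer, cycHom_zetaR]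
  have hwperm : ∀ b : ZMod p, b ≠ 0 →
      F (LaurentSeries ℂ) (xSer p (zetaC p ^ b.val)) (uSer p (zetaC p ^ b.val)) =
        F (LaurentSeries ℂ) (xSer p (zetaC p)) (uSer p (zetaC p)) := by
    intro b hb
    have hw : (zetaC p) ^ p = 1 := Units.ext (by simpa using (isPrimitiveRoot_zetaC p).pow_eq_one)
    rw [← hperm _ (idxMul p (Units.mk0 b hb)) (xSer p (zetaC p)) (uSer p (zetaC p))]
    congr 1 <;> ext1 i <;> cases i <;>
      simp [xSer, uSer, idxMul, pow_val_mul p hw]
  have hinteger : ∀ k : ℤ, ∃ z : ℤ, cycC p (c.coeff k) = z := by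
    intro k
    obtain ⟨P, hP⟩ := AdjoinRoot.mk_surjective (c.coeff k)
    have hval : ∀ (w : ℂˣ) (hw : (Polynomial.cyclotomic p ℂ).IsRoot (w : ℂ)),
        Polynomial.aeval (w : ℂ) P =
          (F (LaurentSeries ℂ) (xSer p w) (uSer p w)).coeff k := by
      intro w hw
      rw [← himage w hw, coeffMap_coeff, ← hP, cycHom_mk]
    obtain ⟨z, hz⟩ := isInt_of_fixed p (isPrimitiveRoot_zetaC p) P (fun b hb => by
      have h1 := hval (zetaC p ^ b.val) (isRoot_pow p b hb)
      rw [hwperm b hb, ← hval (zetaC p)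
        ((isPrimitiveRoot_zetaC p).isRoot_cyclotomic (Fact.out : p.Prime).pos)] at h1
      simpa using h1)
    exact ⟨z, by rw [← hP, cycC, cycHom_mk, hz]⟩
  choose z hz using hinteger
  let G : LaurentSeries ℤ :=
    { coeff := z
      isPWO_support' := c.isPWO_support.mono (fun k hk h0 => hk (by
        have h := hz k
        rw [h0, map_zero] at h
        exact_mod_cast h.symm)) }
  have hG : coeffMap (Int.castRingHom ℂ) G = coeffMap (cycC p) c := by
    ext k; simp [G, hz]
  set fn : ℍ → ℂ := F (ℍ → ℂ) (xFun p) (uFun p)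
  let xP : HIdx p → expPairs p := fun i => ⟨_, xPair_mem p i⟩
  let uP : HIdx p → expPairs p := fun i => ⟨_, uPair_mem p i⟩
  have hpair := (F (expPairs p) xP uP).2
  have h1 : ((expPairs p).subtype (F (expPairs p) xP uP)).1 = fn := by
    have h := hnat _ _ ((RingHom.fst _ _).comp (expPairs p).subtype) xP uP
    exact h
  have h2 : ((expPairs p).subtype (F (expPairs p) xP uP)).2 =
      coeffMap (Int.castRingHom ℂ) G := by
    have h := hnat _ _ ((RingHom.snd _ _).comp (expPairs p).subtype) xP uP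
    rw [hG, cycC, himage]
    exact h
  simp only [Subring.subtype_apply] at h1 h2
  obtain ⟨hhol, hexp⟩ := hpair
  rw [h1] at hhol hexp
  rw [h2] at hexp
  have hfn : ∀ τ, fn τ = F ℂ (fun i => xFun p i τ) (fun i => uFun p i τ) := fun τ =>
    hnat _ _ (Pi.evalRingHom (fun _ : ℍ => ℂ) τ) (xFun p) (uFun p)
  have hinv : ∀ (γ : SL(2, ℤ)) (τ : ℍ), fn (γ • τ) = fn τ := fun γ τ => by
    rw [hfn, hfn]
    exact sym_invariant p (F ℂ) (fun e x u => hperm ℂ e x u) γ τ
  obtain ⟨P, hP⟩ := int_poly_of_invariant p hinv hhol hexp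
  refine ⟨P, coeffMap_injective (cycC p) (cycC_injective p) ?_⟩
  rw [← hG, hP, coeffMap_evalJ, coeffMap_evalJ]

theorem primeLevel_exists : ∃ Φ H U : ℤ[X][X],
    Φ.Monic ∧ Φ.natDegree = p + 1 ∧ U.Monic ∧
    ∀ (B : Type*) [CommRing B] (w : Bˣ), (Polynomial.cyclotomic p B).IsRoot (w : B) →
      Φ.map (evalJ B p) = rootPoly (xSer p w) ∧
      H.map (evalJ B p) = interpPoly (xSer p w) (uSer p w) ∧
      U.map (evalJ B p) = rootPoly (uSer p w) := by
  haveI : IsDomain (CycInt p) := (cycC_injective p).isDomain _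
  haveI : CharZero (CycInt p) :=
    charZero_of_injective_ringHom (f := Int.castRingHom _) (fun a b h => by
      have := congrArg (cycC p) h
      simpa using this) |> fun h => h
  have hΦ : rootPoly (xSer p (zetaR p)) ∈ Polynomial.lifts (evalJ (CycInt p) p) := by
    rw [Polynomial.lifts_iff_coeff_lifts]
    intro k
    obtain ⟨P, hP⟩ := coeff_mem_range p (fun A _ x _ => (rootPoly x).coeff k)
      (fun A B _ _ f x _ => by rw [← rootPoly_map, Polynomial.coeff_map])
      (fun A _ e x _ => by rw [rootPoly_perm])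
    exact ⟨P, hP.symm⟩
  have hU : rootPoly (uSer p (zetaR p)) ∈ Polynomial.lifts (evalJ (CycInt p) p) := by
    rw [Polynomial.lifts_iff_coeff_lifts]
    intro k
    obtain ⟨P, hP⟩ := coeff_mem_range p (fun A _ _ u => (rootPoly u).coeff k)
      (fun A B _ _ f _ u => by rw [← rootPoly_map, Polynomial.coeff_map])
      (fun A _ e _ u => by rw [rootPoly_perm])
    exact ⟨P, hP.symm⟩
  have hH : interpPoly (xSer p (zetaR p)) (uSer p (zetaR p)) ∈
      Polynomial.lifts (evalJ (CycInt p) p) := by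
    rw [Polynomial.lifts_iff_coeff_lifts]
    intro k
    obtain ⟨P, hP⟩ := coeff_mem_range p (fun A _ x u => (interpPoly x u).coeff k)
      (fun A B _ _ f x u => by rw [← interpPoly_map, Polynomial.coeff_map])
      (fun A _ e x u => by rw [interpPoly_perm])
    exact ⟨P, hP.symm⟩
  obtain ⟨Φ, hΦ1, hΦ2, hΦ3⟩ :=
    Polynomial.lifts_and_natDegree_eq_and_monic hΦ (rootPoly_monic _)
  obtain ⟨U, hU1, -, hU3⟩ := Polynomial.lifts_and_natDegree_eq_and_monic hU (rootPoly_monic _)
  obtain ⟨H, hH1⟩ := Polynomial.mem_lifts _ |>.mp hH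
  refine ⟨Φ, H, U, hΦ3, ?_, hU3, fun B _ w hw => ?_⟩
  · rw [hΦ2, rootPoly_natDegree]; simp
  · have key : ∀ (Q : ℤ[X][X]), Q.map (evalJ B p) =
        (Q.map (evalJ (CycInt p) p)).map (coeffMap (cycHom p (w : B) hw)) := fun Q => by
      rw [Polynomial.map_map, coeffMap_comp_evalJ]
    rw [key, key, key, hΦ1, hH1, hU1, rootPoly_map, rootPoly_map, interpPoly_map]
    have hx : ∀ i, coeffMap (cycHom p (w : B) hw) (xSer p (zetaR p) i) = xSer p w i := fun i => by
      rw [coeffMap_xSer, cycHom_zetaR]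
    have hu : ∀ i, coeffMap (cycHom p (w : B) hw) (uSer p (zetaR p) i) = uSer p w i := fun i => by
      rw [coeffMap_uSer, cycHom_zetaR]
    simp [hx, hu]

end FLTAgent.ModEq
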