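import Fermat.Agent.ModEq.Triples

/-!
# Transport of the prime-level identities and lemmas about `K(J)`
-/

set_option autoImplicit false

noncomputable section

open HahnSeries ModularCurve Polynomial IntermediateField
open scoped IntermediateField.algebraAdjoinAdjoin

set_option maxHeartbeats 400000

namespace FLTAgent.ModEq

section EvalAt

variable {L : Type*} [CommRing L]

/-- `ℤ[X] → L`, `P ↦ P(x)`. -/
def evalAt (x : L) : Polynomial ℤ →+* L := Polynomial.eval₂RingHom (Int.castRingHom L) x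

theorem evalAt_apply (x : L) (P : Polynomial ℤ) :
    evalAt x P = P.eval₂ (Int.castRingHom L) x := rfl

theorem evalAt_X (x : L) : evalAt x Polynomial.X = x := by simp [evalAt_apply]

theorem comp_evalAt {M : Type*} [CommRing M] (f : L →+* M) (x : L) :
    f.comp (evalAt x) = evalAt (f x) := by
  refine Polynomial.ringHom_ext (fun a => ?_) ?_ <;> simp [evalAt_apply]

theorem evalJ_eq_evalAt (R : Type*) [CommRing R] (m : ℕ) :
    evalJ R m = evalAt (jAt (1 : Rˣ) m) := by
  refine Polynomial.ringHom_ext (fun a => ?_) ?_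
  · simp [evalJ_apply, evalAt_apply]
  · simp [evalJ_apply, evalAt_apply]

theorem evalAt_mem {S : Type*} [SetLike S L] [SubringClass S L] (s : S) {x : L} (hx : x ∈ s)
    (P : Polynomial ℤ) : evalAt x P ∈ s := by
  induction P using Polynomial.induction_on' with
  | add f g hf hg => rw [map_add]; exact add_mem hf hg
  | monomial n a =>
    simp only [evalAt_apply, Polynomial.eval₂_monomial, eq_intCast]
    exact mul_mem (intCast_mem s a) (pow_mem hx n)

end EvalAt

section Roots

theorem exists_zeta_root {K : Type*} [Field K] {n p : ℕ} [NeZero n] [Fact p.Prime] {ζ : Kˣ}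
    (hζ : IsPrimitiveRoot ζ n) (hp : p ∣ n) :
    (Polynomial.cyclotomic p K).IsRoot ((ζ ^ (n / p) : Kˣ) : K) := by
  have h1 : IsPrimitiveRoot (ζ : K) n := hζ.map_of_injective Units.val_injective
    (f := Units.coeHom K)
  rw [Units.val_pow_eq_pow_val]
  refine (h1.pow (Nat.pos_of_ne_zero (NeZero.ne n)) ?_).isRoot_cyclotomic (Fact.out : p.Prime).pos
  rw [Nat.div_mul_cancel hp]

variable {K : Type*} [Field K] {n : ℕ} [NeZero n] (p : ℕ) [Fact p.Prime]

/-- The prime-level root identity at an arbitrary triple. -/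
theorem map_evalAt_tSer {ζ : Kˣ} (hζ : IsPrimitiveRoot ζ n) {Φ : ℤ[X][X]}
    (hΦ : ∀ (w : Kˣ), (Polynomial.cyclotomic p K).IsRoot (w : K) →
      Φ.map (evalJ K p) = rootPoly (xSer p w))
    {t : ℕ × ℕ × ℕ} (ha : 0 < t.1) (hdvd : t.2.2 * p ∣ n) :
    Φ.map (evalAt (tSer ζ n t)) = rootPoly (fun i => tSer ζ n (childTriple p t i)) := by
  obtain ⟨a, b, d⟩ := t
  simp only at ha hdvd
  obtain ⟨k, hk⟩ := hdvd
  have hn := Nat.pos_of_ne_zero (NeZero.ne n)
  have hp := (Fact.out : p.Prime).pos
  have hd0 : 0 < d := Nat.pos_of_ne_zero fun h0 => by simp [h0] at hk; omega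
  have hk0 : 0 < k := Nat.pos_of_ne_zero fun h0 => by simp [h0] at hk; omega
  have e1 : n / d = p * k := by rw [hk, mul_assoc, Nat.mul_div_cancel_left _ hd0]
  have e2 : n / (d * p) = k := by rw [hk, Nat.mul_div_cancel_left _ (Nat.mul_pos hd0 hp)]
  have e3 : n / p = d * k := by
    rw [hk, show d * p * k = p * (d * k) by ring, Nat.mul_div_cancel_left _ hp]
  haveI : NeZero (a * k) := ⟨(Nat.mul_pos ha hk0).ne'⟩
  set v : Kˣ := ζ ^ (b * k)
  set σ := substHom v (a * k)
  have hw := exists_zeta_root hζ (p := p) (Dvd.intro (d * k) (by rw [hk]; ring))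
  have hx : ∀ i, σ (xSer p (ζ ^ (n / p)) i) = tSer ζ n (childTriple p (a, b, d) i) := by
    intro i
    cases i with
    | none =>
      simp only [xSer, childTriple]
      haveI : NeZero (p * p) := ⟨(Nat.mul_pos hp hp).ne'⟩
      rw [substHom_jAt, tSer_mod ζ n hζ.pow_eq_one ⟨p * k, by rw [hk]; ring⟩, tSer_def, e1, one_mul]
      congr 1
      · rw [← pow_mul]; congr 1; ring
      · ring
    | some c =>
      simp only [xSer, childTriple]
      rw [substHom_jAt, tSer_def, e2, e3]
      congr 1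
      · simp only [v, ← pow_mul, ← _root_.pow_add]; congr 1; ring
      · ring
  have hJ : σ (jAt (1 : Kˣ) p) = tSer ζ n (a, b, d) := by
    rw [substHom_jAt, tSer_def, e1, one_mul]
    congr 1
    · rw [← pow_mul]; congr 1; ring
    · ring
  have h := congrArg (Polynomial.map σ) (hΦ _ hw)
  rw [Polynomial.map_map, evalJ_eq_evalAt, comp_evalAt, hJ, rootPoly_map] at h
  simp only [hx] at h
  exact h

theorem map_evalAt_base (hpn : p ∣ n) {Q : ℤ[X][X]} {P : (LaurentSeries K)[X]}
    (hQ : Q.map (evalJ K p) = P) :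
    haveI : NeZero (n / p) := ⟨(Nat.div_pos (Nat.le_of_dvd (Nat.pos_of_ne_zero (NeZero.ne n)) hpn)
      (Fact.out : p.Prime).pos).ne'⟩
    Q.map (evalAt (jAt (1 : Kˣ) n)) = P.map (substHom (1 : Kˣ) (n / p)) := by
  rw [← hQ, Polynomial.map_map, evalJ_eq_evalAt, comp_evalAt, substHom_jAt, one_pow, mul_one,
    Nat.div_mul_cancel hpn]

end Roots

section Field

variable (K : Type*) [Field K] (n : ℕ) [NeZero n]

/-- `K(J)` with `J = j(t^n)`. -/
abbrev baseField : IntermediateField K (LaurentSeries K) :=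
  K⟮jAt (1 : Kˣ) n⟯

variable {K n}

theorem algebraMap_eq_C :
    algebraMap K (LaurentSeries K) = (HahnSeries.C : K →+* LaurentSeries K) := by
  ext1 c
  rw [algebraMap_laurentSeries_eq_single]
  rfl

theorem aeval_jAt (u : Kˣ) (m : ℕ) (P : K[X]) :
    Polynomial.aeval (jAt u m) P =
      P.eval₂ (HahnSeries.C.comp (RingHom.id K)) (jAt u m) := by
  rw [Polynomial.aeval_def, algebraMap_eq_C, RingHom.comp_id]

theorem aeval_jAt_eq_zero {u : Kˣ} {m : ℕ} [NeZero m] {P : K[X]}
    (h : Polynomial.aeval (jAt u m) P = 0) : P = 0 :=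
  eval_jAt_eq_zero (RingHom.id K) Function.injective_id P u m (by rwa [← aeval_jAt])

theorem aeval_jAt_natDegree {u v : Kˣ} {m l : ℕ} [NeZero m] [NeZero l] {P R : K[X]} (hP : P ≠ 0)
    (h : Polynomial.aeval (jAt u m) P = Polynomial.aeval (jAt v l) R) :
    P.natDegree * m = R.natDegree * l := by
  rw [aeval_jAt, aeval_jAt] at h
  set φ : K →+* LaurentSeries K := HahnSeries.C.comp (RingHom.id K)
  have hφ : ∀ c, GeOrd (φ c) 0 := fun c => geOrd_C c
  have hR : R ≠ 0 := by
    rintro rfl
    rw [Polynomial.eval₂_zero] at h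
    exact hP (eval_jAt_eq_zero (RingHom.id K) Function.injective_id P u m h)
  have key : ∀ (Q : K[X]) (w : Kˣ) (k : ℕ) [NeZero k], Q ≠ 0 →
      (Q.eval₂ φ (jAt w k)).coeff (-((Q.natDegree : ℤ) * k)) ≠ 0 := by
    intro Q w k _ hQ h0
    rw [eval_jAt_coeff φ hφ] at h0
    simp only [φ, RingHom.comp_apply, RingHom.id_apply, HahnSeries.C_apply,
      HahnSeries.coeff_single_same, mul_eq_zero] at h0
    rcases h0 with h0 | h0
    · exact hQ (Polynomial.leadingCoeff_eq_zero.mp h0)
    · exact Units.ne_zero _ h0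
  have h1 := key P u m hP
  have h2 := key R v l hR
  have g1 := geOrd_eval_jAt φ hφ P u m
  have g2 := geOrd_eval_jAt φ hφ R v l
  have a1 : ¬ -((P.natDegree : ℤ) * m) < -((R.natDegree : ℤ) * l) := fun hlt => h1 (h ▸ g2 _ hlt)
  have a2 : ¬ -((R.natDegree : ℤ) * l) < -((P.natDegree : ℤ) * m) := fun hlt =>
    h2 (h.symm ▸ g1 _ hlt)
  have : (P.natDegree : ℤ) * m = R.natDegree * l := by omega
  exact_mod_cast this

theorem transcendental_jAt (u : Kˣ) (m : ℕ) [NeZero m] : Transcendental K (jAt u m) :=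
  fun ⟨_, hP, h⟩ => hP (aeval_jAt_eq_zero h)

/-- An element of `K(J)` integral over `K[J]` lies in `K[J]`. -/
theorem mem_adjoin_of_isIntegral {z : LaurentSeries K} (hz : z ∈ baseField K n)
    (hint : IsIntegral (Algebra.adjoin K {jAt (1 : Kˣ) n}) z) :
    ∃ P : K[X], Polynomial.aeval (jAt (1 : Kˣ) n) P = z := by
  set x := jAt (1 : Kˣ) n
  have e : K[X] ≃ₐ[K] Algebra.adjoin K {x} :=
    (AlgEquiv.ofInjective (Polynomial.aeval x)
      (transcendental_iff_injective.mp (transcendental_jAt (1 : Kˣ) n))).trans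
        (Subalgebra.equivOfEq _ _ (Algebra.adjoin_singleton_eq_range_aeval K x).symm)
  haveI : IsIntegrallyClosed (Algebra.adjoin K {x}) :=
    IsIntegrallyClosed.of_equiv e.toRingEquiv
  have hint' : IsIntegral (Algebra.adjoin K {x}) (⟨z, hz⟩ : K⟮x⟯) :=
    (isIntegral_algebraMap_iff (A := K⟮x⟯) (B := LaurentSeries K) Subtype.val_injective).mp hint
  obtain ⟨y, hy⟩ := IsIntegrallyClosed.isIntegral_iff.mp hint'
  have hy2 : (y : LaurentSeries K) ∈ (Polynomial.aeval (R := K) x).range :=
    (Algebra.adjoin_singleton_eq_range_aeval K x).le y.2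
  obtain ⟨P, hP⟩ := hy2
  exact ⟨P, hP.trans (congrArg Subtype.val hy)⟩

theorem map_eq_self_of_fixed {f : LaurentSeries K →ₐ[K] LaurentSeries K}
    {x : LaurentSeries K} (hf : f x = x) {z : LaurentSeries K} (hz : z ∈ K⟮x⟯) : f z = z := by
  induction hz using IntermediateField.adjoin_induction with
  | mem y hy => obtain rfl := Set.mem_singleton_iff.mp hy; exact hf
  | algebraMap c => exact f.commutes c
  | add y y' _ _ h h' => rw [map_add, h, h']
  | inv y _ h => rw [map_inv₀, h]
  | mul y y' _ _ h h' => rw [map_mul, h, h']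

/-- `twist` as an algebra map. -/
def twistAlg (w : Kˣ) : LaurentSeries K →ₐ[K] LaurentSeries K where
  __ := twist w
  commutes' c := by
    rw [algebraMap_laurentSeries_eq_single]
    ext k
    rcases eq_or_ne k 0 with rfl | hk
    · simp
    · simp [HahnSeries.coeff_single_of_ne hk]

@[simp] theorem twistAlg_apply (w : Kˣ) (f : LaurentSeries K) : twistAlg w f = twist w f := rfl

/-- `substHom` as an algebra map. -/
def substAlg (u : Kˣ) (m : ℕ) [NeZero m] : LaurentSeries K →ₐ[K] LaurentSeries K where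
  __ := substHom u m
  commutes' c := by
    show qExpand K m (twistAlg u (algebraMap K _ c)) = _
    rw [AlgHom.commutes, algebraMap_laurentSeries_eq_single, qExpand_single, mul_zero]

@[simp] theorem substAlg_apply (u : Kˣ) (m : ℕ) [NeZero m] (f : LaurentSeries K) :
    substAlg u m f = substHom u m f := rfl

end Field

section Poly

theorem map_eq_prod_of_roots {A L ι : Type*} [Field A] [Field L] (φ : A →+* L) {g : A[X]}
    (hg : g.Monic) (s : Finset ι) (v : ι → L) (hv : Set.InjOn v s)
    (hroot : ∀ i ∈ s, g.eval₂ φ (v i) = 0) (hdeg : g.natDegree ≤ s.card) :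
    g.map φ = ∏ i ∈ s, (Polynomial.X - Polynomial.C (v i)) := by
  refine Polynomial.eq_of_monic_of_dvd_of_natDegree_le
    (monic_prod_of_monic s _ fun i _ => monic_X_sub_C (v i)) (hg.map φ) ?_ ?_
  · refine Finset.prod_dvd_of_coprime ?_ fun i hi => ?_
    · intro i hi j hj hij
      exact Polynomial.isCoprime_X_sub_C_of_isUnit_sub
        (sub_ne_zero.mpr fun h => hij (hv hi hj h)).isUnit
    · rw [Polynomial.dvd_iff_isRoot, Polynomial.IsRoot.def, Polynomial.eval_map]
      exact hroot i hi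
  · rw [natDegree_prod_of_monic _ _ fun i _ => monic_X_sub_C _, hg.natDegree_map]
    simpa using hdeg

theorem monic_dvd_prod_X_sub_C {L ι : Type*} [Field L] (s : Finset ι) (v : ι → L) {g : L[X]}
    (hg : g.Monic) (hdvd : g ∣ ∏ i ∈ s, (Polynomial.X - Polynomial.C (v i)))
    (hv : Set.InjOn v s) :
    ∃ u ⊆ s, g = ∏ i ∈ u, (Polynomial.X - Polynomial.C (v i)) := by
  classical
  refine ⟨s.filter fun i => g.IsRoot (v i), Finset.filter_subset _ _, ?_⟩
  have hne : (∏ i ∈ s, (Polynomial.X - Polynomial.C (v i))) ≠ 0 :=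
    Finset.prod_ne_zero_iff.mpr fun i _ => X_sub_C_ne_zero _
  have hsplit : g.Splits :=
    (Polynomial.Splits.prod fun i _ => Polynomial.Splits.X_sub_C _).of_dvd hne hdvd
  have hnodup : g.roots.Nodup := by
    refine Multiset.nodup_of_le (Polynomial.roots.le_of_dvd hne hdvd) ?_
    rw [show (∏ i ∈ s, (Polynomial.X - Polynomial.C (v i))) =
      ((s.val.map v).map fun a => Polynomial.X - Polynomial.C a).prod from by
        rw [Multiset.map_map]; rfl, Polynomial.roots_multiset_prod_X_sub_C]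
    exact Multiset.Nodup.map_on (fun a ha b hb h => hv ha hb h) s.nodup
  have hr : g.roots = ((s.filter fun i => g.IsRoot (v i)).val.map v) := by
    refine (Multiset.Nodup.ext hnodup ?_).mpr fun a => ?_
    · exact Multiset.Nodup.map_on (fun a ha b hb h => hv
        (Finset.mem_of_mem_filter a ha) (Finset.mem_of_mem_filter b hb) h) (Finset.nodup _)
    · rw [Polynomial.mem_roots hg.ne_zero, Multiset.mem_map]
      constructor
      · intro h
        have h' := Polynomial.eval_eq_zero_of_dvd_of_eval_eq_zero hdvd h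
        rw [eval_prod, Finset.prod_eq_zero_iff] at h'
        obtain ⟨i, hi, hi'⟩ := h'
        rw [eval_sub, eval_X, eval_C, sub_eq_zero] at hi'
        subst hi'
        exact ⟨i, Finset.mem_filter.mpr ⟨hi, h⟩, rfl⟩
      · rintro ⟨i, hi, rfl⟩
        exact (Finset.mem_filter.mp hi).2
  conv_lhs => rw [hsplit.eq_prod_roots_of_monic hg, hr, Multiset.map_map]
  rfl

end Poly

end FLTAgent.ModEq
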